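/-
ORD (S33), chapter GEO, helper97: **the LOWER HALF of `ThickNodes` over an arbitrary normal `L`,
abstract part** (ruling #1815).

`ThickBC53.thickNodes_up` (helper53) produces `NodeFrame58.ThickNodes` over the ramified base from
two hypotheses `hK0`, `hK1` over the inertial field: at every two-branch closed point of the chart
there is a regular node (`BaseNode25.RegNode` of the local ring `locSub B 𝔪`) whose residue field
is that of the base.  This file produces `hK0`, `hK1` LITERALLY from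

* the chart facts of a nodal model (`NumData13.NodalNumData`),
* the LITERAL conclusion of `NodeRegAt10.NodeRegAt` on each chart (taken as a hypothesis so that the
  import closure stays light, exactly as in `BridgeK25`),
* `hrat` (helper73, RAT-NODES, helper53's reduced shape): `B / 𝔪 = R / π` at every node.

Chain: `BridgeK25.regNode_of_nodeRegAt` → `ThickRat53.hK_of_regNode_residue`.
The concrete instance over `K_I = InertField27.inertiaPart A L` is `ThickLow97`.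
-/
import Mathlib
import Fermat.Agent.ES.N34.NumData13
import Fermat.Agent.M1.Node.BridgeK25
import Fermat.Agent.M1.Base.ThickRat53

set_option autoImplicit false
set_option linter.unusedSectionVars false
set_option linter.unusedVariables false
set_option linter.style.haveILetI false

namespace Fermat.Agent.ORD.Geo.ThickLowAbs97

open IsLocalRing Fermat.Agent.ES.N34.NodalCore13 Fermat.Agent.ES.N34.NodalSmooth13
  Fermat.Agent.ES.N34.NumData13 Fermat.Agent.M1.Node.Thick25 Fermat.Agent.M1.Node.BaseNode25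

section Chart

variable {R F : Type*} [CommRing R] [Field F] [Algebra R F]

/-- The LITERAL body of `NodeRegAt10.NodeRegAt π B O1 O2` (regular two-branch nodes of the chart
`B`), restated here so that this file does not import the `~350`-module closure of `NodeRegAt10`.
`NodeRegAt10.NodeRegAt π B O1 O2` unfolds to this by `Iff.rfl` (see `ThickLow97`). -/
def RegAt (π : R) (B : Subalgebra R F) (O1 O2 : ValuationSubring F) : Prop :=
  ∀ (𝔪 : Ideal B) (h𝔪 : 𝔪.IsMaximal), algebraMap R B π ∈ 𝔪 →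
    ¬ OffBranch π B O1 𝔪 → ¬ OffBranch π B O2 𝔪 →
    (haveI := h𝔪.isPrime
     ∃ x y e : B, x * y = algebraMap R B π * e ∧
      (∀ c ∈ locSub B 𝔪, c ∈ O1) ∧ (∀ c ∈ locSub B 𝔪, c ∈ O2) ∧
      maximalIdeal ↥(locSub B 𝔪) = Ideal.span {algebraMap ↥B ↥(locSub B 𝔪) x,
        algebraMap ↥B ↥(locSub B 𝔪) y} ∧
      Prime (algebraMap ↥B ↥(locSub B 𝔪) x) ∧ Prime (algebraMap ↥B ↥(locSub B 𝔪) y) ∧
      ¬ algebraMap ↥B ↥(locSub B 𝔪) x ∣ algebraMap ↥B ↥(locSub B 𝔪) y ∧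
      ¬ algebraMap ↥B ↥(locSub B 𝔪) y ∣ algebraMap ↥B ↥(locSub B 𝔪) x ∧
      (∀ c : ↥(locSub B 𝔪), (∃ o ∈ O2, (c : F) = algebraMap R F π * o) ↔
        algebraMap ↥B ↥(locSub B 𝔪) x ∣ c) ∧
      (∀ c : ↥(locSub B 𝔪), (∃ o ∈ O1, (c : F) = algebraMap R F π * o) ↔
        algebraMap ↥B ↥(locSub B 𝔪) y ∣ c) ∧
      e ∉ 𝔪)

/-- **RAT-NODES on one chart** (helper53's reduced shape, helper73's deliverable): the residue
field of every two-branch closed point of the special fibre of the chart is that of the base. -/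
def RatAt (π : R) (B : Subalgebra R F) (O1 O2 : ValuationSubring F) : Prop :=
  ∀ (𝔪 : Ideal B), 𝔪.IsMaximal → algebraMap R B π ∈ 𝔪 →
    ¬ OffBranch π B O1 𝔪 → ¬ OffBranch π B O2 𝔪 →
    ∀ b : B, ∃ r : R, b - algebraMap R B r ∈ 𝔪

/-- The LITERAL hypothesis `hK` of `ThickBC53.thickAt_up` (= `hK0`, `hK1` of
`ThickBC53.thickNodes_up`) on one chart. -/
def HK (π : R) (B : Subalgebra R F) (O1 O2 : ValuationSubring F) : Prop :=
  ∀ 𝔪₁ : Ideal B, ∀ h : 𝔪₁.IsMaximal, algebraMap R B π ∈ 𝔪₁ →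
    ¬ OffBranch π B O1 𝔪₁ → ¬ OffBranch π B O2 𝔪₁ →
    (haveI := h.isPrime
     ∃ x y : F, RegNode (locSub B 𝔪₁).toSubring O1 O2 (algebraMap R F π) x y ∧
      ∀ c ∈ locSub B 𝔪₁, ∃ r : R, ∃ a ∈ locSub B 𝔪₁, ∃ b ∈ locSub B 𝔪₁,
        ∃ d ∈ locSub B 𝔪₁,
          c = algebraMap R F r + a * algebraMap R F π + b * x + d * y)

/-- **One chart**: regular nodes (`RegAt` = literal `NodeRegAt`) with rational residue fields
(`RatAt`) give the hypothesis `hK` of `ThickBC53.thickAt_up`. -/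
theorem hK_of_regAt {π : R} {B : Subalgebra R F} {O1 O2 : ValuationSubring F}
    (leO1 : ∀ x ∈ B, x ∈ O1) (leO2 : ∀ x ∈ B, x ∈ O2)
    (pi_nonunit1 : (algebraMap R F π)⁻¹ ∉ O1) (pi_nonunit2 : (algebraMap R F π)⁻¹ ∉ O2)
    (unif1 : ∀ x ∈ O1, x⁻¹ ∉ O1 → ∃ c ∈ O1, x = algebraMap R F π * c)
    (unif2 : ∀ x ∈ O2, x⁻¹ ∉ O2 → ∃ c ∈ O2, x = algebraMap R F π * c)
    (sat : ∀ b ∈ B, ∀ c : F, c ∈ O1 → c ∈ O2 → b = algebraMap R F π * c → c ∈ B)
    (hreg : RegAt π B O1 O2) (hrat : RatAt π B O1 O2) : HK π B O1 O2 := by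
  intro 𝔪 h𝔪 hπ h1 h2
  exact Fermat.Agent.M1.Base.ThickRat53.hK_of_regNode_residue (π := π) h𝔪
    (Fermat.Agent.M1.Node.BridgeK25.regNode_of_nodeRegAt π B O1 O2 leO1 leO2 pi_nonunit1
      pi_nonunit2 unif1 unif2 sat 𝔪 h𝔪 (hreg 𝔪 h𝔪 hπ h1 h2))
    (hrat 𝔪 h𝔪 hπ h1 h2)

end Chart

section Model

variable {R K F : Type*} [CommRing R] [Field K] [Field F] [Algebra R K] [Algebra K F]
  [Algebra R F] [IsScalarTower R K F]
  {π : R} {t : F} {B0 B1 : Subalgebra R F} {O1 O2 : ValuationSubring F}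

/-- `hK0` of `ThickBC53.thickNodes_up` from a nodal model. -/
theorem hK0_of_numData (N : NodalNumData R K F π t B0 B1 O1 O2)
    (hreg0 : RegAt π B0 O1 O2) (hrat0 : RatAt π B0 O1 O2) : HK π B0 O1 O2 :=
  hK_of_regAt N.model.le_O1_0 N.model.le_O2_0 N.model.pi_nonunit1 N.model.pi_nonunit2
    N.model.unif1 N.model.unif2 N.model.sat0 hreg0 hrat0

/-- `hK1` of `ThickBC53.thickNodes_up` from a nodal model. -/
theorem hK1_of_numData (N : NodalNumData R K F π t B0 B1 O1 O2)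
    (hreg1 : RegAt π B1 O1 O2) (hrat1 : RatAt π B1 O1 O2) : HK π B1 O1 O2 :=
  hK_of_regAt N.model.le_O1_1 N.model.le_O2_1 N.model.pi_nonunit1 N.model.pi_nonunit2
    N.model.unif1 N.model.unif2 N.model.sat1 hreg1 hrat1

/-- **Both halves**: `hK0 ∧ hK1` of `ThickBC53.thickNodes_up`, LITERALLY (the definitions `HK`,
`RegAt`, `RatAt` are reducible abbreviations of the literal binders: `Iff.rfl`). -/
theorem hK_of_numData (N : NodalNumData R K F π t B0 B1 O1 O2)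
    (hreg0 : RegAt π B0 O1 O2) (hreg1 : RegAt π B1 O1 O2)
    (hrat0 : RatAt π B0 O1 O2) (hrat1 : RatAt π B1 O1 O2) :
    (∀ 𝔪₁ : Ideal B0, ∀ h : 𝔪₁.IsMaximal, algebraMap R B0 π ∈ 𝔪₁ →
      ¬ OffBranch π B0 O1 𝔪₁ → ¬ OffBranch π B0 O2 𝔪₁ →
      (haveI := h.isPrime
       ∃ x y : F, RegNode (locSub B0 𝔪₁).toSubring O1 O2 (algebraMap R F π) x y ∧
        ∀ c ∈ locSub B0 𝔪₁, ∃ r : R, ∃ a ∈ locSub B0 𝔪₁, ∃ b ∈ locSub B0 𝔪₁,
          ∃ d ∈ locSub B0 𝔪₁,
            c = algebraMap R F r + a * algebraMap R F π + b * x + d * y)) ∧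
    (∀ 𝔪₁ : Ideal B1, ∀ h : 𝔪₁.IsMaximal, algebraMap R B1 π ∈ 𝔪₁ →
      ¬ OffBranch π B1 O1 𝔪₁ → ¬ OffBranch π B1 O2 𝔪₁ →
      (haveI := h.isPrime
       ∃ x y : F, RegNode (locSub B1 𝔪₁).toSubring O1 O2 (algebraMap R F π) x y ∧
        ∀ c ∈ locSub B1 𝔪₁, ∃ r : R, ∃ a ∈ locSub B1 𝔪₁, ∃ b ∈ locSub B1 𝔪₁,
          ∃ d ∈ locSub B1 𝔪₁,
            c = algebraMap R F r + a * algebraMap R F π + b * x + d * y)) :=
  ⟨hK0_of_numData N hreg0 hrat0, hK1_of_numData N hreg1 hrat1⟩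

end Model

end Fermat.Agent.ORD.Geo.ThickLowAbs97
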