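/-
ORD (S33), chapter GEO, helper97: **the LOWER HALF of `ThickNodes` over an arbitrary normal `L`,
concrete instance over the inertial field `K_I = InertField27.inertiaPart A L`** (ruling #1815).

`ThickBC53.thickNodes_up` (helper53) produces `NodeFrame58.ThickNodes` over the ramified base `L` from
`hK0`, `hK1` over the inertial field.  Here `hK0`, `hK1` are produced LITERALLY at the `ModelDefs9`
frame `(AK A K, FK (M' q) K, B0 A q ht, B1 A q ht, O1 M' q hπ hE, O2 M' q hπ hE)` for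

* every finite inertial `K ∋ ζ_{M'}` (`hKItems_four`, `hKItems_nine`),
* `K = inertiaPart A L`, `L` finite normal `∋ ζ_{M'}` (`hKItems_four_inertiaPart`,
  `hKItems_nine_inertiaPart`, literal form `hK_four_inertiaPart`, `hK_nine_inertiaPart`),

with `hrat : RatItems n e q M' A K` (RAT-NODES, helper73, helper53's reduced shape
`∀ b : B, ∃ r : R, b - algebraMap R B r ∈ 𝔪` at every node of both charts) as the ONLY open
hypothesis.  Chain: `RegDone21.twoGenItems_four` → `RegNode21.twoGenItems10_of` →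
`EisFinal4.nodeRegItems_four` → `ThickLowAbs97.hK0_of_numData` / `hK1_of_numData`
(= `BridgeK25.regNode_of_nodeRegAt` + `ThickRat53.hK_of_regNode_residue`) with the chart facts of
`ModelInert4.nodalNumData_four_inertial`.

Also: `natCast_eq_unif_mul_inertiaPart` (`q = π_K · unit` in `A_{K_I}`: the thickness `e` of
`thickNodes_up` w.r.t. `π_K` is the ramification index w.r.t. `q`).
-/
import Mathlib
import Fermat.Agent.ES.P36.EisFinal4
import Fermat.Agent.ES.P36.RegDone21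
import Fermat.Agent.ES.P36.RegNode21
import Fermat.Agent.ES.P36.ZetaUnr26
import Fermat.Agent.ORD.Geo.ThickLowAbs97

set_option autoImplicit false
set_option linter.unusedSectionVars false
set_option linter.unusedVariables false
set_option linter.style.haveILetI false
set_option synthInstance.maxHeartbeats 400000

noncomputable section

open HahnSeries ModularCurve

namespace Fermat.Agent.ORD.Geo.ThickLow97

open IsLocalRing Fermat.Agent.ES.N34.NodalCore13 Fermat.Agent.ES.N34.NodalSmooth13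
  Fermat.Agent.ES.N34.NumData13 Fermat.Agent.M1.Node.Thick25 Fermat.Agent.M1.Node.BaseNode25
  Fermat.Agent.RED.Interface4 Fermat.Agent.RED.PUR.GaussGen8 Fermat.Agent.RED.BASE.EtaQuot12
  Fermat.Agent.RED.ModelTargets4 Fermat.Agent.ES.N34.ModelDefs9 Fermat.Agent.ES.N34.ModelTop4
  Fermat.Agent.ES.P36.InertField27 Fermat.Agent.ES.P36.ModelInert4
  Fermat.Agent.ES.P36.NodeRegAt10 Fermat.Agent.X0 Fermat.Agent.ORD.Geo.ThickLowAbs97

section Defs

variable (n e q M' : ℕ) [NeZero n] [NeZero M'] [NeZero q] (A : ValuationSubring Qbar)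
  (K : IntermediateField ℚ Qbar)

set_option maxHeartbeats 4000000 in
/-- **RAT-NODES at `K`** (helper73's deliverable, helper53's reduced shape): the residue field of
every two-branch closed point of the two charts of level `M' q` is that of `A_K`. -/
def RatItems : Prop :=
  ∀ (ht : tq (↥K) n e ∈ FK M' K) (hE : FK (M' * q) K ≤ fracField (AK A K))
    (π : ↥(AK A K)) (hπ : IsUnif (AK A K) π),
    RatAt π (B0 A q ht) (O1 M' q hπ hE) (O2 M' q hπ hE) ∧
      RatAt π (B1 A q ht) (O1 M' q hπ hE) (O2 M' q hπ hE)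

set_option maxHeartbeats 4000000 in
/-- **`hK0 ∧ hK1` of `ThickBC53.thickNodes_up` at `K`**, at the `ModelDefs9` frame
(`ThickLowAbs97.HK` is the literal binder). -/
def HKItems : Prop :=
  ∀ (ht : tq (↥K) n e ∈ FK M' K) (hE : FK (M' * q) K ≤ fracField (AK A K))
    (π : ↥(AK A K)) (hπ : IsUnif (AK A K) π),
    HK π (B0 A q ht) (O1 M' q hπ hE) (O2 M' q hπ hE) ∧
      HK π (B1 A q ht) (O1 M' q hπ hE) (O2 M' q hπ hE)

end Defs

variable {n e q M' : ℕ} [NeZero n] [NeZero M'] [NeZero q] {A : ValuationSubring Qbar}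
  {K : IntermediateField ℚ Qbar}

set_option maxHeartbeats 4000000 in
/-- **The lower half at `K`**: MODEL bundle + R3 (`NodeRegItems`) + RAT-NODES ⊢ `hK0 ∧ hK1`. -/
theorem hKItems_of
    (hD : ∃ (ht : tq (↥K) n e ∈ FK M' K) (hE : FK (M' * q) K ≤ fracField (AK A K)),
      ∀ (π : ↥(AK A K)) (hπ : IsUnif (AK A K) π),
        NodalNumData ↥(AK A K) ↥K ↥(FK (M' * q) K) π (tN q ht) (B0 A q ht) (B1 A q ht)
          (O1 M' q hπ hE) (O2 M' q hπ hE))
    (hR : NodeRegItems n e q M' A K) (hrat : RatItems n e q M' A K) :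
    HKItems n e q M' A K := by
  obtain ⟨ht', hE', hN⟩ := hD
  intro ht hE π hπ
  have N := hN π hπ
  exact ⟨hK0_of_numData N (hR ht hE π hπ).1 (hrat ht hE π hπ).1,
    hK1_of_numData N (hR ht hE π hπ).2 (hrat ht hE π hπ).2⟩

/-- R3 at an inertial `K ∋ ζ_{M'}` with NO open input (`q` odd, `4 ∣ M'`). -/
theorem nodeRegItems_four_closed (hq : q.Prime) (hq2 : q ≠ 2) (hqM : ¬ q ∣ M') (hM : 4 ∣ M')
    (hA : A.LiesOverPrime q) [FiniteDimensional ℚ K] (hK : IsInertial A K) (hζ : zetaK M' ∈ K) :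
    NodeRegItems 4 8 q M' A K :=
  Fermat.Agent.ES.P36.EisFinal4.nodeRegItems_four hq hq2 hqM hM hA hK hζ
    (Fermat.Agent.ES.P36.RegNode21.twoGenItems10_of
      (Fermat.Agent.ES.P36.RegDone21.twoGenItems_four hq hq2 hqM hM hA hζ
        (frobInvAt_of_isInertial hK hq hA) hK.1))

/-- R3 at an inertial `K ∋ ζ_{M'}` with NO open input (`q = 2`, `9 ∣ M'`). -/
theorem nodeRegItems_nine_closed [NeZero 2] (hqM : ¬ 2 ∣ M') (hM : 9 ∣ M')
    (hA : A.LiesOverPrime 2) [FiniteDimensional ℚ K] (hK : IsInertial A K) (hζ : zetaK M' ∈ K) :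
    NodeRegItems 9 3 2 M' A K :=
  Fermat.Agent.ES.P36.EisFinal4.nodeRegItems_nine hqM hM hA hK hζ
    (Fermat.Agent.ES.P36.RegNode21.twoGenItems10_of
      (Fermat.Agent.ES.P36.RegDone21.twoGenItems_nine hqM hM hA hζ
        (frobInvAt_of_isInertial hK Nat.prime_two hA) hK.1))

/-- **`hK0 ∧ hK1` over an inertial `K ∋ ζ_{M'}`** (`q` odd, `4 ∣ M'`); only `hrat` is open. -/
theorem hKItems_four (hq : q.Prime) (hq2 : q ≠ 2) (hqM : ¬ q ∣ M') (hM : 4 ∣ M')
    (hA : A.LiesOverPrime q) [FiniteDimensional ℚ K] (hK : IsInertial A K) (hζ : zetaK M' ∈ K)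
    (hrat : RatItems 4 8 q M' A K) : HKItems 4 8 q M' A K :=
  hKItems_of (nodalNumData_four_inertial hq hq2 hqM hM hA hK hζ)
    (nodeRegItems_four_closed hq hq2 hqM hM hA hK hζ) hrat

/-- **`hK0 ∧ hK1` over an inertial `K ∋ ζ_{M'}`** (`q = 2`, `9 ∣ M'`); only `hrat` is open. -/
theorem hKItems_nine [NeZero 2] (hqM : ¬ 2 ∣ M') (hM : 9 ∣ M')
    (hA : A.LiesOverPrime 2) [FiniteDimensional ℚ K] (hK : IsInertial A K) (hζ : zetaK M' ∈ K)
    (hrat : RatItems 9 3 2 M' A K) : HKItems 9 3 2 M' A K :=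
  hKItems_of (nodalNumData_nine_inertial hqM hM hA hK hζ)
    (nodeRegItems_nine_closed hqM hM hA hK hζ) hrat

/-! ### `K = inertiaPart A L`, `L` finite normal -/

/-- `ζ_{M'} ∈ L`, `q ∤ M'` ⊢ `ζ_{M'} ∈ inertiaPart A L`. -/
theorem zetaK_mem_inertiaPart (hq : q.Prime) (hA : A.LiesOverPrime q) (hqM : ¬ q ∣ M')
    {L : IntermediateField ℚ Qbar} (hζ : zetaK M' ∈ L) : zetaK M' ∈ inertiaPart A L :=
  mem_inertiaPart.mpr ⟨hζ, fun τ hτ =>
    Fermat.Agent.ES.P36.ZetaUnr26.inertia_fixes_rootOfUnity hq hA hqM (zetaK_pow_self M') hτ⟩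

/-- `inertiaPart A L` is finite over `ℚ`. -/
theorem finiteDimensional_inertiaPart (L : IntermediateField ℚ Qbar) [FiniteDimensional ℚ L] :
    FiniteDimensional ℚ (inertiaPart A L) :=
  finiteDimensional_of_le (inertiaPart_le (A := A) L)

/-- **The lower half over `K_I = inertiaPart A L`** (`q` odd, `4 ∣ M'`), `L` finite normal
`∋ ζ_{M'}`; only `hrat` is open. -/
theorem hKItems_four_inertiaPart (hq : q.Prime) (hq2 : q ≠ 2) (hqM : ¬ q ∣ M') (hM : 4 ∣ M')
    (hA : A.LiesOverPrime q) (L : IntermediateField ℚ Qbar) [FiniteDimensional ℚ L] [Normal ℚ L]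
    (hζ : zetaK M' ∈ L) (hrat : RatItems 4 8 q M' A (inertiaPart A L)) :
    HKItems 4 8 q M' A (inertiaPart A L) := by
  haveI := finiteDimensional_inertiaPart (A := A) L
  exact hKItems_four hq hq2 hqM hM hA (isInertial_inertiaPart L)
    (zetaK_mem_inertiaPart hq hA hqM hζ) hrat

/-- **The lower half over `K_I = inertiaPart A L`** (`q = 2`, `9 ∣ M'`), `L` finite normal
`∋ ζ_{M'}`; only `hrat` is open. -/
theorem hKItems_nine_inertiaPart [NeZero 2] (hqM : ¬ 2 ∣ M') (hM : 9 ∣ M')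
    (hA : A.LiesOverPrime 2) (L : IntermediateField ℚ Qbar) [FiniteDimensional ℚ L] [Normal ℚ L]
    (hζ : zetaK M' ∈ L) (hrat : RatItems 9 3 2 M' A (inertiaPart A L)) :
    HKItems 9 3 2 M' A (inertiaPart A L) := by
  haveI := finiteDimensional_inertiaPart (A := A) L
  exact hKItems_nine hqM hM hA (isInertial_inertiaPart L)
    (zetaK_mem_inertiaPart Nat.prime_two hA hqM hζ) hrat

set_option maxHeartbeats 4000000 in
/-- **LITERAL `hK0 ∧ hK1` of `ThickBC53.thickNodes_up`** (binders unfolded) over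
`K_I = inertiaPart A L` at the `ModelDefs9` frame, from `HKItems`. -/
theorem hK_literal (K : IntermediateField ℚ Qbar) (h : HKItems n e q M' A K)
    (ht : tq (↥K) n e ∈ FK M' K) (hE : FK (M' * q) K ≤ fracField (AK A K))
    (π : ↥(AK A K)) (hπ : IsUnif (AK A K) π) :
    (∀ 𝔪₁ : Ideal (B0 A q ht), ∀ h : 𝔪₁.IsMaximal,
      algebraMap ↥(AK A K) (B0 A q ht) π ∈ 𝔪₁ →
      ¬ OffBranch π (B0 A q ht) (O1 M' q hπ hE) 𝔪₁ →
      ¬ OffBranch π (B0 A q ht) (O2 M' q hπ hE) 𝔪₁ →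
      (haveI := h.isPrime
       ∃ x y : ↥(FK (M' * q) K),
        RegNode (locSub (B0 A q ht) 𝔪₁).toSubring (O1 M' q hπ hE) (O2 M' q hπ hE)
          (algebraMap ↥(AK A K) ↥(FK (M' * q) K) π) x y ∧
        ∀ c ∈ locSub (B0 A q ht) 𝔪₁, ∃ r : ↥(AK A K), ∃ a ∈ locSub (B0 A q ht) 𝔪₁,
          ∃ b ∈ locSub (B0 A q ht) 𝔪₁, ∃ d ∈ locSub (B0 A q ht) 𝔪₁,
            c = algebraMap ↥(AK A K) ↥(FK (M' * q) K) r
              + a * algebraMap ↥(AK A K) ↥(FK (M' * q) K) π + b * x + d * y)) ∧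
    (∀ 𝔪₁ : Ideal (B1 A q ht), ∀ h : 𝔪₁.IsMaximal,
      algebraMap ↥(AK A K) (B1 A q ht) π ∈ 𝔪₁ →
      ¬ OffBranch π (B1 A q ht) (O1 M' q hπ hE) 𝔪₁ →
      ¬ OffBranch π (B1 A q ht) (O2 M' q hπ hE) 𝔪₁ →
      (haveI := h.isPrime
       ∃ x y : ↥(FK (M' * q) K),
        RegNode (locSub (B1 A q ht) 𝔪₁).toSubring (O1 M' q hπ hE) (O2 M' q hπ hE)
          (algebraMap ↥(AK A K) ↥(FK (M' * q) K) π) x y ∧
        ∀ c ∈ locSub (B1 A q ht) 𝔪₁, ∃ r : ↥(AK A K), ∃ a ∈ locSub (B1 A q ht) 𝔪₁,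
          ∃ b ∈ locSub (B1 A q ht) 𝔪₁, ∃ d ∈ locSub (B1 A q ht) 𝔪₁,
            c = algebraMap ↥(AK A K) ↥(FK (M' * q) K) r
              + a * algebraMap ↥(AK A K) ↥(FK (M' * q) K) π + b * x + d * y)) :=
  h ht hE π hπ

/-- `q = π · unit` in `A_{K_I}` for every uniformiser `π` of `A_{K_I}`, `K_I = inertiaPart A L`:
the thickness `e` that `ThickBC53.thickNodes_up` produces w.r.t. `π_{K_I}` is the exponent of
`q = u π_L ^ e`. -/
theorem natCast_eq_unif_mul_inertiaPart (hq : q.Prime) (hA : A.LiesOverPrime q)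
    (L : IntermediateField ℚ Qbar) [FiniteDimensional ℚ L] :
    ∀ π : ↥(AK A (inertiaPart A L)), IsUnif (AK A (inertiaPart A L)) π →
      ∃ u : (↥(AK A (inertiaPart A L)))ˣ, ((q : ℕ) : ↥(AK A (inertiaPart A L))) = π * u := by
  haveI := finiteDimensional_inertiaPart (A := A) L
  exact Fermat.Agent.ES.P36.RegDone21.natCast_eq_unif_mul hq hA
    (fun τ hτ x hx => (mem_inertiaPart.mp hx).2 τ hτ)

end Fermat.Agent.ORD.Geo.ThickLow97
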