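/-
ORD (S33), chapter GEO, helper97 (ruling #2072): **`ThickNodes` over EVERY finite normal `L ∋ ζ_{M'}`
at the `ModelDefs9` frame** — the final composition of the two halves:

  lower half  `ThickLow97.hKItems_*_inertiaPart` (regular rational nodes over `K_I = inertiaPart A L`),
  upper half  `ThickUp25.exists_thickNodes_of_concl` (helper25) ∘ `ChartBC34.chartBC` (helper34),

with the models `DK := ModelInert4.nodalNumData_*_inertial` over `K_I` (uniformiser `q`,
`UnrFixed1.isUnif_natCast`) and `DL := ModelQAt4.nodalNumData_*_at` + `frobInvAt_of_normal` over `L`.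

ONLY open hypothesis: `hrat : ThickLow97.RatItems n e q M' A (inertiaPart A L)` (RAT-NODES, helper73).

Output, for every `htL hEL` and every uniformiser `ϖ_L` of `A ∩ L`:
  `∃ e, 0 < e ∧ (∃ v : (A ∩ L)ˣ, q = v * ϖ_L ^ e) ∧
     NodeFrame58.ThickNodes ϖ_L (B0 A q htL) (B1 A q htL) (O1 M' q hϖ hEL) (O2 M' q hϖ hEL) e`,
i.e. the thickness `e` IS the ramification index of `A ∩ L` over `q`.
-/
import Mathlib
import Fermat.Agent.ORD.Geo.ThickLow97
import Fermat.Agent.M1.Mod.ThickUp25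

set_option autoImplicit false
set_option linter.unusedSectionVars false
set_option linter.unusedVariables false
set_option linter.style.haveILetI false
set_option synthInstance.maxHeartbeats 400000

noncomputable section

open HahnSeries ModularCurve

namespace Fermat.Agent.ORD.Geo.ThickAll97

open IsLocalRing Fermat.Agent.ES.N34.NodalCore13 Fermat.Agent.ES.N34.NodalSmooth13
  Fermat.Agent.ES.N34.NumData13 Fermat.Agent.M1.Node.Thick25 Fermat.Agent.M1.Node.BaseNode25
  Fermat.Agent.RED.Interface4 Fermat.Agent.RED.PUR.GaussGen8 Fermat.Agent.RED.BASE.EtaQuot12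
  Fermat.Agent.RED.ModelTargets4 Fermat.Agent.ES.N34.ModelDefs9 Fermat.Agent.ES.N34.ModelTop4
  Fermat.Agent.ES.P36.InertField27 Fermat.Agent.ES.P36.ModelInert4 Fermat.Agent.ES.P36.ModelQAt4
  Fermat.Agent.ES.P36.NodeRegAt10 Fermat.Agent.X0 Fermat.Agent.M1.Car.NodeFrame58
  Fermat.Agent.ORD.Geo.ThickLowAbs97 Fermat.Agent.ORD.Geo.ThickLow97

variable {n e₀ q M' : ℕ} [NeZero n] [NeZero M'] [NeZero q] {A : ValuationSubring Qbar}

set_option maxHeartbeats 4000000 in
/-- **The composition, generic in the Hauptmodul `(n, e₀)`**: models over `K_I = inertiaPart A L` and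
over `L`, and the lower half over `K_I`, give thick nodes of thickness `e = e(A ∩ L | q)` over `L`. -/
theorem thickNodes_of (hq : q.Prime) (hA : A.LiesOverPrime q)
    (L : IntermediateField ℚ Qbar) [FiniteDimensional ℚ L] [Normal ℚ L]
    (hDK : ∃ (ht : tq (↥(inertiaPart A L)) n e₀ ∈ FK M' (inertiaPart A L))
      (hE : FK (M' * q) (inertiaPart A L) ≤ fracField (AK A (inertiaPart A L))),
      ∀ (π : ↥(AK A (inertiaPart A L))) (hπ : IsUnif (AK A (inertiaPart A L)) π),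
        NodalNumData ↥(AK A (inertiaPart A L)) ↥(inertiaPart A L)
          ↥(FK (M' * q) (inertiaPart A L)) π (tN q ht) (B0 A q ht) (B1 A q ht)
          (O1 M' q hπ hE) (O2 M' q hπ hE))
    (hDL : ∃ (ht : tq (↥L) n e₀ ∈ FK M' L) (hE : FK (M' * q) L ≤ fracField (AK A L)),
      ∀ (π : ↥(AK A L)) (hπ : IsUnif (AK A L) π),
        NodalNumData ↥(AK A L) ↥L ↥(FK (M' * q) L) π (tN q ht) (B0 A q ht) (B1 A q ht)
          (O1 M' q hπ hE) (O2 M' q hπ hE))
    (hHK : HKItems n e₀ q M' A (inertiaPart A L))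
    (htL : tq (↥L) n e₀ ∈ FK M' L) (hEL : FK (M' * q) L ≤ fracField (AK A L))
    (πL : ↥(AK A L)) (hπL : IsUnif (AK A L) πL) :
    ∃ e : ℕ, 0 < e ∧ (∃ v : (↥(AK A L))ˣ, ((q : ℕ) : ↥(AK A L)) = v * πL ^ e) ∧
      ThickNodes πL (B0 A q htL) (B1 A q htL) (O1 M' q hπL hEL) (O2 M' q hπL hEL) e := by
  haveI := finiteDimensional_inertiaPart (A := A) L
  have hle : inertiaPart A L ≤ L := inertiaPart_le L
  have hKin : IsInertial A (inertiaPart A L) := isInertial_inertiaPart L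
  obtain ⟨htK, hEK, hNK⟩ := hDK
  obtain ⟨htL', hEL', hNL⟩ := hDL
  have hπK : IsUnif (AK A (inertiaPart A L)) ((q : ℕ) : ↥(AK A (inertiaPart A L))) :=
    Fermat.Agent.ES.P36.UnrFixed1.isUnif_natCast A hq hA (inertiaPart A L) hKin.1
  have DK := hNK _ hπK
  have DL := hNL πL hπL
  have C : Fermat.Agent.M1.Mod.ChartBC34.Concl A hle htK htL hπK hEK hπL hEL :=
    Fermat.Agent.M1.Mod.ChartBC34.chartBC A hle hq.ne_zero hA (fun x => mem_inertiaPart)
      htK htL hπK hEK hπL hEL DK.model DK.frac0 DK.frac1 DL.model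
  have hK := hHK htK hEK _ hπK
  obtain ⟨e, u, he, heis, hT⟩ :=
    Fermat.Agent.M1.Mod.ThickUp25.exists_thickNodes_of_concl A hle C DK.model DL.model hK.1 hK.2
  refine ⟨e, he, ?_, hT⟩
  exact Fermat.Agent.M1.Mod.ThickUp25.natCast_eq_unit_mul_pow A hle u heis 1
    (by rw [Units.val_one, mul_one])

/-- **`ThickNodes` over every finite normal `L ∋ ζ_{M'}`** (`q` odd, `4 ∣ M'`, Hauptmodul `(4, 8)`);
only `hrat` over `inertiaPart A L` is open. -/
theorem thickNodes_four (hq : q.Prime) (hq2 : q ≠ 2) (hqM : ¬ q ∣ M') (hM : 4 ∣ M')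
    (hA : A.LiesOverPrime q) (L : IntermediateField ℚ Qbar) [FiniteDimensional ℚ L] [Normal ℚ L]
    (hζ : zetaK M' ∈ L) (hrat : RatItems 4 8 q M' A (inertiaPart A L))
    (htL : tq (↥L) 4 8 ∈ FK M' L) (hEL : FK (M' * q) L ≤ fracField (AK A L))
    (πL : ↥(AK A L)) (hπL : IsUnif (AK A L) πL) :
    ∃ e : ℕ, 0 < e ∧ (∃ v : (↥(AK A L))ˣ, ((q : ℕ) : ↥(AK A L)) = v * πL ^ e) ∧
      ThickNodes πL (B0 A q htL) (B1 A q htL) (O1 M' q hπL hEL) (O2 M' q hπL hEL) e := by
  haveI := finiteDimensional_inertiaPart (A := A) L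
  exact thickNodes_of hq hA L
    (nodalNumData_four_inertial hq hq2 hqM hM hA (isInertial_inertiaPart L)
      (zetaK_mem_inertiaPart hq hA hqM hζ))
    (nodalNumData_four_at hq hq2 hqM hM hA hζ (frobInvAt_of_normal hq hA))
    (hKItems_four_inertiaPart hq hq2 hqM hM hA L hζ hrat) htL hEL πL hπL

/-- **`ThickNodes` over every finite normal `L ∋ ζ_{M'}`** (`q = 2`, `9 ∣ M'`, Hauptmodul `(9, 3)`);
only `hrat` over `inertiaPart A L` is open. -/
theorem thickNodes_nine [NeZero 2] (hqM : ¬ 2 ∣ M') (hM : 9 ∣ M')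
    (hA : A.LiesOverPrime 2) (L : IntermediateField ℚ Qbar) [FiniteDimensional ℚ L] [Normal ℚ L]
    (hζ : zetaK M' ∈ L) (hrat : RatItems 9 3 2 M' A (inertiaPart A L))
    (htL : tq (↥L) 9 3 ∈ FK M' L) (hEL : FK (M' * 2) L ≤ fracField (AK A L))
    (πL : ↥(AK A L)) (hπL : IsUnif (AK A L) πL) :
    ∃ e : ℕ, 0 < e ∧ (∃ v : (↥(AK A L))ˣ, ((2 : ℕ) : ↥(AK A L)) = v * πL ^ e) ∧
      ThickNodes πL (B0 A 2 htL) (B1 A 2 htL) (O1 M' 2 hπL hEL) (O2 M' 2 hπL hEL) e := by
  haveI := finiteDimensional_inertiaPart (A := A) L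
  exact thickNodes_of Nat.prime_two hA L
    (nodalNumData_nine_inertial hqM hM hA (isInertial_inertiaPart L)
      (zetaK_mem_inertiaPart Nat.prime_two hA hqM hζ))
    (nodalNumData_nine_at hqM hM hA hζ (frobInvAt_of_normal Nat.prime_two hA))
    (hKItems_nine_inertiaPart hqM hM hA L hζ hrat) htL hEL πL hπL

end Fermat.Agent.ORD.Geo.ThickAll97
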