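/-
ORD / chapter G (also M1), brick NF-K (helper6): **the norm formula `π_* div f = div (N f)` for an
ARBITRARY finite extension `F ⊂ F'` of fields over `K` in characteristic zero** -- places of any
inertia degree, no hypothesis on the constant field `K`.

* `inertiaDeg_primeOf` : for a place `w` of `F'` over `v`, Mathlib's `Ideal.inertiaDeg` of the centre
                          of `w` on `B_v` (integral closure of `O_v` in `F'`) over `O_v` is the Prelude's
                          `Place.inertiaDeg`;
* `ord_norm`           : `ord_v (N f) = ∑ᶠ_P f(w_P | v) · ord_{w_P} f` over the height-one primes of `B_v`;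
* `pushforwardNormFormula` : `AlgebraicCurve.Divisor.PushforwardNormFormula K F F'`;
* `normFormulaAlong`   : the Prelude shape `NormFormulaAlong K φ hfin` along a `K`-algebra map.

Method: helper15's `ES/HECKE/NormFormula15` (the case of places of degree one) with `f = 1` replaced
by the comparison lemma; `Ideal.relNorm_singleton` + `Ideal.relNorm_eq_pow_of_isMaximal` +
`Ideal.finprod_heightOneSpectrum_factorization`.
-/
import Mathlib
import Fermat.Prelude.Def_AlgebraicCurve_Correspondence
import Fermat.Agent.ES.HECKE.NormFormula15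

set_option autoImplicit false
set_option linter.unusedSectionVars false

open AlgebraicCurve IsDedekindDomain IsLocalRing

noncomputable section

namespace Fermat.Agent.ORD.Geo.NormK6

open Fermat.Agent.X0 Fermat.Agent.X0.FF Fermat.Agent.ES.HECKE.NormFormula15

section Compare

variable {K F F' : Type*} [Field K] [Field F] [Field F'] [Algebra K F] [Algebra K F']
  [Algebra F F'] [IsScalarTower K F F'] [FiniteDimensional F F'] [CharZero F]

/-- `B_v ⊂ O_w` for `v = w.restrict F`. -/
theorem IC_le_restrict (w : Place K F') (b : ↥(IC F' (w.restrict F))) :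
    algebraMap ↥(IC F' (w.restrict F)) F' b ∈ w.toValuationSubring :=
  IC_le_of_restrict_eq (rfl : w.restrict F = w.restrict F) b

/-- The ring hom `B_v → κ(w)`, `v = w.restrict F`. -/
def resHom (w : Place K F') : ↥(IC F' (w.restrict F)) →+* w.ResidueField :=
  (IsLocalRing.residue ↥w.toValuationSubring).comp
    (FFDedekind.toValuationSubringHom w (IC_le_restrict w))

theorem ker_resHom (w : Place K F') :
    RingHom.ker (resHom (F := F) w) =
      (primeOf w (rfl : w.restrict F = w.restrict F)).asIdeal := by
  ext b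
  rw [RingHom.mem_ker, resHom, RingHom.comp_apply, IsLocalRing.residue_eq_zero_iff]
  rfl

theorem resHom_surjective (w : Place K F') : Function.Surjective (resHom (F := F) w) := by
  intro z
  obtain ⟨x, rfl⟩ := IsLocalRing.residue_surjective z
  set P := primeOf w (rfl : w.restrict F = w.restrict F) with hP
  have hPw : placeOf P = w := placeOf_primeOf w rfl
  have hx : P.valuation F' (x : F') ≤ 1 := by
    have h1 : (x : F') ∈ (placeOf P).toValuationSubring := by rw [hPw]; exact x.2
    exact h1
  obtain ⟨n, d, hnd⟩ := P.exists_primeCompl_mul_eq_of_integer (x : F') hx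
  have hdP : (d : ↥(IC F' (w.restrict F))) ∉ P.asIdeal := d.2
  obtain ⟨y, i, hi, hyi⟩ := P.isMaximal.exists_inv hdP
  refine ⟨n * y, ?_⟩
  have hi0 : resHom (F := F) w i = 0 := by
    rw [← RingHom.mem_ker, ker_resHom]
    exact hi
  have h1 : resHom (F := F) w y * resHom (F := F) w d = 1 := by
    have := congrArg (resHom (F := F) w) hyi
    rwa [map_add, map_mul, hi0, add_zero, map_one] at this
  have h2 : IsLocalRing.residue ↥w.toValuationSubring x * resHom (F := F) w d =
      resHom (F := F) w n := by
    rw [resHom, RingHom.comp_apply, RingHom.comp_apply, ← map_mul]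
    congr 1
    exact Subtype.ext hnd
  calc resHom (F := F) w (n * y) = resHom (F := F) w n * resHom (F := F) w y := map_mul _ _ _
    _ = IsLocalRing.residue ↥w.toValuationSubring x *
          (resHom (F := F) w y * resHom (F := F) w d) := by rw [← h2]; ring
    _ = IsLocalRing.residue ↥w.toValuationSubring x := by rw [h1, mul_one]

/-- `B_v / P ≃ κ(w)` for the centre `P` of `w`. -/
def resEquiv (w : Place K F') :
    (↥(IC F' (w.restrict F)) ⧸ (primeOf w (rfl : w.restrict F = w.restrict F)).asIdeal) ≃+*
      w.ResidueField :=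
  (Ideal.quotEquivOfEq (ker_resHom (F := F) w).symm).trans
    (RingHom.quotientKerEquivOfSurjective (resHom_surjective (F := F) w))

theorem resEquiv_mk (w : Place K F') (b : ↥(IC F' (w.restrict F))) :
    resEquiv (F := F) w (Ideal.Quotient.mk _ b) = resHom (F := F) w b := rfl

/-- **Comparison of inertia degrees**, `v = w.restrict F`. -/
theorem inertiaDeg_primeOf_restrict (w : Place K F') :
    (primeOf w (rfl : w.restrict F = w.restrict F)).asIdeal.inertiaDeg
      ↥(w.restrict F).toValuationSubring = w.inertiaDeg F := by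
  set P := primeOf w (rfl : w.restrict F = w.restrict F) with hP
  have : P.asIdeal.IsMaximal := P.isMaximal
  rw [Ideal.inertiaDeg_eq_of_isMaximal (maximalIdeal ↥(w.restrict F).toValuationSubring) P.asIdeal]
  unfold Place.inertiaDeg
  refine Algebra.finrank_eq_of_equiv_equiv (RingEquiv.refl _) (resEquiv (F := F) w) ?_
  apply Ideal.Quotient.ringHom_ext
  ext a
  simp only [RingHom.comp_apply]
  rw [Ideal.Quotient.algebraMap_mk_of_liesOver]
  show algebraMap (w.restrict F).ResidueField w.ResidueField (IsLocalRing.residue _ a) = _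
  rw [Place.algebraMap_residueField_eq, Place.restrictResidueMap_residue]
  show _ = resEquiv (F := F) w (Ideal.Quotient.mk _ _)
  rw [resEquiv_mk]
  rfl

/-- **Comparison of inertia degrees**: Mathlib's `Ideal.inertiaDeg` of the centre of `w` on `B_v`
is the Prelude's `Place.inertiaDeg`. -/
theorem inertiaDeg_primeOf {v : Place K F} (w : Place K F') (hw : w.restrict F = v) :
    (primeOf w hw).asIdeal.inertiaDeg ↥v.toValuationSubring = w.inertiaDeg F := by
  subst hw
  exact inertiaDeg_primeOf_restrict w

theorem inertiaDeg_IC (v : Place K F) (P : HeightOneSpectrum ↥(IC F' v)) :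
    P.asIdeal.inertiaDeg ↥v.toValuationSubring = (placeOf P).inertiaDeg F := by
  have h := inertiaDeg_primeOf (placeOf P) (restrict_placeOf P)
  rwa [primeOf_placeOf] at h

end Compare

section Norm

variable {K F F' : Type*} [Field K] [Field F] [Field F'] [Algebra K F] [Algebra K F']
  [Algebra F F'] [IsScalarTower K F F'] [FiniteDimensional F F'] [CharZero F]

instance isTorsionFree_IC (v : Place K F) :
    Module.IsTorsionFree ↥v.toValuationSubring ↥(IC F' v) :=
  Module.isTorsionFree_iff_faithfulSMul.mpr inferInstance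

theorem relNorm_prime_IC (v : Place K F) (P : HeightOneSpectrum ↥(IC F' v)) :
    Ideal.relNorm ↥v.toValuationSubring P.asIdeal =
      maximalIdeal ↥v.toValuationSubring ^ (placeOf P).inertiaDeg F := by
  have : P.asIdeal.IsMaximal := P.isMaximal
  rw [Ideal.relNorm_eq_pow_of_isMaximal P.asIdeal (maximalIdeal ↥v.toValuationSubring),
    inertiaDeg_IC v P]

theorem relNorm_IC (v : Place K F) {I : Ideal ↥(IC F' v)} (hI : I ≠ 0) :
    Ideal.relNorm ↥v.toValuationSubring I = maximalIdeal ↥v.toValuationSubring ^
      ∑ᶠ P : HeightOneSpectrum ↥(IC F' v),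
        (placeOf P).inertiaDeg F * (Associates.mk P.asIdeal).count (Associates.mk I).factors := by
  classical
  let _ := Fintype.ofFinite (HeightOneSpectrum ↥(IC F' v))
  conv_lhs => rw [← Ideal.finprod_heightOneSpectrum_factorization hI]
  rw [finprod_eq_prod_of_fintype, map_prod, finsum_eq_sum_of_fintype,
    ← Finset.prod_pow_eq_pow_sum]
  refine Finset.prod_congr rfl fun P _ => ?_
  rw [HeightOneSpectrum.maxPowDividing, map_pow, relNorm_prime_IC v P, ← pow_mul]

theorem ord_norm_IC (v : Place K F) {b : ↥(IC F' v)} (hb : b ≠ 0) :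
    v.ord (Algebra.norm F (algebraMap ↥(IC F' v) F' b)) =
      ∑ᶠ P : HeightOneSpectrum ↥(IC F' v),
        ((placeOf P).inertiaDeg F : ℤ) * (placeOf P).ord (algebraMap ↥(IC F' v) F' b) := by
  classical
  let _ := Fintype.ofFinite (HeightOneSpectrum ↥(IC F' v))
  have hI : (Ideal.span {b} : Ideal ↥(IC F' v)) ≠ 0 := by
    rw [Ne, Ideal.zero_eq_bot, Ideal.span_singleton_eq_bot]
    exact hb
  have h1 := relNorm_IC v hI
  rw [Ideal.relNorm_singleton] at h1
  have h2 := ord_eq_of_span_eq_pow v h1
  have h3 : algebraMap ↥v.toValuationSubring F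
      (Algebra.intNorm ↥v.toValuationSubring ↥(IC F' v) b) =
        Algebra.norm F (algebraMap ↥(IC F' v) F' b) :=
    Algebra.algebraMap_intNorm (A := ↥v.toValuationSubring) (K := F) (L := F')
      (B := ↥(IC F' v)) b
  rw [← h3]
  show v.ord ((Algebra.intNorm ↥v.toValuationSubring ↥(IC F' v) b : ↥v.toValuationSubring) : F) = _
  rw [h2, finsum_eq_sum_of_fintype, finsum_eq_sum_of_fintype, Nat.cast_sum]
  refine Finset.sum_congr rfl fun P _ => ?_
  rw [Nat.cast_mul]
  congr 1
  exact (FFDedekind.ord_ofHeightOneSpectrum_algebraMap (K := K) (F := F') P hb).symm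

/-- `ord_v (N f) = ∑_P f(w_P | v) · ord_{w_P} f`. -/
theorem ord_norm (v : Place K F) {f : F'} (hf : f ≠ 0) :
    v.ord (Algebra.norm F f) =
      ∑ᶠ P : HeightOneSpectrum ↥(IC F' v), ((placeOf P).inertiaDeg F : ℤ) * (placeOf P).ord f := by
  classical
  let _ := Fintype.ofFinite (HeightOneSpectrum ↥(IC F' v))
  obtain ⟨b1, b2, hb2, rfl⟩ := IsFractionRing.div_surjective (A := ↥(IC F' v)) f
  have hb2' : b2 ≠ 0 := nonZeroDivisors.ne_zero hb2
  have hb1' : b1 ≠ 0 := by
    rintro rfl
    simp at hf
  have hinj := IsFractionRing.injective ↥(IC F' v) F'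
  have h1 : algebraMap ↥(IC F' v) F' b1 ≠ 0 := (map_ne_zero_iff _ hinj).mpr hb1'
  have h2 : algebraMap ↥(IC F' v) F' b2 ≠ 0 := (map_ne_zero_iff _ hinj).mpr hb2'
  have hn1 : Algebra.norm F (algebraMap ↥(IC F' v) F' b1) ≠ 0 := Algebra.norm_ne_zero_iff.mpr h1
  have hn2 : Algebra.norm F (algebraMap ↥(IC F' v) F' b2) ≠ 0 := Algebra.norm_ne_zero_iff.mpr h2
  have hninv : Algebra.norm F (algebraMap ↥(IC F' v) F' b2)⁻¹ =
      (Algebra.norm F (algebraMap ↥(IC F' v) F' b2))⁻¹ := by
    apply eq_inv_of_mul_eq_one_left
    rw [← map_mul, inv_mul_cancel₀ h2, map_one]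
  rw [div_eq_mul_inv, map_mul, hninv, v.ord_mul hn1 (inv_ne_zero hn2), v.ord_inv,
    ord_norm_IC v hb1', ord_norm_IC v hb2', finsum_eq_sum_of_fintype,
    finsum_eq_sum_of_fintype, finsum_eq_sum_of_fintype, ← sub_eq_add_neg,
    ← Finset.sum_sub_distrib]
  refine Finset.sum_congr rfl fun P _ => ?_
  rw [(placeOf P).ord_mul h1 (inv_ne_zero h2), (placeOf P).ord_inv]
  ring

/-- **The norm formula** `π_* div f = div (N_{F'/F} f)` for an arbitrary finite extension of fields
over `K` in characteristic zero. -/
theorem pushforwardNormFormula : Divisor.PushforwardNormFormula K F F' := by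
  classical
  intro f hf D hD v
  let _ := Fintype.ofFinite (HeightOneSpectrum ↥(IC F' v))
  rw [Divisor.pushforward_apply, ord_norm v hf, finsum_eq_sum_of_fintype,
    ← Finset.sum_filter,
    ← Finset.sum_image (s := Finset.univ) (g := placeOf)
      (f := fun w : Place K F' => (w.inertiaDeg F : ℤ) * w.ord f)
      (fun P _ Q _ h => placeOf_injective h)]
  have hsum : ∑ w ∈ D.support with w.restrict F = v, D w * (w.inertiaDeg F : ℤ) =
      ∑ w ∈ D.support with w.restrict F = v, (w.inertiaDeg F : ℤ) * w.ord f := by
    refine Finset.sum_congr rfl fun w _ => ?_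
    rw [hD w, mul_comm]
  rw [hsum]
  refine Finset.sum_subset ?_ ?_
  · intro w hw
    rw [Finset.mem_filter] at hw
    rw [Finset.mem_image]
    exact ⟨primeOf w hw.2, Finset.mem_univ _, placeOf_primeOf w hw.2⟩
  · intro w hw hnot
    rw [Finset.mem_image] at hw
    obtain ⟨P, -, rfl⟩ := hw
    rw [Finset.mem_filter, not_and_or] at hnot
    rcases hnot with hnot | hnot
    · rw [Finsupp.mem_support_iff, not_not] at hnot
      rw [← hD, hnot, mul_zero]
    · exact absurd (restrict_placeOf P) hnot

end Norm

section Along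

variable {K F F' : Type*} [Field K] [Field F] [Field F'] [Algebra K F] [Algebra K F']
  [CharZero F]

/-- The norm formula along a `K`-algebra map `φ : F → F'` making `F'` finite over `F`
(characteristic zero; no hypothesis on `K` or on the degrees of the places). -/
theorem normFormulaAlong (φ : F →ₐ[K] F') (hfin : FiniteAlong K φ) : NormFormulaAlong K φ hfin := by
  let _ := algebraAlong φ
  have := isScalarTower_along φ
  have : Module.Finite F F' := hfin
  exact pushforwardNormFormula

end Along

end Fermat.Agent.ORD.Geo.NormK6
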