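/-
ORD / chapter G (also M1), brick NF-K, instances (helper6): the norm formula for the two degeneracy
maps of the modular function fields over ANY field `L` with a `ℚ`-algebra structure (in particular
over a number field `K ⊂ ℚ̄`, `L := ↥K`: `ES/N34/ModelDefs9.alpha K M' q` is by definition
`heckeAlphaBar (↥K) M' q`, and `beta` likewise; the `Algebra ℚ L` instance is an argument, so the
statements unify with whatever instance the caller has).
One-line corollaries of `NormK6.normFormulaAlong`.
-/
import Mathlib
import Fermat.Prelude.Def_ModularCurve_HeckeOperator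
import Fermat.Agent.ORD.Geo.NormK6

set_option autoImplicit false
set_option linter.unusedSectionVars false

open AlgebraicCurve ModularCurve

noncomputable section

namespace Fermat.Agent.ORD.Geo.NormKInst6

variable (L : Type*) [Field L] [Algebra ℚ L] (N ℓ : ℕ) [NeZero N] [NeZero ℓ]

theorem charZero_laurentBaseChange (F₀ : IntermediateField ℚ (LaurentSeries ℚ)) :
    CharZero ↥(laurentBaseChange L F₀) :=
  haveI : CharZero L := algebraRat.charZero L
  charZero_of_injective_algebraMap (algebraMap L ↥(laurentBaseChange L F₀)).injective

/-- **NF-K for the first degeneracy map** (any `hfin`). -/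
theorem normFormulaAlong_heckeAlphaBar (hfin : FiniteAlong L (heckeAlphaBar L N ℓ)) :
    NormFormulaAlong L (heckeAlphaBar L N ℓ) hfin :=
  haveI := charZero_laurentBaseChange L (modularFunctionFieldFull N)
  Fermat.Agent.ORD.Geo.NormK6.normFormulaAlong _ hfin

/-- **NF-K for the second degeneracy map** (any `hfin`). -/
theorem normFormulaAlong_heckeBetaBar (hfin : FiniteAlong L (heckeBetaBar L N ℓ)) :
    NormFormulaAlong L (heckeBetaBar L N ℓ) hfin :=
  haveI := charZero_laurentBaseChange L (modularFunctionFieldFull N)
  Fermat.Agent.ORD.Geo.NormK6.normFormulaAlong _ hfin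

end Fermat.Agent.ORD.Geo.NormKInst6
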