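/-
Program ORD (S33), chapter G, brick G3c (helper51): **the norm commutes with base change**.

`F / E` a finite extension of fields, `F̄ / Ē` another one, ring homomorphisms `i₀ : E → Ē`,
`i₁ : F → F̄` forming a commutative square with the algebra maps.  If `[F : E] = [F̄ : Ē]` and the
image of `F` spans `F̄` over `Ē`, then `N_{F̄/Ē} (i₁ f) = i₀ (N_{F/E} f)`.

Mathlib only.
-/
import Mathlib

set_option autoImplicit false
set_option linter.unusedSectionVars false

noncomputable section

namespace Fermat.Agent.ORD.Geo.NormBc51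

variable {E F Eb Fb : Type*} [Field E] [Field F] [Field Eb] [Field Fb]
  [Algebra E F] [Algebra Eb Fb]

/-- the norm in a basis whose image is a basis. -/
theorem norm_map_of_basis (i₀ : E →+* Eb) (i₁ : F →+* Fb)
    (hcomp : ∀ e : E, i₁ (algebraMap E F e) = algebraMap Eb Fb (i₀ e))
    {ι : Type*} [Fintype ι] [DecidableEq ι] (b : Module.Basis ι E F) (b' : Module.Basis ι Eb Fb)
    (hb : ∀ i, b' i = i₁ (b i)) (f : F) :
    Algebra.norm Eb (i₁ f) = i₀ (Algebra.norm E f) := by
  rw [Algebra.norm_eq_matrix_det b', Algebra.norm_eq_matrix_det b, RingHom.map_det]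
  congr 1
  ext i j
  rw [RingHom.mapMatrix_apply, Matrix.map_apply, Algebra.leftMulMatrix_eq_repr_mul,
    Algebra.leftMulMatrix_eq_repr_mul]
  -- `f * b j = ∑ i, a i • b i`
  have h1 : f * b j = ∑ k, (b.repr (f * b j) k) • b k := (b.sum_repr (f * b j)).symm
  have h2 : i₁ f * b' j = ∑ k, (i₀ (b.repr (f * b j) k)) • b' k := by
    rw [hb j, ← map_mul, h1, map_sum]
    refine Finset.sum_congr rfl fun k _ => ?_
    rw [Algebra.smul_def, map_mul, hcomp, hb k, Algebra.smul_def]
    congr 2
    rw [← h1]
  rw [h2, map_sum]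
  simp only [map_smul, Module.Basis.repr_self, Finsupp.coe_finset_sum, Finsupp.coe_smul,
    Finset.sum_apply, Pi.smul_apply, smul_eq_mul]
  rw [Finset.sum_eq_single i]
  · simp
  · intro k _ hk
    rw [Finsupp.single_eq_of_ne hk.symm, mul_zero]
  · intro hi
    exact absurd (Finset.mem_univ i) hi

/-- **The norm commutes with base change** (equal degrees + the image of `F` spans `F̄`). -/
theorem norm_map_of_span [FiniteDimensional E F] (i₀ : E →+* Eb) (i₁ : F →+* Fb)
    (hcomp : ∀ e : E, i₁ (algebraMap E F e) = algebraMap Eb Fb (i₀ e))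
    (hrank : Module.finrank E F = Module.finrank Eb Fb)
    (hspan : ⊤ ≤ Submodule.span Eb (Set.range i₁)) (f : F) :
    Algebra.norm Eb (i₁ f) = i₀ (Algebra.norm E f) := by
  classical
  let b := Module.finBasis E F
  have hle : ⊤ ≤ Submodule.span Eb (Set.range fun i => i₁ (b i)) := by
    refine hspan.trans (Submodule.span_le.mpr ?_)
    rintro _ ⟨x, rfl⟩
    have hx : x = ∑ k, (b.repr x k) • b k := (b.sum_repr x).symm
    rw [hx, map_sum]
    refine Submodule.sum_mem _ fun k _ => ?_
    rw [Algebra.smul_def, map_mul, hcomp, ← Algebra.smul_def]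
    exact Submodule.smul_mem _ _ (Submodule.subset_span ⟨k, rfl⟩)
  have hcard : Fintype.card (Fin (Module.finrank E F)) = Module.finrank Eb Fb := by
    rw [Fintype.card_fin, hrank]
  let b' := basisOfTopLeSpanOfCardEqFinrank (fun i => i₁ (b i)) hle hcard
  exact norm_map_of_basis i₀ i₁ hcomp b b'
    (fun i => by rw [coe_basisOfTopLeSpanOfCardEqFinrank]) f

end Fermat.Agent.ORD.Geo.NormBc51
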