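/-
Program ORD (S33), chapter G, brick G3c (helper51), ABSTRACT CORE.

**Push-forward of divisors commutes with extension of constants.**

Fields `K ⊆ L` (think `L = ℚ̄`, `K` a number field); function fields `E₀, E` over `K` and `Ē₀, Ē` over
`L`; finite embeddings `φ : E₀ → E`, `φ̄ : Ē₀ → Ē`; restriction of places `res : Place L Ē → Place K E`,
`res₀ : Place L Ē₀ → Place K E₀`, compatible with the restriction along `φ`, `φ̄`; extension of divisors
`(ext D) P = D (res P)`.  If the fibres of `res`, `res₀` over a place `w` have `deg w` elements, the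
places of `Ē` have inertia degree one over `Ē₀` (algebraically closed constants), and the fibres of
`res₀` are permuted transitively by symmetries of `Place L Ē` which preserve `res` and are compatible
with the restriction along `φ̄` (the Galois group of `L / K`), then

  `φ̄_* (ext D) = ext₀ (φ_* D)`     (`pushforwardAlong_ext`).

Mathlib + Prelude only.
-/
import Mathlib
import Fermat.Prelude.Def_AlgebraicCurve_Correspondence

set_option autoImplicit false
set_option linter.unusedSectionVars false

open AlgebraicCurve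

noncomputable section

namespace Fermat.Agent.ORD.Geo.PushExt51

section Core

variable {K L E₀ E Eb₀ Eb : Type*} [Field K] [Field L] [Field E₀] [Field E] [Field Eb₀] [Field Eb]
  [Algebra K E₀] [Algebra K E] [Algebra L Eb₀] [Algebra L Eb]

/-- `deg (w|E₀) · f(w | w|E₀) = deg w`, `Along` form. -/
theorem deg_restrictAlong_mul_inertiaDegAlong (φ : E₀ →ₐ[K] E) (hφ : φ.toRingHom.IsIntegral)
    (w : Place K E) :
    (w.restrictAlong φ hφ).deg * w.inertiaDegAlong φ hφ = w.deg := by
  letI := algebraAlong φ
  haveI := isScalarTower_along φ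
  haveI := isIntegral_along φ hφ
  exact w.deg_restrict_mul_inertiaDeg (F := E₀)

variable (φ : E₀ →ₐ[K] E) (hφ : φ.toRingHom.IsIntegral)
  (φb : Eb₀ →ₐ[L] Eb) (hφb : φb.toRingHom.IsIntegral)
  (res : Place L Eb → Place K E) (res₀ : Place L Eb₀ → Place K E₀)

/-- the number of places of `Ē` over `w` (for `res`) and over `Q` (for the restriction along
`φ̄`). -/
def fibCount (hfin : ∀ w : Place K E, {P : Place L Eb | res P = w}.Finite)
    (w : Place K E) (Q : Place L Eb₀) : ℕ := by
  classical
  exact ((hfin w).toFinset.filter fun P => P.restrictAlong φb hφb = Q).card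

variable (hcomm : ∀ P : Place L Eb, res₀ (P.restrictAlong φb hφb) = (res P).restrictAlong φ hφ)
  (hfin : ∀ w : Place K E, {P : Place L Eb | res P = w}.Finite)
  (hcard : ∀ w : Place K E, {P : Place L Eb | res P = w}.ncard = w.deg)
  (hfin₀ : ∀ v : Place K E₀, {Q : Place L Eb₀ | res₀ Q = v}.Finite)
  (hcard₀ : ∀ v : Place K E₀, {Q : Place L Eb₀ | res₀ Q = v}.ncard = v.deg)
  (hsym : ∀ Q Q' : Place L Eb₀, res₀ Q = res₀ Q' →
    ∃ s : Place L Eb → Place L Eb, Function.Injective s ∧ (∀ P, res (s P) = res P) ∧
      ∀ P, P.restrictAlong φb hφb = Q → (s P).restrictAlong φb hφb = Q')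

include hcomm in
theorem fibCount_eq_zero (w : Place K E) (Q : Place L Eb₀)
    (hQ : w.restrictAlong φ hφ ≠ res₀ Q) : fibCount φb hφb res hfin w Q = 0 := by
  classical
  unfold fibCount
  rw [Finset.card_eq_zero, Finset.filter_eq_empty_iff]
  intro P hP hPQ
  rw [Set.Finite.mem_toFinset, Set.mem_setOf_eq] at hP
  apply hQ
  rw [← hPQ, hcomm P, hP]

include hsym in
theorem fibCount_le (w : Place K E) (Q Q' : Place L Eb₀) (h : res₀ Q = res₀ Q') :
    fibCount φb hφb res hfin w Q ≤ fibCount φb hφb res hfin w Q' := by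
  classical
  unfold fibCount
  obtain ⟨s, hs, hres, hQ⟩ := hsym Q Q' h
  refine Finset.card_le_card_of_injOn s ?_ (hs.injOn)
  intro P hP
  rw [Finset.mem_coe, Finset.mem_filter, Set.Finite.mem_toFinset, Set.mem_setOf_eq] at hP ⊢
  exact ⟨(hres P).trans hP.1, hQ P hP.2⟩

include hcomm hcard hfin₀ hcard₀ hsym in
/-- **The count**: over `Q` with `res₀ Q = w|E₀` there are exactly `f(w | w|E₀)` places of `Ē`
over `w`. -/
theorem fibCount_eq (w : Place K E) (Q : Place L Eb₀) (hQ : w.restrictAlong φ hφ = res₀ Q) :
    fibCount φb hφb res hfin w Q = w.inertiaDegAlong φ hφ := by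
  classical
  set v := w.restrictAlong φ hφ with hv
  -- the count is constant on the fibre of `v`
  have hconst : ∀ Q' ∈ (hfin₀ v).toFinset,
      fibCount φb hφb res hfin w Q' = fibCount φb hφb res hfin w Q := by
    intro Q' hQ'
    rw [Set.Finite.mem_toFinset, Set.mem_setOf_eq] at hQ'
    have e : res₀ Q' = res₀ Q := hQ'.trans hQ
    exact le_antisymm (fibCount_le φb hφb res res₀ hfin hsym w Q' Q e)
      (fibCount_le φb hφb res res₀ hfin hsym w Q Q' e.symm)
  -- partition of the fibre of `w`
  have hpart : (hfin w).toFinset.card =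
      ∑ Q' ∈ (hfin₀ v).toFinset, fibCount φb hφb res hfin w Q' := by
    unfold fibCount
    refine Finset.card_eq_sum_card_fiberwise ?_
    intro P hP
    rw [Finset.mem_coe, Set.Finite.mem_toFinset, Set.mem_setOf_eq] at hP
    rw [Finset.mem_coe, Set.Finite.mem_toFinset, Set.mem_setOf_eq, hcomm P, hP]
  rw [Finset.sum_congr rfl hconst, Finset.sum_const, smul_eq_mul,
    ← Set.ncard_eq_toFinset_card _ (hfin w), hcard w,
    ← Set.ncard_eq_toFinset_card _ (hfin₀ v), hcard₀ v,
    ← deg_restrictAlong_mul_inertiaDegAlong φ hφ w] at hpart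
  have hpos : 0 < v.deg := by
    rw [← hcard₀ v, Set.ncard_pos (hfin₀ v)]
    exact ⟨Q, hQ.symm⟩
  exact (Nat.eq_of_mul_eq_mul_left hpos hpart).symm

variable (ext : Divisor K E →+ Divisor L Eb) (ext₀ : Divisor K E₀ →+ Divisor L Eb₀)
  (hext : ∀ (D : Divisor K E) (P : Place L Eb), ext D P = D (res P))
  (hext₀ : ∀ (D : Divisor K E₀) (Q : Place L Eb₀), ext₀ D Q = D (res₀ Q))
  (hin : ∀ P : Place L Eb, P.inertiaDegAlong φb hφb = 1)

include hext in
/-- the extension of a single place is the sum of the places above it. -/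
theorem ext_single (w : Place K E) (n : ℤ) :
    ext (Finsupp.single w n) = ∑ P ∈ (hfin w).toFinset, Finsupp.single P n := by
  classical
  ext P'
  rw [hext, Finsupp.single_apply, Finsupp.finset_sum_apply]
  simp only [Finsupp.single_apply]
  rw [Finset.sum_ite_eq']
  simp only [Set.Finite.mem_toFinset, Set.mem_setOf_eq]
  by_cases h : res P' = w
  · rw [if_pos h, if_pos h.symm]
  · rw [if_neg h, if_neg (fun h' => h h'.symm)]

include hcomm hfin hcard hfin₀ hcard₀ hsym hext hext₀ hin in
/-- **Push-forward commutes with extension of constants.** -/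
theorem pushforwardAlong_ext (D : Divisor K E) :
    Divisor.pushforwardAlong φb hφb (ext D) = ext₀ (Divisor.pushforwardAlong φ hφ D) := by
  classical
  suffices h : (Divisor.pushforwardAlong φb hφb).comp ext =
      ext₀.comp (Divisor.pushforwardAlong φ hφ) from DFunLike.congr_fun h D
  refine Finsupp.addHom_ext fun w n => ?_
  show Divisor.pushforwardAlong φb hφb (ext (Finsupp.single w n)) =
    ext₀ (Divisor.pushforwardAlong φ hφ (Finsupp.single w n))
  rw [ext_single res hfin ext hext w n, map_sum, Divisor.pushforwardAlong_single]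
  ext Q
  rw [hext₀, Finsupp.finset_sum_apply, Finsupp.single_apply]
  have h1 : ∀ P ∈ (hfin w).toFinset,
      (Divisor.pushforwardAlong φb hφb (Finsupp.single P n)) Q =
        if P.restrictAlong φb hφb = Q then n else 0 := by
    intro P _
    rw [Divisor.pushforwardAlong_single, hin P, Finsupp.single_apply]
    simp
  rw [Finset.sum_congr rfl h1, ← Finset.sum_filter, Finset.sum_const]
  have h2 : ((hfin w).toFinset.filter fun P => P.restrictAlong φb hφb = Q).card =
      fibCount φb hφb res hfin w Q := by
    unfold fibCount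
    congr 1
  rw [h2]
  by_cases hQ : w.restrictAlong φ hφ = res₀ Q
  · rw [if_pos hQ, fibCount_eq φ hφ φb hφb res res₀ hcomm hfin hcard hfin₀ hcard₀ hsym w Q hQ]
    simp [mul_comm]
  · rw [if_neg hQ, fibCount_eq_zero φ hφ φb hφb res res₀ hcomm hfin w Q hQ]
    simp

end Core

end Fermat.Agent.ORD.Geo.PushExt51
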