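/-
Program ORD (S33), chapter G, brick G3c (helper51), INSTANCE, generic part.

**The degeneracy push-forwards commute with the base change `Pic⁰(K·F_M) → J₀(M)(ℚ̄)`.**

`K ⊂ ℚ̄` a number field, `M₀, M₁` two levels, `φK : K·F_{M₀} → K·F_{M₁}` and
`φ̄ : ℚ̄·F_{M₀} → ℚ̄·F_{M₁}` finite embeddings forming a commutative square with the base-change maps
`bc`, `φ̄` commuting with the coefficientwise Galois action (`φ̄` is "defined over `ℚ`").  Then

* `resPlace_restrictAlong` : restriction of places to `K·F` commutes with restriction along `φ`;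
* `pushforwardAlong_extDiv` : `φ̄_* (extDiv D) = extDiv (φK_* D)` (from `PushExt51`, with helper25's
  fibre count and transitivity);
* `isPrincipal_pushforwardAlong_K` : `φK_*` maps principal divisors of degree `0` to principal
  divisors (NO norm formula over `K` needed: `bcPic0` is injective);
* `pic0PushK`, `pic0PushAlong_bcPic0` : the induced map on `Pic⁰` over `K`, and the square with
  `bcPic0`;
* `normAlong_bc`, `normFormulaAlong_K` : the norm commutes with `bc`, hence the Prelude's norm
  formula `ord_v (N f) = (φK_* div f)(v)` holds over the NUMBER FIELD `K`;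
The instances at `ModelDefs9.alpha`, `ModelDefs9.beta` are in `PushBcLevel51`.
-/
import Mathlib
import Fermat.Agent.M1.Car.RatMain25
import Fermat.Agent.ES.N35.PushO12
import Fermat.Agent.ES.N34.ModelDefs9
import Fermat.Agent.ES.HECKE.HeckeGalois12
import Fermat.Agent.ORD.Geo.PushExt51
import Fermat.Agent.ORD.Geo.NormBc51

set_option autoImplicit false
set_option linter.unusedSectionVars false
set_option linter.style.haveILetI false
set_option synthInstance.maxHeartbeats 400000

open AlgebraicCurve ModularCurve HahnSeries IntermediateField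

noncomputable section

namespace Fermat.Agent.ORD.Geo.PushBc51

open Fermat.Agent.RED.Interface4 Fermat.Agent.RED.DESC
  Fermat.Agent.M1.Car.FibreAbs25 Fermat.Agent.M1.Car.Fibre25 Fermat.Agent.M1.Car.FibreEmb25
  Fermat.Agent.M1.Car.FibreCount25 Fermat.Agent.M1.Car.RatClass25 Fermat.Agent.M1.Car.RatMain25
  Fermat.Agent.ES.N35.PushO12

/-- Shortcut to the instance found (slowly) by instance search. -/
local instance (priority := 5000) algKFK (M : ℕ) (K : IntermediateField ℚ Qbar) :
    Algebra K (FK M K) := SubalgebraClass.toAlgebra (FK M K)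

/-! ### Generic -/

section RestrictAlong

variable {k F F' : Type*} [Field k] [Field F] [Field F'] [Algebra k F] [Algebra k F']

theorem mem_restrictAlong_iff (φ : F →ₐ[k] F') (hφ : φ.toRingHom.IsIntegral) (w : Place k F')
    (f : F) : f ∈ (w.restrictAlong φ hφ).toValuationSubring ↔ φ f ∈ w.toValuationSubring := by
  letI := algebraAlong φ
  haveI := isScalarTower_along φ
  haveI := isIntegral_along φ hφ
  exact Place.mem_restrict_iff (F := F) w

end RestrictAlong

section Generic

variable {M₀ M₁ : ℕ} [NeZero M₀] [NeZero M₁] (K : IntermediateField ℚ Qbar) [FiniteDimensional ℚ K]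
  (φK : FK M₀ K →ₐ[K] FK M₁ K) (hφK : φK.toRingHom.IsIntegral)
  (φb : Fbar M₀ →ₐ[Qbar] Fbar M₁) (hφb : φb.toRingHom.IsIntegral)
  (hsq : ∀ f : FK M₀ K, bc M₁ K (φK f) = φb (bc M₀ K f))
  (hgal : ∀ (σ : Qbar ≃ₐ[ℚ] Qbar) (f : Fbar M₀), φb (galBar M₀ σ • f) = galBar M₁ σ • φb f)
  (hin : ∀ P : Place Qbar (Fbar M₁), P.inertiaDegAlong φb hφb = 1)

include hsq in
/-- restriction to `K·F` commutes with restriction along `φ`. -/
theorem resPlace_restrictAlong (P : Place Qbar (Fbar M₁)) :
    resPlace M₀ K (P.restrictAlong φb hφb) = (resPlace M₁ K P).restrictAlong φK hφK := by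
  apply Place.ext
  ext f
  rw [mem_resPlace_iff, mem_restrictAlong_iff, mem_restrictAlong_iff, mem_resPlace_iff, hsq]

include hgal in
/-- `Gal(ℚ̄/K)` permutes the places over a place of `K·F_{M₁}` compatibly with `φ̄`. -/
theorem exists_symm (Q Q' : Place Qbar (Fbar M₀)) (h : resPlace M₀ K Q = resPlace M₀ K Q') :
    ∃ s : Place Qbar (Fbar M₁) → Place Qbar (Fbar M₁), Function.Injective s ∧
      (∀ P, resPlace M₁ K (s P) = resPlace M₁ K P) ∧
      ∀ P, P.restrictAlong φb hφb = Q → (s P).restrictAlong φb hφb = Q' := by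
  obtain ⟨σ, hσ, hσQ⟩ := exists_smul_eq_of_resPlace_eq M₀ K Q Q' h
  refine ⟨fun P => galBar M₁ σ • P, MulAction.injective (galBar M₁ σ),
    fun P => resPlace_smul M₁ K σ hσ P, fun P hP => ?_⟩
  show (galBar M₁ σ • P).restrictAlong φb hφb = Q'
  rw [Fermat.Agent.ES.RED.PullbackInj12.restrictAlong_smul φb hφb (galBar M₀ σ) (galBar M₁ σ)
    (hgal σ) P, hP, hσQ]

include hsq hgal hin in
/-- **Push-forward of divisors commutes with `extDiv`.** -/
theorem pushforwardAlong_extDiv (D : Divisor K (FK M₁ K)) :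
    Divisor.pushforwardAlong φb hφb (extDiv M₁ K D) =
      extDiv M₀ K (Divisor.pushforwardAlong φK hφK D) :=
  Fermat.Agent.ORD.Geo.PushExt51.pushforwardAlong_ext φK hφK φb hφb (resPlace M₁ K) (resPlace M₀ K)
    (resPlace_restrictAlong K φK hφK φb hφb hsq)
    (finite_fibre M₁ K) (ncard_fibre M₁ K) (finite_fibre M₀ K) (ncard_fibre M₀ K)
    (exists_symm K φb hφb hgal) (extDiv M₁ K) (extDiv M₀ K)
    (extDiv_apply M₁ K) (extDiv_apply M₀ K) hin D

variable (hfinb : FiniteAlong Qbar φb) (hNb : NormFormulaAlong Qbar φb hfinb)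

include hsq hgal hin hfinb hNb in
/-- `φK_*` maps principal divisors of degree `0` to principal divisors: no norm formula over `K`
is needed, because `bcPic0` is injective. -/
theorem isPrincipal_pushforwardAlong_K {D : Divisor K (FK M₁ K)}
    (hD : D ∈ Divisor.principal (K := K) (F := FK M₁ K)) :
    Divisor.pushforwardAlong φK hφK D ∈ Divisor.principal (K := K) (F := FK M₀ K) := by
  have hdeg : Divisor.pushforwardAlong φK hφK D ∈ Divisor.degZero (K := K) (F := FK M₀ K) := by
    refine Divisor.pushforwardAlong_mem_degZero φK hφK ?_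
    obtain ⟨f, hf, hDf⟩ := hD
    rw [Divisor.mem_degZero]
    obtain ⟨E, hE, hE0⟩ := (hasPrincipalDivisors M₁ K).exists_divisor f hf
    have : D = E := by
      ext w
      rw [hDf w, hE w]
    rw [this]
    exact hE0
  have h0 : bcPic0 M₀ K (Pic0.mk ⟨_, hdeg⟩) = 0 := by
    rw [bcPic0_mk]
    refine (QuotientAddGroup.eq_zero_iff _).mpr ?_
    rw [AddSubgroup.mem_addSubgroupOf]
    show extDiv M₀ K (Divisor.pushforwardAlong φK hφK D) ∈ _
    rw [← pushforwardAlong_extDiv K φK hφK φb hφb hsq hgal hin D]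
    exact Divisor.isPrincipal_pushforwardAlong φb hφb hfinb hNb (extDiv_mem_principal M₁ K hD)
  have h1 := bcPic0_injective M₀ K (h0.trans (map_zero _).symm)
  have h2 := (QuotientAddGroup.eq_zero_iff _).mp h1
  rwa [AddSubgroup.mem_addSubgroupOf] at h2

/-- **The push-forward on `Pic⁰` over the number field `K`.** -/
def pic0PushK : Pic0 K (FK M₁ K) →+ Pic0 K (FK M₀ K) :=
  QuotientAddGroup.map _ _ (degZeroPushAlong φK hφK) (by
    rintro ⟨D, hD0⟩ hD
    simp only [AddSubgroup.mem_addSubgroupOf, AddSubgroup.mem_comap] at hD ⊢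
    exact isPrincipal_pushforwardAlong_K K φK hφK φb hφb hsq hgal hin hfinb hNb hD)

theorem pic0PushK_mk (D : Divisor.degZero (K := K) (F := FK M₁ K)) :
    pic0PushK K φK hφK φb hφb hsq hgal hin hfinb hNb (Pic0.mk D) =
      Pic0.mk (degZeroPushAlong φK hφK D) := rfl

/-- **The square**: `φ̄_* ∘ bcPic0 = bcPic0 ∘ φK_*`. -/
theorem pic0PushAlong_bcPic0 (x : Pic0 K (FK M₁ K)) :
    pic0PushAlong φb hφb hfinb hNb (bcPic0 M₁ K x) =
      bcPic0 M₀ K (pic0PushK K φK hφK φb hφb hsq hgal hin hfinb hNb x) := by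
  obtain ⟨D, rfl⟩ := Pic0.mk_surjective x
  rw [bcPic0_mk, pic0PushAlong_mk, pic0PushK_mk, bcPic0_mk]
  refine congrArg Pic0.mk (Subtype.ext ?_)
  rw [coe_degZeroPushAlong, coe_extDivZero, coe_extDivZero, coe_degZeroPushAlong]
  exact pushforwardAlong_extDiv K φK hφK φb hφb hsq hgal hin _

/-- if `hN` is a norm formula over `K`, the Prelude-style push-forward is `pic0PushK`. -/
theorem pic0PushAlong_eq_pic0PushK (hfinK : FiniteAlong K φK) (hNK : NormFormulaAlong K φK hfinK)
    (x : Pic0 K (FK M₁ K)) :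
    pic0PushAlong φK hφK hfinK hNK x =
      pic0PushK K φK hφK φb hφb hsq hgal hin hfinb hNb x := by
  obtain ⟨D, rfl⟩ := Pic0.mk_surjective x
  rfl


/-! #### The norm formula over the number field -/

include hsq in
/-- the norm along `φ` commutes with the base change `K·F → ℚ̄·F` (equal degrees). -/
theorem normAlong_bc (hfinK : FiniteAlong K φK)
    (hrank : finrankAlong K φK = finrankAlong Qbar φb) (f : FK M₁ K) :
    Fermat.Agent.ES.HECKE.BaseChange19.normAlong φb (bc M₁ K f) =
      bc M₀ K (Fermat.Agent.ES.HECKE.BaseChange19.normAlong φK f) := by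
  letI := algebraAlong φK
  letI := algebraAlong φb
  haveI := isScalarTower_along φb
  haveI : Module.Finite (FK M₀ K) (FK M₁ K) := hfinK
  refine Fermat.Agent.ORD.Geo.NormBc51.norm_map_of_span (bc M₀ K) (bc M₁ K) hsq hrank ?_ f
  intro y _
  have h1 := span_range_bc M₁ K y
  exact (Submodule.span_le_restrictScalars Qbar (Fbar M₀) (Set.range (bc M₁ K))) h1

include hφK hsq hgal hin hfinb hNb in
/-- **The norm formula along `φK` over the number field `K`**, from the one over `ℚ̄`. -/
theorem normFormulaAlong_K (hfinK : FiniteAlong K φK)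
    (hrank : finrankAlong K φK = finrankAlong Qbar φb) : NormFormulaAlong K φK hfinK := by
  have key : ∀ (f : FK M₁ K), f ≠ 0 → ∀ D : Divisor K (FK M₁ K), (∀ w, D w = w.ord f) →
      ∀ v : Place K (FK M₀ K), Divisor.pushforwardAlong φK hφK D v =
        v.ord (Fermat.Agent.ES.HECKE.BaseChange19.normAlong φK f) := by
    intro f hf D hD v
    obtain ⟨Q, rfl⟩ := resPlace_surjective M₀ K v
    rw [← extDiv_apply M₀ K, ← pushforwardAlong_extDiv K φK hφK φb hφb hsq hgal hin D,
      pushforwardAlong_eq_ord_norm φb hφb hfinb hNb (bc_ne_zero M₁ K hf)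
        (fun P => extDiv_eq_ord M₁ K hD P) Q,
      normAlong_bc K φK φb hsq hfinK hrank f, ord_resPlace]
  exact key

end Generic

end Fermat.Agent.ORD.Geo.PushBc51
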