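/-
Program ORD (S33), chapter G, brick G3c (helper51), INSTANCE at the two degeneracy maps.

`K ⊂ ℚ̄` a number field, `q` prime, `q ∤ M₀`; `α, β : K·F_{M₀} → K·F_{M₀ q}` (`ModelDefs9.alpha`, `beta`).

* `bc_alpha`, `bc_beta` : the commutative squares with the base-change maps;
* `pushAlphaK`, `pushBetaK : Pic⁰(K·F_{M₀ q}) → Pic⁰(K·F_{M₀})`;
* **`alphaPush_bcPic0`, `betaPush_bcPic0`** : `α_* (bc x) = bc (α_{K,*} x)`, same for `β` (G3c);
* `pushK_eq_zero_of_mem_ker` : `bc x ∈ ker α_* ⊓ ker β_*` ⇒ `α_{K,*} x = 0 = β_{K,*} x`;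
* `pushforwardAlong_alpha_mem_principal`, `..._beta_...` : divisor forms;
* `normFormulaAlong_alphaK`, `normFormulaAlong_betaK` : the Prelude's norm formula along `α`, `β`
  over the NUMBER FIELD `K`.
-/
import Mathlib
import Fermat.Agent.ORD.Geo.PushBc51

set_option autoImplicit false
set_option linter.unusedSectionVars false
set_option linter.style.haveILetI false
set_option synthInstance.maxHeartbeats 400000

open AlgebraicCurve ModularCurve HahnSeries IntermediateField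

noncomputable section

namespace Fermat.Agent.ORD.Geo.PushBcLevel51

open Fermat.Agent.RED.Interface4 Fermat.Agent.RED.DESC
  Fermat.Agent.M1.Car.FibreAbs25 Fermat.Agent.M1.Car.Fibre25 Fermat.Agent.M1.Car.FibreEmb25
  Fermat.Agent.M1.Car.FibreCount25 Fermat.Agent.M1.Car.RatClass25 Fermat.Agent.M1.Car.RatMain25
  Fermat.Agent.ES.N35.PushO12 Fermat.Agent.ORD.Geo.PushBc51

/-- Shortcut to the instance found (slowly) by instance search. -/
local instance (priority := 5000) algKFK' (M : ℕ) (K : IntermediateField ℚ Qbar) :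
    Algebra K (FK M K) := SubalgebraClass.toAlgebra (FK M K)

/-! ### The two degeneracy maps -/

section Level

variable {M₀ q : ℕ} [NeZero M₀] [NeZero q] (K : IntermediateField ℚ Qbar) [FiniteDimensional ℚ K]
  (hq : q.Prime) (hqM : ¬ q ∣ M₀)

theorem bc_alpha (f : FK M₀ K) :
    bc (M₀ * q) K (Fermat.Agent.ES.N34.ModelDefs9.alpha K M₀ q f) =
      heckeAlphaBar Qbar M₀ q (bc M₀ K f) := by
  apply Subtype.ext
  rw [coe_heckeAlphaBar, PlaceExtend27.coe_baseChangeHom, PlaceExtend27.coe_baseChangeHom,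
    Fermat.Agent.ES.N34.ModelDefs9.coe_alpha]

theorem bc_beta (f : FK M₀ K) :
    bc (M₀ * q) K (Fermat.Agent.ES.N34.ModelDefs9.beta K M₀ q f) =
      heckeBetaBar Qbar M₀ q (bc M₀ K f) := by
  apply Subtype.ext
  rw [coe_heckeBetaBar, PlaceExtend27.coe_baseChangeHom, PlaceExtend27.coe_baseChangeHom,
    Fermat.Agent.ES.N34.ModelDefs9.coe_beta]
  exact Fermat.Agent.X0.CuspGood.coeffMap_qExpand _ q _

/-- all inertia degrees along `α` over `ℚ̄` are one. -/
theorem inertiaDegAlong_alpha (w : Place Qbar (Fbar (M₀ * q))) :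
    w.inertiaDegAlong (heckeAlphaBar Qbar M₀ q)
      (Fermat.Agent.ES.HECKE.AlongDegree25.heckeAlphaBarIntegral Qbar M₀ q hq hqM) = 1 := by
  haveI : HasPrincipalDivisors Qbar (laurentBaseChange Qbar (modularFunctionFieldFull (M₀ * q))) :=
    Fermat.Agent.RED.TOP.FbarFacts20.hasPrincipalDivisors_bar (M₀ * q)
  exact Fermat.Agent.ES.HECKE.FundId12.inertiaDegAlong_eq_one (heckeAlphaBar Qbar M₀ q) _
    (Fermat.Agent.ES.HECKE.AlongDegree25.finiteAlong_alpha Qbar M₀ q hq hqM)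
    (Fermat.Agent.RED.TOP.FbarFacts20.isGen_j M₀) w

/-- all inertia degrees along `β` over `ℚ̄` are one. -/
theorem inertiaDegAlong_beta (w : Place Qbar (Fbar (M₀ * q))) :
    w.inertiaDegAlong (heckeBetaBar Qbar M₀ q)
      (Fermat.Agent.ES.HECKE.AlongDegree25.heckeBetaBarIntegral Qbar M₀ q hq hqM) = 1 := by
  haveI : HasPrincipalDivisors Qbar (laurentBaseChange Qbar (modularFunctionFieldFull (M₀ * q))) :=
    Fermat.Agent.RED.TOP.FbarFacts20.hasPrincipalDivisors_bar (M₀ * q)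
  exact Fermat.Agent.ES.HECKE.FundId12.inertiaDegAlong_eq_one (heckeBetaBar Qbar M₀ q) _
    (Fermat.Agent.ES.HECKE.AlongDegree25.finiteAlong_beta Qbar M₀ q hq hqM)
    (Fermat.Agent.RED.TOP.FbarFacts20.isGen_j M₀) w

/-- `α_*` on `Pic⁰` over `K`. -/
def pushAlphaK : Pic0 K (FK (M₀ * q) K) →+ Pic0 K (FK M₀ K) :=
  pic0PushK K (Fermat.Agent.ES.N34.ModelDefs9.alpha K M₀ q)
    (Fermat.Agent.ES.HECKE.AlongDegree25.heckeAlphaBarIntegral K M₀ q hq hqM)
    (heckeAlphaBar Qbar M₀ q)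
    (Fermat.Agent.ES.HECKE.AlongDegree25.heckeAlphaBarIntegral Qbar M₀ q hq hqM)
    (bc_alpha K)
    (fun σ f => Fermat.Agent.ES.HECKE.HeckeGalois12.heckeAlphaBar_smul M₀ q σ f)
    (inertiaDegAlong_alpha hq hqM)
    (Fermat.Agent.ES.HECKE.AlongDegree25.finiteAlong_alpha Qbar M₀ q hq hqM)
    (Fermat.Agent.ES.HECKE.InputsFinal15.normFormulaAlong_alpha M₀ q hq hqM)

/-- `β_*` on `Pic⁰` over `K`. -/
def pushBetaK : Pic0 K (FK (M₀ * q) K) →+ Pic0 K (FK M₀ K) :=
  pic0PushK K (Fermat.Agent.ES.N34.ModelDefs9.beta K M₀ q)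
    (Fermat.Agent.ES.HECKE.AlongDegree25.heckeBetaBarIntegral K M₀ q hq hqM)
    (heckeBetaBar Qbar M₀ q)
    (Fermat.Agent.ES.HECKE.AlongDegree25.heckeBetaBarIntegral Qbar M₀ q hq hqM)
    (bc_beta K)
    (fun σ f => Fermat.Agent.ES.HECKE.HeckeGalois12.heckeBetaBar_smul M₀ q σ f)
    (inertiaDegAlong_beta hq hqM)
    (Fermat.Agent.ES.HECKE.AlongDegree25.finiteAlong_beta Qbar M₀ q hq hqM)
    (Fermat.Agent.ES.HECKE.InputsFinal15.normFormulaAlong_beta M₀ q hq hqM)

/-- **G3c (α)**: `α_* (bc x) = bc (α_{K,*} x)`. -/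
theorem alphaPush_bcPic0 (x : Pic0 K (FK (M₀ * q) K)) :
    alphaPush hq hqM (bcPic0 (M₀ * q) K x) = bcPic0 M₀ K (pushAlphaK K hq hqM x) :=
  pic0PushAlong_bcPic0 K _ _ _ _ _ _ _ _ _ x

/-- **G3c (β)**: `β_* (bc x) = bc (β_{K,*} x)`. -/
theorem betaPush_bcPic0 (x : Pic0 K (FK (M₀ * q) K)) :
    betaPush hq hqM (bcPic0 (M₀ * q) K x) = bcPic0 M₀ K (pushBetaK K hq hqM x) :=
  pic0PushAlong_bcPic0 K _ _ _ _ _ _ _ _ _ x

/-- **G3c, the form consumed by (T5)**: a `K`-rational class whose image over `ℚ̄` is killed by both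
pushes is killed by both pushes over `K`. -/
theorem pushK_eq_zero_of_mem_ker (x : Pic0 K (FK (M₀ * q) K))
    (hx : bcPic0 (M₀ * q) K x ∈ (alphaPush hq hqM).ker ⊓ (betaPush hq hqM).ker) :
    pushAlphaK K hq hqM x = 0 ∧ pushBetaK K hq hqM x = 0 := by
  rw [AddSubgroup.mem_inf, AddMonoidHom.mem_ker, AddMonoidHom.mem_ker] at hx
  obtain ⟨hα, hβ⟩ := hx
  constructor
  · apply bcPic0_injective M₀ K
    rw [← alphaPush_bcPic0, hα, map_zero]
  · apply bcPic0_injective M₀ K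
    rw [← betaPush_bcPic0, hβ, map_zero]

/-- divisor form: the push-forward over `K` of a degree-zero divisor whose class over `ℚ̄` is killed
by `α_*` is principal over `K`. -/
theorem pushforwardAlong_alpha_mem_principal (D : Divisor.degZero (K := K) (F := FK (M₀ * q) K))
    (hD : alphaPush hq hqM (bcPic0 (M₀ * q) K (Pic0.mk D)) = 0) :
    Divisor.pushforwardAlong (Fermat.Agent.ES.N34.ModelDefs9.alpha K M₀ q)
      (Fermat.Agent.ES.HECKE.AlongDegree25.heckeAlphaBarIntegral K M₀ q hq hqM)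
      (D : Divisor K (FK (M₀ * q) K)) ∈ Divisor.principal (K := K) (F := FK M₀ K) := by
  have h1 : pushAlphaK K hq hqM (Pic0.mk D) = 0 := by
    apply bcPic0_injective M₀ K
    rw [← alphaPush_bcPic0, hD, map_zero]
  have h2 := (QuotientAddGroup.eq_zero_iff _).mp h1
  rwa [AddSubgroup.mem_addSubgroupOf] at h2

theorem pushforwardAlong_beta_mem_principal (D : Divisor.degZero (K := K) (F := FK (M₀ * q) K))
    (hD : betaPush hq hqM (bcPic0 (M₀ * q) K (Pic0.mk D)) = 0) :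
    Divisor.pushforwardAlong (Fermat.Agent.ES.N34.ModelDefs9.beta K M₀ q)
      (Fermat.Agent.ES.HECKE.AlongDegree25.heckeBetaBarIntegral K M₀ q hq hqM)
      (D : Divisor K (FK (M₀ * q) K)) ∈ Divisor.principal (K := K) (F := FK M₀ K) := by
  have h1 : pushBetaK K hq hqM (Pic0.mk D) = 0 := by
    apply bcPic0_injective M₀ K
    rw [← betaPush_bcPic0, hD, map_zero]
  have h2 := (QuotientAddGroup.eq_zero_iff _).mp h1
  rwa [AddSubgroup.mem_addSubgroupOf] at h2


/-- the norm formula along `α` over the number field `K`. -/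
theorem normFormulaAlong_alphaK :
    NormFormulaAlong K (Fermat.Agent.ES.N34.ModelDefs9.alpha K M₀ q)
      (Fermat.Agent.ES.HECKE.AlongDegree25.finiteAlong_alpha K M₀ q hq hqM) :=
  normFormulaAlong_K K (Fermat.Agent.ES.N34.ModelDefs9.alpha K M₀ q)
    (Fermat.Agent.ES.HECKE.AlongDegree25.heckeAlphaBarIntegral K M₀ q hq hqM)
    (heckeAlphaBar Qbar M₀ q)
    (Fermat.Agent.ES.HECKE.AlongDegree25.heckeAlphaBarIntegral Qbar M₀ q hq hqM)
    (bc_alpha K)
    (fun σ f => Fermat.Agent.ES.HECKE.HeckeGalois12.heckeAlphaBar_smul M₀ q σ f)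
    (inertiaDegAlong_alpha hq hqM)
    (Fermat.Agent.ES.HECKE.AlongDegree25.finiteAlong_alpha Qbar M₀ q hq hqM)
    (Fermat.Agent.ES.HECKE.InputsFinal15.normFormulaAlong_alpha M₀ q hq hqM)
    (Fermat.Agent.ES.HECKE.AlongDegree25.finiteAlong_alpha K M₀ q hq hqM)
    ((Fermat.Agent.ES.HECKE.AlongDegree25.finrankAlong_alpha K M₀ q hq hqM).trans
      (Fermat.Agent.ES.HECKE.AlongDegree25.finrankAlong_alpha Qbar M₀ q hq hqM).symm)

/-- the norm formula along `β` over the number field `K`. -/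
theorem normFormulaAlong_betaK :
    NormFormulaAlong K (Fermat.Agent.ES.N34.ModelDefs9.beta K M₀ q)
      (Fermat.Agent.ES.HECKE.AlongDegree25.finiteAlong_beta K M₀ q hq hqM) :=
  normFormulaAlong_K K (Fermat.Agent.ES.N34.ModelDefs9.beta K M₀ q)
    (Fermat.Agent.ES.HECKE.AlongDegree25.heckeBetaBarIntegral K M₀ q hq hqM)
    (heckeBetaBar Qbar M₀ q)
    (Fermat.Agent.ES.HECKE.AlongDegree25.heckeBetaBarIntegral Qbar M₀ q hq hqM)
    (bc_beta K)
    (fun σ f => Fermat.Agent.ES.HECKE.HeckeGalois12.heckeBetaBar_smul M₀ q σ f)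
    (inertiaDegAlong_beta hq hqM)
    (Fermat.Agent.ES.HECKE.AlongDegree25.finiteAlong_beta Qbar M₀ q hq hqM)
    (Fermat.Agent.ES.HECKE.InputsFinal15.normFormulaAlong_beta M₀ q hq hqM)
    (Fermat.Agent.ES.HECKE.AlongDegree25.finiteAlong_beta K M₀ q hq hqM)
    ((Fermat.Agent.ES.HECKE.AlongDegree25.finrankAlong_beta K M₀ q hq hqM).trans
      (Fermat.Agent.ES.HECKE.AlongDegree25.finrankAlong_beta Qbar M₀ q hq hqM).symm)

end Level

end Fermat.Agent.ORD.Geo.PushBcLevel51
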