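/-
ORD (S33), chapter G (GeoData), abstract assembly — helper40.  Mathlib only.

Pure group theory, in the style of `M1/Tri/Abstract45`.  `J` is an abelian group (think
`J₀(N)(ℚ̄)`), `Γ` a group acting on it (think `Gal(ℚ̄/ℚ)`), `I ⊆ Γ` a subset (the inertia group at a
place over `p`), `cyc τ c` the relation "`τ` acts on `μ_p` through `ζ ↦ ζ ^ c`", `Kpush` the common
kernel of the two degeneracy push-forwards.

* `DepthContract` : what the local chapters (PIC / NRM / MON of M1, stated for an arbitrary finite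
  normal field `F` with ramification index `e`, `d = e / (p - 1)`) deliver for the depth filtration
  `JL n = J_n(F)`;
* `DepthContract.smul_eq` : **(G4) over one field**: a `p`-torsion point of `J_1(F)` killed by the
  pushes is multiplied by `c` by every `τ ∈ I` with `cyc τ c`;
* `FieldSystem` : a directed system of fields with rational classes `Rat i`, `J⁰ = J0 i`,
  `J_n = JL i n` and the invariance statements (Gc), (Gd);
* `FieldSystem.G2`, `G3`, `G4` : the three clauses of `Spec40.GeoData` for `J0 := ⨆ J0 i`,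
  `J1 := ⨆ JL i 1`.
-/
import Mathlib

set_option autoImplicit false

namespace Fermat.Agent.ORD.Geo.Abstract40

variable {J : Type*} [AddCommGroup J] {Γ : Type*} [Group Γ] [DistribMulAction Γ J]

/-- **The depth contract over one field** (`d = e / (p - 1)`). -/
structure DepthContract (p d : ℕ) (I : Set Γ) (cyc : Γ → ℕ → Prop) (Kpush : AddSubgroup J)
    (JL : ℕ → AddSubgroup J) : Prop where
  /-- the threshold depth is positive (`ζ_p ∈ F`) -/
  one_le : 1 ≤ d
  /-- the filtration is decreasing -/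
  anti : ∀ n : ℕ, JL (n + 1) ≤ JL n
  /-- (T5') climbing below the threshold: `[p]` is Frobenius on `grⁿ` for `n < d`; the pushes kill
  the abelian part; Frobenius is injective on the toric part. -/
  T5 : ∀ n : ℕ, 1 ≤ n → n < d → ∀ x ∈ JL n, p • x = 0 → x ∈ Kpush → x ∈ JL (n + 1)
  /-- (T1'') inertia acts on `gr^d` through the mod `p` cyclotomic character. -/
  T1 : ∀ τ ∈ I, ∀ c : ℕ, cyc τ c → ∀ x ∈ JL d, τ • x - c • x ∈ JL (d + 1)
  /-- (T7') no `p`-torsion above the threshold. -/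
  T7 : ∀ x ∈ JL (d + 1), p • x = 0 → x = 0

variable {p d : ℕ} {I : Set Γ} {cyc : Γ → ℕ → Prop} {Kpush : AddSubgroup J}
  {JL : ℕ → AddSubgroup J}

theorem DepthContract.climb (C : DepthContract p d I cyc Kpush JL) {x : J} (h1 : x ∈ JL 1)
    (hp : p • x = 0) (hK : x ∈ Kpush) : ∀ n : ℕ, 1 ≤ n → n ≤ d → x ∈ JL n := by
  intro n hn
  induction n, hn using Nat.le_induction with
  | base => intro _; exact h1
  | succ n hn ih =>
    intro hle
    exact C.T5 n hn (Nat.lt_of_succ_le hle) x (ih (Nat.le_of_succ_le hle)) hp hK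

/-- **(G4) over one field.** -/
theorem DepthContract.smul_eq (C : DepthContract p d I cyc Kpush JL) {x : J} (h1 : x ∈ JL 1)
    (hp : p • x = 0) (hK : x ∈ Kpush) (τ : Γ) (hτ : τ ∈ I) (c : ℕ) (hc : cyc τ c) :
    τ • x = c • x := by
  have hd : x ∈ JL d := C.climb h1 hp hK d C.one_le le_rfl
  have h2 : τ • x - c • x ∈ JL (d + 1) := C.T1 τ hτ c hc x hd
  have h3 : p • (τ • x - c • x) = 0 := by
    rw [smul_sub, smul_comm p τ x, smul_comm p c x, hp, smul_zero, smul_zero, sub_zero]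
  exact sub_eq_zero.mp (C.T7 _ h2 h3)

/-- **A directed system of fields** with their rational classes and filtrations. -/
structure FieldSystem (p : ℕ) (I : Set Γ) (cyc : Γ → ℕ → Prop) (Kpush : AddSubgroup J)
    (ι : Type*) [Preorder ι] [IsDirected ι (· ≤ ·)] [Nonempty ι] where
  /-- the `F`-rational classes -/
  Rat : ι → AddSubgroup J
  /-- `J⁰(F)` -/
  J0 : ι → AddSubgroup J
  /-- `J_n(F)` -/
  JL : ι → ℕ → AddSubgroup J
  /-- the threshold depth `e_F / (p - 1)` -/
  d : ι → ℕ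
  /-- every class of `p`-power order is rational over some field of the system -/
  cover : ∀ (k : ℕ) (x : J), p ^ k • x = 0 → ∃ i, x ∈ Rat i
  Rat_mono : ∀ i j, i ≤ j → Rat i ≤ Rat j
  J0_le_Rat : ∀ i, J0 i ≤ Rat i
  /-- (Gb) base change of `J⁰` and of `J_1` -/
  J0_mono : ∀ i j, i ≤ j → J0 i ≤ J0 j
  J1_mono : ∀ i j, i ≤ j → JL i 1 ≤ JL j 1
  /-- (Gc) the component group is inertia-invariant -/
  Gc : ∀ i, ∀ σ ∈ I, ∀ x ∈ Rat i, σ • x - x ∈ J0 i
  /-- (Gd) inertia acts trivially on the special fibre -/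
  Gd : ∀ i, ∀ σ ∈ I, ∀ x ∈ J0 i, σ • x - x ∈ JL i 1
  /-- (Ge) the depth contract over every field -/
  contract : ∀ i, DepthContract p (d i) I cyc Kpush (JL i)

variable {ι : Type*} [Preorder ι] [IsDirected ι (· ≤ ·)] [Nonempty ι]

theorem FieldSystem.directed_J0 (S : FieldSystem (J := J) p I cyc Kpush ι) :
    Directed (· ≤ ·) S.J0 := fun i j => by
  obtain ⟨k, hik, hjk⟩ := exists_ge_ge i j
  exact ⟨k, S.J0_mono i k hik, S.J0_mono j k hjk⟩

theorem FieldSystem.directed_J1 (S : FieldSystem (J := J) p I cyc Kpush ι) :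
    Directed (· ≤ ·) fun i => S.JL i 1 := fun i j => by
  obtain ⟨k, hik, hjk⟩ := exists_ge_ge i j
  exact ⟨k, S.J1_mono i k hik, S.J1_mono j k hjk⟩

/-- **(G2)** for `J0 := ⨆ J0 i`. -/
theorem FieldSystem.G2 (S : FieldSystem (J := J) p I cyc Kpush ι) (σ : Γ) (hσ : σ ∈ I) (k : ℕ)
    (x : J) (hx : p ^ k • x = 0) : σ • x - x ∈ ⨆ i, S.J0 i := by
  obtain ⟨i, hi⟩ := S.cover k x hx
  exact AddSubgroup.mem_iSup_of_mem i (S.Gc i σ hσ x hi)

/-- **(G3)** for `J0 := ⨆ J0 i`, `J1 := ⨆ JL i 1`. -/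
theorem FieldSystem.G3 (S : FieldSystem (J := J) p I cyc Kpush ι) (σ : Γ) (hσ : σ ∈ I)
    (x : J) (hx : x ∈ ⨆ i, S.J0 i) : σ • x - x ∈ ⨆ i, S.JL i 1 := by
  obtain ⟨i, hi⟩ := (AddSubgroup.mem_iSup_of_directed S.directed_J0).mp hx
  exact AddSubgroup.mem_iSup_of_mem i (S.Gd i σ hσ x hi)

/-- **(G4)** for `J1 := ⨆ JL i 1`. -/
theorem FieldSystem.G4 (S : FieldSystem (J := J) p I cyc Kpush ι) (x : J)
    (hx : x ∈ ⨆ i, S.JL i 1) (hp : p • x = 0) (hK : x ∈ Kpush) (σ : Γ) (hσ : σ ∈ I) (c : ℕ)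
    (hc : cyc σ c) : σ • x = c • x := by
  obtain ⟨i, hi⟩ := (AddSubgroup.mem_iSup_of_directed S.directed_J1).mp hx
  exact (S.contract i).smul_eq hi hp hK σ hσ c hc

end Fermat.Agent.ORD.Geo.Abstract40
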