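/-
ORD (S33), chapter G (GeoData), brick G3b-2, part 1 -- helper14.

**Restriction of places and conorm of divisors along `K ≤ K'`** (two number fields in `ℚ̄`), for the
function fields `K·F_M ⊆ K'·F_M` (`ConstUnram1.bcLe`), compatible with helper25's base change to
`ℚ̄` (`RatClass25.extDiv`, `bcPic0`), and the **abstract monotonicity of the image of the filtration
`Cart n` in `J₀(M)(ℚ̄)`**:

* `resLe M h : Place K' (K'·F_M) → Place K (K·F_M)` with `resLe (resPlace K' P) = resPlace K P`;
* `placeRes M h : BaseChange13.PlaceRes (bcLe M h) (resLe M h)` (constant field extensions are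
  unramified);
* `extLe M h D` : the conorm divisor, `(extLe D) P' = D (resLe P')`, with
  `extDiv K' (extLe D) = extDiv K D` and `degree (extLe D) = degree D`;
* `bcPic0_mk_extLeZero` : `bcPic0 K' [extLe D] = bcPic0 K [D]`;
* `cart_map_bcPic0_le` : for two frames related by `ChartOver`, `ι O_j ⊆ O_j'`,
  `ι π = π' ^ m * υ` (`m ≥ 1`): `(Cart n).map (bcPic0 K) ≤ (Cart' n).map (bcPic0 K')` for EVERY `n`
  (`BaseChange13.hasLevel_map` + `Defs43.cart_anti`, `n ≤ m n`).
-/
import Mathlib
import Fermat.Agent.M1.Car.RatMain25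
import Fermat.Agent.M1.Car.BaseChange13

set_option autoImplicit false
set_option linter.unusedSectionVars false
set_option linter.unusedVariables false

open AlgebraicCurve ModularCurve HahnSeries IntermediateField

namespace Fermat.Agent.ORD.Geo.ConormLe14

open Fermat.Agent.X0 Fermat.Agent.X0.FF Fermat.Agent.RED.Interface4 Fermat.Agent.RED.DESC
  Fermat.Agent.M1.Car.Fibre25 Fermat.Agent.M1.Car.RatClass25 Fermat.Agent.M1.Car.Defs43
  Fermat.Agent.M1.Car.BaseChange13 Fermat.Agent.ES.P36.ConstUnram1

noncomputable section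

/-- Shortcut to the instance found (slowly) by instance search (same as in `RatClass25`). -/
local instance (priority := 5000) algKFK14 (M : ℕ) (K : IntermediateField ℚ Qbar) :
    Algebra K (FK M K) := SubalgebraClass.toAlgebra (FK M K)

variable (M : ℕ) [NeZero M] {K K' : IntermediateField ℚ Qbar} [FiniteDimensional ℚ K]
  [FiniteDimensional ℚ K'] (h : K ≤ K')

/-! ### Restriction of places -/

/-- The place of `K·F_M` below a place of `K'·F_M` (`K ≤ K'`). -/
def resLe (_h : K ≤ K') (P' : Place K' (FK M K')) : Place K (FK M K) :=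
  resPlace M K (resPlace_surjective M K' P').choose

/-- Constant field extensions are unramified. -/
theorem ord_resLe (P' : Place K' (FK M K')) (f : FK M K) :
    P'.ord (bcLe M h f) = (resLe M h P').ord f := by
  have h1 := (resPlace_surjective M K' P').choose_spec
  rw [resLe, ← ord_resPlace M K _ f]
  conv_lhs => rw [← h1]
  rw [← ord_resPlace M K' _ (bcLe M h f)]
  exact congrArg _ (baseChangeHom_bcLe M h f)

/-- `resLe` is the restriction: it is compatible with the restrictions from `ℚ̄`. -/
theorem resLe_resPlace (P : Place Qbar (Fbar M)) :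
    resLe M h (resPlace M K' P) = resPlace M K P := by
  apply place_ext_ord
  intro f
  rw [← ord_resLe M h, ← ord_resPlace M K' P, ← ord_resPlace M K P]
  exact congrArg _ (baseChangeHom_bcLe M h f)

theorem mem_resLe_iff (P' : Place K' (FK M K')) (f : FK M K) :
    f ∈ (resLe M h P').toValuationSubring ↔ bcLe M h f ∈ P'.toValuationSubring := by
  rw [ffp_mem_iff_ord_nonneg, ffp_mem_iff_ord_nonneg, ord_resLe]

/-- **The hypothesis `PlaceRes` of `BaseChange13` for `K·F_M ⊆ K'·F_M`.** -/
theorem placeRes : PlaceRes (bcLe M h) (resLe M h) :=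
  ⟨fun P' f => mem_resLe_iff M h P' f, fun P' f _ => ord_resLe M h P' f⟩

theorem resLe_surjective : Function.Surjective (resLe M h) := by
  intro w
  obtain ⟨P, rfl⟩ := resPlace_surjective M K w
  exact ⟨resPlace M K' P, resLe_resPlace M h P⟩

/-! ### Conorm of divisors -/

open Classical in
/-- The conorm divisor: `(extLe D) P' = D (P' ∩ K·F_M)`. -/
def extLe (D : Divisor K (FK M K)) : Divisor K' (FK M K') :=
  Finsupp.onFinset ((extDiv M K D).support.image (resPlace M K'))
    (fun P' => D (resLe M h P')) (by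
      intro P' hP'
      obtain ⟨P, rfl⟩ := resPlace_surjective M K' P'
      rw [Finset.mem_image]
      refine ⟨P, ?_, rfl⟩
      rw [Finsupp.mem_support_iff, extDiv_apply, ← resLe_resPlace M h P]
      exact hP')

theorem extLe_apply (D : Divisor K (FK M K)) (P' : Place K' (FK M K')) :
    extLe M h D P' = D (resLe M h P') := rfl

/-- Transitivity of the extension of divisors. -/
theorem extDiv_extLe (D : Divisor K (FK M K)) : extDiv M K' (extLe M h D) = extDiv M K D := by
  ext P
  rw [extDiv_apply, extDiv_apply, extLe_apply, resLe_resPlace]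

theorem degree_extLe (D : Divisor K (FK M K)) :
    Divisor.degree (extLe M h D) = Divisor.degree D := by
  rw [← degree_extDiv M K' (extLe M h D), extDiv_extLe, degree_extDiv]

theorem extLe_add (D E : Divisor K (FK M K)) : extLe M h (D + E) = extLe M h D + extLe M h E := by
  ext P'
  rw [Finsupp.add_apply, extLe_apply, extLe_apply, extLe_apply, Finsupp.add_apply]

/-- The conorm of the divisor of `f` is the divisor of `bcLe f`. -/
theorem extLe_eq_ord {D : Divisor K (FK M K)} {f : FK M K}
    (hD : ∀ w : Place K (FK M K), D w = w.ord f) (P' : Place K' (FK M K')) :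
    extLe M h D P' = P'.ord (bcLe M h f) := by
  rw [extLe_apply, hD, ord_resLe]

/-- The conorm of a divisor of degree zero. -/
def extLeZero (D : Divisor.degZero (K := K) (F := FK M K)) :
    Divisor.degZero (K := K') (F := FK M K') :=
  ⟨extLe M h (D : Divisor K (FK M K)), by
    show Divisor.degree (extLe M h (D : Divisor K (FK M K))) = 0
    rw [degree_extLe]
    exact D.2⟩

@[simp] theorem coe_extLeZero (D : Divisor.degZero (K := K) (F := FK M K)) :
    (extLeZero M h D : Divisor K' (FK M K')) = extLe M h (D : Divisor K (FK M K)) := rfl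

theorem extDivZero_extLeZero (D : Divisor.degZero (K := K) (F := FK M K)) :
    extDivZero M K' (extLeZero M h D) = extDivZero M K D :=
  Subtype.ext (extDiv_extLe M h (D : Divisor K (FK M K)))

/-- **`bcPic0 K' ∘ conorm = bcPic0 K`** on representatives. -/
theorem bcPic0_mk_extLeZero (D : Divisor.degZero (K := K) (F := FK M K)) :
    bcPic0 M K' (Pic0.mk (extLeZero M h D)) = bcPic0 M K (Pic0.mk D) := by
  rw [bcPic0_mk, bcPic0_mk, extDivZero_extLeZero]

include h in
/-- Rational classes over `K` are rational over `K'`. -/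
theorem range_bcPic0_le : (bcPic0 M K).range ≤ (bcPic0 M K').range := by
  rintro _ ⟨x, rfl⟩
  obtain ⟨D, rfl⟩ := Pic0.mk_surjective x
  exact ⟨_, bcPic0_mk_extLeZero M h D⟩

/-! ### Monotonicity of the image of the filtration -/

section Cart

variable {R R' : Type*} [CommRing R] [CommRing R'] [Algebra R (FK M K)] [Algebra R' (FK M K')]
  {π : R} {π' : R'} {B0 B1 : Subalgebra R (FK M K)} {B0' B1' : Subalgebra R' (FK M K')}
  {O1 O2 : ValuationSubring (FK M K)} {O1' O2' : ValuationSubring (FK M K')}

/-- **Abstract (J-mono)**: if the frame over `K'` lies over the frame over `K`, the image in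
`J₀(M)(ℚ̄)` of the level-`n` subgroup over `K` is contained in the image of the level-`n` subgroup
over `K'`, for every `n`. -/
theorem cart_map_bcPic0_le (hB0 : ChartOver (bcLe M h) π π' B0 B0')
    (hB1 : ChartOver (bcLe M h) π π' B1 B1')
    (hO1 : ∀ x ∈ O1, bcLe M h x ∈ O1') (hO2 : ∀ x ∈ O2, bcLe M h x ∈ O2')
    {hπ1 : algebraMap R (FK M K) π ∈ O1} {hπ2 : algebraMap R (FK M K) π ∈ O2}
    {hπ1' : algebraMap R' (FK M K') π' ∈ O1'} {hπ2' : algebraMap R' (FK M K') π' ∈ O2'}
    {m : ℕ} (hm : 1 ≤ m) {υ : FK M K'} (hυ1 : υ ∈ O1') (hυ2 : υ ∈ O2')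
    (hπ : bcLe M h (algebraMap R (FK M K) π) = algebraMap R' (FK M K') π' ^ m * υ) (n : ℕ) :
    (Cart π B0 B1 O1 O2 hπ1 hπ2 n).map (bcPic0 M K) ≤
      (Cart π' B0' B1' O1' O2' hπ1' hπ2' n).map (bcPic0 M K') := by
  rintro y ⟨x, ⟨D, rfl, hD⟩, rfl⟩
  refine ⟨Pic0.mk (extLeZero M h D), ?_, bcPic0_mk_extLeZero M h D⟩
  refine cart_anti (Nat.le_mul_of_pos_left n hm) ?_
  exact ⟨extLeZero M h D, rfl,
    hasLevel_map (placeRes M h) hB0 hB1 hO1 hO2 hπ1' hπ2' hm hυ1 hυ2 hπ (fun _ => rfl) hD⟩

end Cart

end

end Fermat.Agent.ORD.Geo.ConormLe14
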