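/-
ORD (S33), chapter G (GeoData), brick G3b-2, part 2 -- helper14.

**Generic frame lemmas for the base change `K ≤ K'` of a two-chart model**: the hypotheses
`ChartOver`, `ι O_j ⊆ O_j'` of `M1/Car/BaseChange13` for charts of the form
`ChartGeneric22.chart R t` (integral closure of `R[t]`) and Gauss rings `GaussGen8.gaussRing O`.

* `map_mem_adjoin`, `map_mem_chart` : `ι (chart R t) ⊆ chart R' (ι t)`;
* `isMaximal_of_isPrime_of_rel` : a prime `𝔪 ∋ π` of a chart integral over `R[t]` with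
  `t ^ (n+1) - t ∈ 𝔪` (`n > 0`) is maximal if `(π)` is maximal in `R`;
* `chartOver_of` : `ChartOver ι π π' B B'` (closed points contract to closed points) when the
  residue fields of the closed points of `B'` are algebraic over the prime field (hypothesis `hfin`,
  the conclusion of `ResidueFin53.exists_pow_sub_mem_of_finite_base`);
* `coeffMap_mem_gaussRing` : `O ⊆ O'` along `i : K → K'` gives
  `coeffMap i (gaussRing O) ⊆ gaussRing O'`.
-/
import Mathlib
import Fermat.Agent.M1.Car.BaseChange13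
import Fermat.Agent.M1.Car.Centre99
import Fermat.Agent.RED.PUR.GaussGen8
import Fermat.Agent.RED.PUR.ChartGeneric22

set_option autoImplicit false
set_option linter.unusedSectionVars false
set_option linter.unusedVariables false

open Polynomial

namespace Fermat.Agent.ORD.Geo.FrameOver14

open Fermat.Agent.M1.Car.BaseChange13 Fermat.Agent.M1.Car Fermat.Agent.RED.PUR.ChartGeneric22
  Fermat.Agent.RED.PUR.GaussGen8

section Chart

variable {R R' F F' : Type*} [CommRing R] [CommRing R'] [Field F] [Field F'] [Algebra R F]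
  [Algebra R' F'] (ι : F →+* F') (j : R →+* R')
  (hj : ∀ r : R, ι (algebraMap R F r) = algebraMap R' F' (j r))

include hj in
/-- `ι (R[t]) ⊆ R'[ι t]`. -/
theorem map_mem_adjoin {t : F} {t' : F'} (ht : ι t = t') :
    ∀ s ∈ Algebra.adjoin R {t}, ι s ∈ Algebra.adjoin R' {t'} := by
  intro s hs
  induction hs using Algebra.adjoin_induction with
  | mem x hx =>
    rw [Set.mem_singleton_iff] at hx
    rw [hx, ht]
    exact Algebra.subset_adjoin (Set.mem_singleton t')
  | algebraMap r =>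
    rw [hj]
    exact Subalgebra.algebraMap_mem _ _
  | add x y _ _ hx hy =>
    rw [map_add]
    exact add_mem hx hy
  | mul x y _ _ hx hy =>
    rw [map_mul]
    exact mul_mem hx hy

include hj in
/-- `ι (chart R t) ⊆ chart R' (ι t)`. -/
theorem map_mem_chart {t : F} {t' : F'} (ht : ι t = t') :
    ∀ b ∈ chart R t, ι b ∈ chart R' t' := by
  intro b hb
  rw [mem_chart_iff] at hb ⊢
  let ψS : Algebra.adjoin R {t} →+* Algebra.adjoin R' {t'} :=
    (ι.comp (algebraMap (Algebra.adjoin R {t}) F)).codRestrict (Algebra.adjoin R' {t'})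
      (fun s => map_mem_adjoin ι j hj ht s s.2)
  exact Centre99.isIntegral_of_monic_eval₂ (algebraMap (Algebra.adjoin R {t}) F) ι ψS
    (RingHom.ext fun s => rfl) hb

/-- A prime ideal `𝔪 ∋ π` of a chart `B ∋ t` integral over `R[t]` such that `t ^ (n+1) - t ∈ 𝔪`
for some `n > 0` is maximal, if `(π)` is a maximal ideal of `R`. -/
theorem isMaximal_of_isPrime_of_rel {π : R} {B : Subalgebra R F} {t : F} (htB : t ∈ B)
    (hint : ∀ x ∈ B, IsIntegral (Algebra.adjoin R {t}) x)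
    (hπmax : (Ideal.span {π} : Ideal R).IsMaximal)
    (𝔪 : Ideal B) [h𝔪 : 𝔪.IsPrime] (hπ𝔪 : algebraMap R B π ∈ 𝔪)
    {n : ℕ} (hn : 0 < n) (hrel : (⟨t, htB⟩ : B) ^ (n + 1) - ⟨t, htB⟩ ∈ 𝔪) : 𝔪.IsMaximal := by
  classical
  let ψ : B →ₐ[R] B ⧸ 𝔪 := Ideal.Quotient.mkₐ R 𝔪
  have hψ : ∀ b : B, ψ b = 0 ↔ b ∈ 𝔪 := fun b => Ideal.Quotient.eq_zero_iff_mem
  set T : B := ⟨t, htB⟩ with hTdef
  have hSB : Algebra.adjoin R {t} ≤ B := Algebra.adjoin_le (Set.singleton_subset_iff.mpr htB)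
  -- `t̄` is integral over `R`
  have hT : IsIntegral R (ψ T) := by
    have h1n : (1 : WithBot ℕ) < ((n + 1 : ℕ) : WithBot ℕ) := by
      exact_mod_cast (Nat.succ_lt_succ hn)
    refine ⟨X ^ (n + 1) - X, monic_X_pow_sub (degree_X_le.trans_lt h1n), ?_⟩
    rw [eval₂_sub, eval₂_pow, eval₂_X, ← map_pow, ← map_sub]
    exact (hψ _).mpr hrel
  -- the image of `R[t]` is integral over `R`
  have hC : ∀ s ∈ Algebra.adjoin R {t}, ∃ hs : s ∈ B, IsIntegral R (ψ ⟨s, hs⟩) := by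
    intro s hs
    induction hs using Algebra.adjoin_induction with
    | mem x hx =>
      rw [Set.mem_singleton_iff] at hx
      subst hx
      exact ⟨htB, hT⟩
    | algebraMap r =>
      refine ⟨B.algebraMap_mem r, ?_⟩
      have : ψ ⟨algebraMap R F r, B.algebraMap_mem r⟩ = algebraMap R (B ⧸ 𝔪) r :=
        ψ.commutes r
      rw [this]
      exact isIntegral_algebraMap
    | add x y _ _ hx hy =>
      obtain ⟨hx1, hx2⟩ := hx
      obtain ⟨hy1, hy2⟩ := hy
      refine ⟨B.add_mem hx1 hy1, ?_⟩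
      have : ψ ⟨x + y, B.add_mem hx1 hy1⟩ = ψ ⟨x, hx1⟩ + ψ ⟨y, hy1⟩ := by
        rw [← map_add]; rfl
      rw [this]
      exact hx2.add hy2
    | mul x y _ _ hx hy =>
      obtain ⟨hx1, hx2⟩ := hx
      obtain ⟨hy1, hy2⟩ := hy
      refine ⟨B.mul_mem hx1 hy1, ?_⟩
      have : ψ ⟨x * y, B.mul_mem hx1 hy1⟩ = ψ ⟨x, hx1⟩ * ψ ⟨y, hy1⟩ := by
        rw [← map_mul]; rfl
      rw [this]
      exact hx2.mul hy2
  -- `B ⧸ 𝔪` is integral over `R`
  let ψS : Algebra.adjoin R {t} →+* integralClosure R (B ⧸ 𝔪) :=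
    (ψ.toRingHom.comp (Subalgebra.inclusion hSB).toRingHom).codRestrict
      (integralClosure R (B ⧸ 𝔪)) (fun s => (hC s s.2).2)
  have hintD : Algebra.IsIntegral R (B ⧸ 𝔪) := by
    refine ⟨fun d => ?_⟩
    obtain ⟨b, rfl⟩ := Ideal.Quotient.mk_surjective d
    have h1 : IsIntegral (integralClosure R (B ⧸ 𝔪)) (ψ.toRingHom b) :=
      Centre99.isIntegral_of_monic_eval₂ (Subalgebra.inclusion hSB).toRingHom ψ.toRingHom ψS
        (RingHom.ext fun s => rfl) (Centre99.exists_monic_of_isIntegral hSB b.2 (hint b b.2))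
    exact isIntegral_trans (R := R) (A := integralClosure R (B ⧸ 𝔪)) _ h1
  -- the kernel of `R → B ⧸ 𝔪` is `(π)`
  have hker : (Ideal.span {π} : Ideal R) = (⊥ : Ideal (B ⧸ 𝔪)).comap (algebraMap R (B ⧸ 𝔪)) := by
    refine hπmax.eq_of_le ?_ ?_
    · intro htop
      have h1 : (1 : R) ∈ (⊥ : Ideal (B ⧸ 𝔪)).comap (algebraMap R (B ⧸ 𝔪)) := by
        rw [htop]; exact Submodule.mem_top
      rw [Ideal.mem_comap, map_one, Ideal.mem_bot] at h1
      exact one_ne_zero h1
    · rw [Ideal.span_le, Set.singleton_subset_iff]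
      show algebraMap R (B ⧸ 𝔪) π ∈ (⊥ : Ideal (B ⧸ 𝔪))
      rw [Ideal.mem_bot]
      have : algebraMap R (B ⧸ 𝔪) π = ψ (algebraMap R B π) := (ψ.commutes π).symm
      rw [this]
      exact (hψ _).mpr hπ𝔪
  have hbot : (⊥ : Ideal (B ⧸ 𝔪)).IsMaximal := by
    haveI : ((⊥ : Ideal (B ⧸ 𝔪)).comap (algebraMap R (B ⧸ 𝔪))).IsMaximal := hker ▸ hπmax
    exact Ideal.isMaximal_of_isIntegral_of_isMaximal_comap (R := R) (⊥ : Ideal (B ⧸ 𝔪)) this
  have h𝔪eq : 𝔪 = (⊥ : Ideal (B ⧸ 𝔪)).comap (Ideal.Quotient.mk 𝔪) := by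
    rw [← RingHom.ker_eq_comap_bot, Ideal.mk_ker]
  rw [h𝔪eq]
  exact Ideal.comap_isMaximal_of_surjective _ Ideal.Quotient.mk_surjective

include hj in
/-- **`ChartOver` for charts integral over `R[t]`, `R'[ι t]`**, when the residue fields of the
closed points of `B'` are algebraic over the prime field (`hfin`). -/
theorem chartOver_of {π : R} {π' : R'} {B : Subalgebra R F} {B' : Subalgebra R' F'} {t : F}
    {t' : F'} (ht : ι t = t') (htB : t ∈ B)
    (hint : ∀ x ∈ B, IsIntegral (Algebra.adjoin R {t}) x) (hBB : ∀ b ∈ B, ι b ∈ B')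
    (hπmax : (Ideal.span {π} : Ideal R).IsMaximal)
    {m : ℕ} (hm : 1 ≤ m) {u : R'} (hπ : j π = π' ^ m * u)
    (hfin : ∀ 𝔪' : Ideal B', 𝔪'.IsMaximal → algebraMap R' B' π' ∈ 𝔪' →
      ∃ n : ℕ, 0 < n ∧ ∃ b ∈ 𝔪', (b : F') = t' ^ (n + 1) - t') :
    ChartOver ι π π' B B' := by
  refine ⟨hBB, fun 𝔪' h𝔪' hπ𝔪' => ?_⟩
  let φ : B →+* B' := (ι.comp B.val.toRingHom).codRestrict B' (fun b => hBB b b.2)
  have hφ : ∀ b : B, ((φ b : B') : F') = ι (b : F) := fun b => rfl
  haveI : 𝔪'.IsPrime := h𝔪'.isPrime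
  have hmem : ∀ b : B, b ∈ 𝔪'.comap φ ↔
      ∀ hb : ι (b : F) ∈ B', (⟨ι (b : F), hb⟩ : B') ∈ 𝔪' := by
    intro b
    constructor
    · intro hb _
      exact hb
    · intro hb
      exact hb (hBB b b.2)
  have hπ𝔪 : algebraMap R B π ∈ 𝔪'.comap φ := by
    rw [Ideal.mem_comap]
    have h1 : φ (algebraMap R B π) = algebraMap R' B' π' ^ m * algebraMap R' B' u := by
      apply Subtype.ext
      rw [hφ]
      show ι (algebraMap R F π) = _
      rw [hj, hπ, map_mul, map_pow]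
      rfl
    rw [h1]
    obtain ⟨k, rfl⟩ : ∃ k, m = k + 1 := ⟨m - 1, by omega⟩
    rw [pow_succ]
    exact 𝔪'.mul_mem_right _ (𝔪'.mul_mem_left _ hπ𝔪')
  obtain ⟨n, hn, b', hb', hb't⟩ := hfin 𝔪' h𝔪' hπ𝔪'
  have hrel : (⟨t, htB⟩ : B) ^ (n + 1) - ⟨t, htB⟩ ∈ 𝔪'.comap φ := by
    rw [Ideal.mem_comap]
    have h1 : φ ((⟨t, htB⟩ : B) ^ (n + 1) - ⟨t, htB⟩) = b' := by
      apply Subtype.ext
      rw [hφ, hb't]
      show ι (t ^ (n + 1) - t) = _
      rw [map_sub, map_pow, ht]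
    rw [h1]
    exact hb'
  exact ⟨𝔪'.comap φ, isMaximal_of_isPrime_of_rel htB hint hπmax _ hπ𝔪 hn hrel, hπ𝔪, hmem⟩

end Chart

section Gauss

open HahnSeries ModularCurve

variable {K K' : Type*} [Field K] [Field K'] (i : K →+* K') {O : ValuationSubring K}
  {O' : ValuationSubring K'} (hO : ∀ x ∈ O, i x ∈ O')

/-- the restriction `O → O'` of `i`. -/
def resHom : ↥O →+* ↥O' := (i.comp O.subtype).codRestrict O' (fun x => hO x x.2)

@[simp] theorem coe_resHom (x : ↥O) : ((resHom i hO x : ↥O') : K') = i (x : K) := rfl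

theorem coeffMap_embK (a : LaurentSeries ↥O) :
    coeffMap i (embK O a) = embK O' (coeffMap (resHom i hO) a) := by
  rw [embK, embK, coeffMap_coeffMap, coeffMap_coeffMap]
  exact coeffMap_congr (RingHom.ext fun x => rfl) a

theorem redL_coeffMap_ne_zero {s : LaurentSeries ↥O} (hs : redL O s ≠ 0) :
    redL O' (coeffMap (resHom i hO) s) ≠ 0 := by
  obtain ⟨k, hk⟩ : ∃ k, (redL O s).coeff k ≠ 0 := by
    by_contra hcon
    push Not at hcon
    exact hs (HahnSeries.ext (funext hcon))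
  rw [redL_coeff] at hk
  have hu : IsUnit (s.coeff k) := by
    by_contra hnu
    exact hk ((IsLocalRing.residue_eq_zero_iff _).mpr ((IsLocalRing.mem_maximalIdeal _).mpr hnu))
  have hu' : IsUnit (resHom i hO (s.coeff k)) := hu.map _
  intro h0
  have h1 := congrArg (fun x => HahnSeries.coeff x k) h0
  simp only [redL_coeff, coeffMap_coeff, HahnSeries.coeff_zero] at h1
  exact (IsLocalRing.mem_maximalIdeal _).mp ((IsLocalRing.residue_eq_zero_iff _).mp h1) hu'

include hO in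
/-- **`O ⊆ O'` gives `gaussRing O ⊆ gaussRing O'`** (coefficientwise along `i`). -/
theorem coeffMap_mem_gaussRing {f : LaurentSeries K} (hf : f ∈ gaussRing O) :
    coeffMap i f ∈ gaussRing O' := by
  obtain ⟨a, s, hs, hfs⟩ := hf
  refine ⟨coeffMap (resHom i hO) a, coeffMap (resHom i hO) s, redL_coeffMap_ne_zero i hO hs, ?_⟩
  rw [← coeffMap_embK, ← coeffMap_embK, ← map_mul, hfs]

end Gauss

end Fermat.Agent.ORD.Geo.FrameOver14
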