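/-
ORD (S33), chapter G (GeoData), brick G3b-2, part 3 -- helper14.

**(J0_mono) / (J1_mono) for the model of record `ES/N34/ModelDefs9`**: for two number fields
`K ≤ K'` in `ℚ̄`, a valuation ring `A` of `ℚ̄` over the prime `q`, uniformisers `ϖ` of `A ∩ K`,
`ϖ'` of `A ∩ K'`, and the frames `(B0, B1, O1, O2)` of `ModelDefs9` over `K` and over `K'`
(bad level `N' = M' q`):

  `cart_map_bcPic0_mono` :
    `(Cart ϖ B0 B1 O1 O2 _ _ k).map (bcPic0 N' K) ≤ (Cart ϖ' B0' B1' O1' O2' _ _ k).map (bcPic0 N' K')`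

for EVERY `k` — no hypothesis on the ramification of `K'/K`, no normality, no model hypothesis.
(`k = 0`, `k = 1` are the fields `J0_mono`, `J1_mono` of `ORD/Geo/Abstract40.FieldSystem`.)

Proof: `ConormLe14.cart_map_bcPic0_le` (abstract, via `BaseChange13.hasLevel_map`), with
`ChartOver` from `FrameOver14.chartOver_of` (the residue fields of the closed points are algebraic
over `𝔽_q`: `ResidueFin53.exists_pow_sub_mem_of_finite_base` + finiteness of the residue field of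
`A ∩ K'`), `ι O_j ⊆ O_j'` from `FrameOver14.coeffMap_mem_gaussRing` and the rationality of the
Fricke involution, and `ϖ = ϖ' · υ` with `υ ∈ A ∩ K'` (`m = 1` suffices for the statement).
-/
import Mathlib
import Fermat.Agent.ORD.Geo.ConormLe14
import Fermat.Agent.ORD.Geo.FrameOver14
import Fermat.Agent.ES.N34.ModelDefs9
import Fermat.Agent.M1.Car.ResidueFin53
import Fermat.Agent.RED.DESC.NumberFieldDVR27

set_option autoImplicit false
set_option linter.unusedSectionVars false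
set_option linter.unusedVariables false

open AlgebraicCurve ModularCurve HahnSeries IntermediateField

namespace Fermat.Agent.ORD.Geo.CartMono14

open Fermat.Agent.RED.Interface4 Fermat.Agent.RED.DESC Fermat.Agent.RED.DESC.NumberFieldDVR27
  Fermat.Agent.M1.Car.RatClass25 Fermat.Agent.M1.Car.Defs43 Fermat.Agent.M1.Car.BaseChange13
  Fermat.Agent.ES.P36.ConstUnram1 Fermat.Agent.ES.N34.ModelDefs9 Fermat.Agent.ES.N34.FrickeFK8
  Fermat.Agent.RED.PUR.GaussGen8 Fermat.Agent.RED.PUR.ChartGeneric22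
  Fermat.Agent.RED.BASE.EtaQuot12 Fermat.Agent.ORD.Geo.ConormLe14 Fermat.Agent.ORD.Geo.FrameOver14

noncomputable section

/-- Shortcut to the instance found (slowly) by instance search (same as in `RatClass25`). -/
local instance (priority := 5000) algKFK14' (M : ℕ) (K : IntermediateField ℚ Qbar) :
    Algebra K (FK M K) := SubalgebraClass.toAlgebra (FK M K)

variable {A : ValuationSubring Qbar} {K K' : IntermediateField ℚ Qbar} (h : K ≤ K')

/-! ### The base rings -/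

theorem incl_mem_AK (x : K) (hx : x ∈ AK A K) : CoeffDescent1.inclRingHom h x ∈ AK A K' := hx

/-- the inclusion `A ∩ K → A ∩ K'`. -/
def jAK : ↥(AK A K) →+* ↥(AK A K') :=
  resHom (CoeffDescent1.inclRingHom h) (incl_mem_AK (A := A) h)

@[simp] theorem coe_jAK (r : ↥(AK A K)) :
    (((jAK h r : ↥(AK A K')) : K') : Qbar) = ((r : K) : Qbar) := rfl

/-- the inclusion `A ∩ K → A ∩ K'` is local. -/
theorem not_isUnit_jAK {ϖ : ↥(AK A K)} (hϖ : ¬ IsUnit ϖ) : ¬ IsUnit (jAK h ϖ) := by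
  intro hu
  apply hϖ
  obtain ⟨v, hv⟩ := hu.exists_right_inv
  have h1 : ((ϖ : K) : Qbar) * ((v : K') : Qbar) = 1 := by
    have := congrArg (fun x : ↥(AK A K') => ((x : K') : Qbar)) hv
    simpa using this
  have hϖ0 : (ϖ : K) ≠ 0 := by
    intro h0
    rw [h0] at h1
    simp at h1
  have hmem : ((ϖ : K))⁻¹ ∈ AK A K := by
    show algebraMap K Qbar ((ϖ : K))⁻¹ ∈ A
    rw [map_inv₀]
    have h2 : (algebraMap K Qbar (ϖ : K))⁻¹ = ((v : K') : Qbar) :=
      inv_eq_of_mul_eq_one_right h1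
    rw [h2]
    exact v.2
  exact IsUnit.of_mul_eq_one (⟨((ϖ : K))⁻¹, hmem⟩ : ↥(AK A K))
    (Subtype.ext (mul_inv_cancel₀ hϖ0))

/-- `ϖ = ϖ' · u` in `A ∩ K'`. -/
theorem exists_jAK_eq_mul {ϖ : ↥(AK A K)} {ϖ' : ↥(AK A K')} (hϖ : IsUnif (AK A K) ϖ)
    (hϖ' : IsUnif (AK A K') ϖ') : ∃ u : ↥(AK A K'), jAK h ϖ = ϖ' ^ 1 * u := by
  have h1 : ¬ IsUnit ϖ := by
    have : ϖ ∈ IsLocalRing.maximalIdeal ↥(AK A K) := by
      rw [hϖ.max_eq]; exact Ideal.mem_span_singleton_self ϖ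
    exact (IsLocalRing.mem_maximalIdeal _).mp this
  have h2 : jAK h ϖ ∈ IsLocalRing.maximalIdeal ↥(AK A K') :=
    (IsLocalRing.mem_maximalIdeal _).mpr (not_isUnit_jAK h h1)
  rw [hϖ'.max_eq, Ideal.mem_span_singleton'] at h2
  obtain ⟨u, hu⟩ := h2
  exact ⟨u, by rw [pow_one, mul_comm]; exact hu.symm⟩

theorem span_isMaximal {ϖ : ↥(AK A K)} (hϖ : IsUnif (AK A K) ϖ) :
    (Ideal.span {ϖ} : Ideal ↥(AK A K)).IsMaximal := by
  rw [← hϖ.max_eq]
  exact IsLocalRing.maximalIdeal.isMaximal _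

/-! ### The function fields -/

variable (N : ℕ)

/-- `bcLe` is compatible with the constants `A ∩ K → A ∩ K'`. -/
theorem bcLe_algebraMap_AK (r : ↥(AK A K)) :
    bcLe N h (algebraMap ↥(AK A K) ↥(FK N K) r) =
      algebraMap ↥(AK A K') ↥(FK N K') (jAK h r) :=
  bcLe_algebraMap N h (r : K)

/-- The Fricke involution is rational: it commutes with the base change `K ≤ K'`. -/
theorem bcLe_frickeFK [NeZero N] (x : FK N K) :
    bcLe N h (frickeFK N K x) = frickeFK N K' (bcLe N h x) := by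
  apply PlaceExtend27.baseChangeHom_injective N K'
  rw [baseChangeHom_bcLe, baseChangeHom_frickeFK, baseChangeHom_frickeFK, baseChangeHom_bcLe]

variable (M' q : ℕ) [NeZero M'] [NeZero q]

theorem bcLe_tN {n e : ℕ} [NeZero n] (ht : tq (↥K) n e ∈ FK M' K)
    (ht' : tq (↥K') n e ∈ FK M' K') :
    bcLe (M' * q) h (tN q ht) = tN q ht' := by
  apply Subtype.ext
  rw [coe_bcLe, coe_tN, coe_tN, coeffMap_tq]

theorem bcLe_mem_O1 {ϖ : ↥(AK A K)} {ϖ' : ↥(AK A K')} (hϖ : IsUnif (AK A K) ϖ)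
    (hϖ' : IsUnif (AK A K') ϖ') (hE : FK (M' * q) K ≤ fracField (AK A K))
    (hE' : FK (M' * q) K' ≤ fracField (AK A K')) :
    ∀ x ∈ O1 M' q hϖ hE, bcLe (M' * q) h x ∈ O1 M' q hϖ' hE' := by
  intro x hx
  rw [mem_O1_iff] at hx ⊢
  rw [coe_bcLe]
  exact coeffMap_mem_gaussRing (CoeffDescent1.inclRingHom h) (incl_mem_AK (A := A) h) hx

theorem bcLe_mem_O2 {ϖ : ↥(AK A K)} {ϖ' : ↥(AK A K')} (hϖ : IsUnif (AK A K) ϖ)
    (hϖ' : IsUnif (AK A K') ϖ') (hE : FK (M' * q) K ≤ fracField (AK A K))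
    (hE' : FK (M' * q) K' ≤ fracField (AK A K')) :
    ∀ x ∈ O2 M' q hϖ hE, bcLe (M' * q) h x ∈ O2 M' q hϖ' hE' := by
  intro x hx
  rw [mem_O2_iff_wN_mem_O1] at hx ⊢
  have h1 := bcLe_mem_O1 h M' q hϖ hϖ' hE hE' _ hx
  have h2 : bcLe (M' * q) h (wN K M' q x) = wN K' M' q (bcLe (M' * q) h x) :=
    bcLe_frickeFK h (M' * q) x
  rwa [h2] at h1

/-- the constants of `A ∩ K` lie in the Gauss ring `O1`. -/
theorem algebraMap_mem_O1 {ϖ : ↥(AK A K)} (hϖ : IsUnif (AK A K) ϖ)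
    (hE : FK (M' * q) K ≤ fracField (AK A K)) (r : ↥(AK A K)) :
    algebraMap ↥(AK A K) ↥(FK (M' * q) K) r ∈ O1 M' q hϖ hE := by
  rw [mem_O1_iff]
  have h1 : ((algebraMap ↥(AK A K) ↥(FK (M' * q) K) r : FK (M' * q) K) : LaurentSeries K) =
      embK (AK A K) (HahnSeries.C r) := by
    rw [embK_C]
    show algebraMap K (LaurentSeries K) (r : K) = HahnSeries.C (r : K)
    rw [HahnSeries.C_apply]
    exact algebraMap_laurentSeries_eq_single K (r : K)
  rw [h1]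
  exact embK_mem (AK A K) _

/-- the constants of `A ∩ K` lie in the Gauss ring `O2`. -/
theorem algebraMap_mem_O2 {ϖ : ↥(AK A K)} (hϖ : IsUnif (AK A K) ϖ)
    (hE : FK (M' * q) K ≤ fracField (AK A K)) (r : ↥(AK A K)) :
    algebraMap ↥(AK A K) ↥(FK (M' * q) K) r ∈ O2 M' q hϖ hE := by
  rw [mem_O2_iff_wN_mem_O1]
  have h1 : wN K M' q (algebraMap ↥(AK A K) ↥(FK (M' * q) K) r) =
      algebraMap ↥(AK A K) ↥(FK (M' * q) K) r := (wN K M' q).commutes (r : K)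
  rw [h1]
  exact algebraMap_mem_O1 M' q hϖ hE r

/-! ### The main theorem -/

variable [FiniteDimensional ℚ K] [FiniteDimensional ℚ K']

/-- `ChartOver` for the charts `chart (A ∩ K) s`, `chart (A ∩ K') s'` with `bcLe s = s'`. -/
theorem chartOver_chart (hq : q.Prime) (hA : A.LiesOverPrime q) {ϖ : ↥(AK A K)}
    {ϖ' : ↥(AK A K')} (hϖ : IsUnif (AK A K) ϖ) (hϖ' : IsUnif (AK A K') ϖ')
    {s : FK N K} {s' : FK N K'} (hs : bcLe N h s = s') :
    ChartOver (bcLe N h) ϖ ϖ' (chart ↥(AK A K) s) (chart ↥(AK A K') s') := by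
  obtain ⟨u, hu⟩ := exists_jAK_eq_mul h hϖ hϖ'
  have hmax' := span_isMaximal hϖ'
  haveI hfin : Finite (↥(AK A K') ⧸ (Ideal.span {ϖ'} : Ideal ↥(AK A K'))) := by
    have h1 : Finite (IsLocalRing.ResidueField ↥(AK A K')) :=
      finite_residueField_AK A K' hq.ne_zero hA
    rw [← hϖ'.max_eq]
    exact h1
  exact chartOver_of (bcLe N h) (jAK h) (bcLe_algebraMap_AK h N) hs (self_mem_chart s)
    (fun x hx => hx) (map_mem_chart (bcLe N h) (jAK h) (bcLe_algebraMap_AK h N) hs)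
    (span_isMaximal hϖ) le_rfl hu
    (fun 𝔪' h𝔪' hπ𝔪' => Fermat.Agent.M1.Car.ResidueFin53.exists_pow_sub_mem_of_finite_base
      (self_mem_chart s') (fun x hx => hx) hmax' 𝔪' h𝔪' hπ𝔪')

include h in
/-- **(J-mono) for the model of record**: the image in `J₀(M' q)(ℚ̄)` of the level-`k` subgroup of
the model over `K` is contained in the image of the level-`k` subgroup of the model over `K'`, for
every `k` and every `K ≤ K'`. -/
theorem cart_map_bcPic0_mono (hq : q.Prime) (hA : A.LiesOverPrime q) {n e : ℕ} [NeZero n]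
    (ht : tq (↥K) n e ∈ FK M' K) (ht' : tq (↥K') n e ∈ FK M' K')
    {ϖ : ↥(AK A K)} {ϖ' : ↥(AK A K')} (hϖ : IsUnif (AK A K) ϖ) (hϖ' : IsUnif (AK A K') ϖ')
    (hE : FK (M' * q) K ≤ fracField (AK A K)) (hE' : FK (M' * q) K' ≤ fracField (AK A K'))
    {h1 : algebraMap ↥(AK A K) ↥(FK (M' * q) K) ϖ ∈ O1 M' q hϖ hE}
    {h2 : algebraMap ↥(AK A K) ↥(FK (M' * q) K) ϖ ∈ O2 M' q hϖ hE}
    {h1' : algebraMap ↥(AK A K') ↥(FK (M' * q) K') ϖ' ∈ O1 M' q hϖ' hE'}
    {h2' : algebraMap ↥(AK A K') ↥(FK (M' * q) K') ϖ' ∈ O2 M' q hϖ' hE'}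
    (k : ℕ) :
    (Cart ϖ (B0 A q ht) (B1 A q ht) (O1 M' q hϖ hE) (O2 M' q hϖ hE) h1 h2 k).map
        (bcPic0 (M' * q) K) ≤
      (Cart ϖ' (B0 A q ht') (B1 A q ht') (O1 M' q hϖ' hE') (O2 M' q hϖ' hE') h1' h2' k).map
        (bcPic0 (M' * q) K') := by
  obtain ⟨u, hu⟩ := exists_jAK_eq_mul h hϖ hϖ'
  have htt := bcLe_tN h M' q ht ht'
  have htt' : bcLe (M' * q) h (tN q ht)⁻¹ = (tN q ht')⁻¹ := by rw [map_inv₀, htt]
  refine cart_map_bcPic0_le (M' * q) h
    (chartOver_chart h (M' * q) q hq hA hϖ hϖ' htt)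
    (chartOver_chart h (M' * q) q hq hA hϖ hϖ' htt')
    (bcLe_mem_O1 h M' q hϖ hϖ' hE hE') (bcLe_mem_O2 h M' q hϖ hϖ' hE hE')
    le_rfl (algebraMap_mem_O1 M' q hϖ' hE' u) (algebraMap_mem_O2 M' q hϖ' hE' u) ?_ k
  rw [bcLe_algebraMap_AK, hu, map_mul, map_pow]

end

end Fermat.Agent.ORD.Geo.CartMono14
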