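/-
ORD (S33), chapter G (GeoData), brick **G2 = Geo/Climb** — helper15.

The fields `T5` (climbing below the threshold) and `T7` (no `p`-torsion above the threshold) of
`Abstract40.DepthContract` for the depth filtration

  `JL n := (Cart π B0 B1 O1 O2 _ _ n).map bc`

of a nodal two-chart model (`ES/N34/NumData13.NodalNumData`) over ONE field, transported to an
ambient group `J` by an injective homomorphism `bc : Pic0 K F →+ J` (in the application
`bc = RatClass25.bcPic0`, injective by `RatMain25.bcPic0_injective`), for an ARBITRARY ramification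
index `e = d (p - 1)` and an arbitrary prime `p` (`p = 3` allowed).

* `climb_T7` : `∀ x ∈ JL (d + 1), p • x = 0 → x = 0`;
* `climb_T5` : `∀ n, 1 ≤ n → n < d → ∀ x ∈ JL n, p • x = 0 → x ∈ Kpush → x ∈ JL (n + 1)`, given that
  the leading coefficients of the `p`-torsion classes of `JL n ∩ Kpush` are toric (`htor`: the
  deliverable of NRM, `NRM/HtorPush88.exists_lead_isToric`);
* `depthContract_of_numData` : the whole `DepthContract`, given in addition `T1` (inertia on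
  `gr^d`, chapter G1 `ORD/Geo/InertiaCart20`).

Everything is a restatement of `M1/Car/TorsInst15` (class-level (T5)/(T7) of `Car/TorsClass43` for
the model).
-/
import Mathlib
import Fermat.Agent.M1.Car.TorsInst15
import Fermat.Agent.ORD.Geo.Abstract40

set_option autoImplicit false

namespace Fermat.Agent.ORD.Geo.Climb15

open AlgebraicCurve Fermat.Agent.ES.N34.NodalCore13 Fermat.Agent.ES.N34.NumData13
  Fermat.Agent.M1.Car.Defs43 Fermat.Agent.M1.Car.TorsClass43 Fermat.Agent.M1.Car.TorsInst15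
  Fermat.Agent.M1.Fib.Branch98 Fermat.Agent.M1.Fib.Constants98 Fermat.Agent.M1.Fib.H0k98
  Fermat.Agent.M1.Fib.Seminormal98 Fermat.Agent.M1.Pic2.Defs60
  Fermat.Agent.ORD.Geo.Abstract40

variable {R K F : Type*} [CommRing R] [Field K] [Field F] [Algebra R K] [Algebra K F]
  [Algebra R F] [IsScalarTower R K F]
variable {π : R} {t : F} {B0 B1 : Subalgebra R F} {O1 O2 : ValuationSubring F}
variable {J : Type*} [AddCommGroup J]

/-- `d + 1 > e / (p - 1)` for `e = d (p - 1)`. -/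
theorem succ_add_lt {p e d : ℕ} (hp : 2 ≤ p) (he : e = d * (p - 1)) :
    d + 1 + e < p * (d + 1) := by
  obtain ⟨q, rfl⟩ : ∃ q, p = q + 2 := ⟨p - 2, by omega⟩
  rw [show q + 2 - 1 = q + 1 by omega] at he
  subst he
  nlinarith

/-- `n < d = e / (p - 1)` gives the Frobenius regime. -/
theorem mul_lt_add {p e d n : ℕ} (hp : 2 ≤ p) (he : e = d * (p - 1)) (hnd : n < d) :
    p * n < n + e := by
  obtain ⟨q, rfl⟩ : ∃ q, p = q + 2 := ⟨p - 2, by omega⟩
  rw [show q + 2 - 1 = q + 1 by omega] at he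
  subst he
  nlinarith

/-- **`DepthContract.T7` over one field**: no `p`-torsion above the threshold `d = e / (p - 1)`. -/
theorem climb_T7 [HasPrincipalDivisors K F]
    (N : NodalNumData R K F π t B0 B1 O1 O2)
    (hac1 : ResidueAlgClosed π O1) (hac2 : ResidueAlgClosed π O2)
    (hnode : HasNode π B0 B1 O1 O2)
    {hπ1 : algebraMap R F π ∈ O1} {hπ2 : algebraMap R F π ∈ O2}
    (bc : Pic0 K F →+ J) (hbc : Function.Injective bc)
    {p e d : ℕ} (hp : p.Prime) (u : Rˣ) (hpe : (p : R) = π ^ e * u) (he : e = d * (p - 1)) :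
    ∀ x ∈ (Cart π B0 B1 O1 O2 hπ1 hπ2 (d + 1)).map bc, p • x = 0 → x = 0 := by
  intro x hx hpx
  obtain ⟨y, hy, rfl⟩ := AddSubgroup.mem_map.mp hx
  have hpy : p • y = 0 := hbc (by rw [map_nsmul, hpx, map_zero])
  rw [cart_torsion_free_of_numData N hac1 hac2 hnode hp u hpe (Nat.succ_le_succ (Nat.zero_le d))
    (succ_add_lt hp.two_le he) hy hpy, map_zero]

/-- **`DepthContract.T5` over one field**: climbing below the threshold.  `htor` is the NRM
deliverable (the push-forwards kill the abelian part of the leading coefficient). -/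
theorem climb_T5 [HasPrincipalDivisors K F]
    (N : NodalNumData R K F π t B0 B1 O1 O2)
    (hac1 : ResidueAlgClosed π O1) (hac2 : ResidueAlgClosed π O2)
    (hnode : HasNode π B0 B1 O1 O2)
    (hnodes0 : ∀ 𝔪 : Ideal B0, IsNode π B0 O1 O2 𝔪 → NodeSumAt π B0 O1 O2 𝔪)
    (hnodes1 : ∀ 𝔪 : Ideal B1, IsNode π B1 O1 O2 𝔪 → NodeSumAt π B1 O1 O2 𝔪)
    {hπ1 : algebraMap R F π ∈ O1} {hπ2 : algebraMap R F π ∈ O2}
    (bc : Pic0 K F →+ J) (hbc : Function.Injective bc) (Kpush : AddSubgroup J)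
    {p e d : ℕ} (hp : p.Prime) (u : Rˣ) (hpe : (p : R) = π ^ e * u) (he : e = d * (p - 1))
    (hperf : ∀ r : R, ∃ ρ : R, π ∣ ρ ^ p - r)
    (htor : ∀ n : ℕ, 1 ≤ n → n < d → ∀ D : Divisor.degZero (K := K) (F := F),
      HasLevel π B0 B1 O1 O2 n (D : Divisor K F) → p • Pic0.mk D = 0 →
      bc (Pic0.mk D) ∈ Kpush →
      ∃ c, HasLead (algebraMap R F π) n
          ((torsFrame_of_numData N hac1 hac2 hnode).pair (D : Divisor K F)) c ∧
        Fermat.Agent.M1.Pic2.ToricPic15.IsToric π B0 B1 O1 O2 c) :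
    ∀ n : ℕ, 1 ≤ n → n < d → ∀ x ∈ (Cart π B0 B1 O1 O2 hπ1 hπ2 n).map bc, p • x = 0 →
      x ∈ Kpush → x ∈ (Cart π B0 B1 O1 O2 hπ1 hπ2 (n + 1)).map bc := by
  intro n hn hnd x hx hpx hK
  obtain ⟨y, hy, rfl⟩ := AddSubgroup.mem_map.mp hx
  have hpy : p • y = 0 := hbc (by rw [map_nsmul, hpx, map_zero])
  obtain ⟨D, rfl, hD⟩ := hy
  exact AddSubgroup.mem_map.mpr ⟨Pic0.mk D,
    cart_succ_of_toric_of_numData N hac1 hac2 hnode hnodes0 hnodes1 hp u hpe hperf hn
      (mul_lt_add hp.two_le he hnd) D hD hpy (htor n hn hnd D hD hpy hK), rfl⟩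

/-- **The depth contract over one field** for `JL n := (Cart n).map bc`, given `T1` (chapter G1)
and the toric input `htor` (NRM). -/
theorem depthContract_of_numData [HasPrincipalDivisors K F]
    {Γ : Type*} [Group Γ] [DistribMulAction Γ J]
    (N : NodalNumData R K F π t B0 B1 O1 O2)
    (hac1 : ResidueAlgClosed π O1) (hac2 : ResidueAlgClosed π O2)
    (hnode : HasNode π B0 B1 O1 O2)
    (hnodes0 : ∀ 𝔪 : Ideal B0, IsNode π B0 O1 O2 𝔪 → NodeSumAt π B0 O1 O2 𝔪)
    (hnodes1 : ∀ 𝔪 : Ideal B1, IsNode π B1 O1 O2 𝔪 → NodeSumAt π B1 O1 O2 𝔪)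
    {hπ1 : algebraMap R F π ∈ O1} {hπ2 : algebraMap R F π ∈ O2}
    (bc : Pic0 K F →+ J) (hbc : Function.Injective bc) (Kpush : AddSubgroup J)
    (I : Set Γ) (cyc : Γ → ℕ → Prop)
    {p e d : ℕ} (hp : p.Prime) (u : Rˣ) (hpe : (p : R) = π ^ e * u) (he : e = d * (p - 1))
    (hd : 1 ≤ d) (hperf : ∀ r : R, ∃ ρ : R, π ∣ ρ ^ p - r)
    (htor : ∀ n : ℕ, 1 ≤ n → n < d → ∀ D : Divisor.degZero (K := K) (F := F),
      HasLevel π B0 B1 O1 O2 n (D : Divisor K F) → p • Pic0.mk D = 0 →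
      bc (Pic0.mk D) ∈ Kpush →
      ∃ c, HasLead (algebraMap R F π) n
          ((torsFrame_of_numData N hac1 hac2 hnode).pair (D : Divisor K F)) c ∧
        Fermat.Agent.M1.Pic2.ToricPic15.IsToric π B0 B1 O1 O2 c)
    (T1 : ∀ τ ∈ I, ∀ c : ℕ, cyc τ c → ∀ x ∈ (Cart π B0 B1 O1 O2 hπ1 hπ2 d).map bc,
      τ • x - c • x ∈ (Cart π B0 B1 O1 O2 hπ1 hπ2 (d + 1)).map bc) :
    DepthContract p d I cyc Kpush (fun n => (Cart π B0 B1 O1 O2 hπ1 hπ2 n).map bc) :=
  { one_le := hd
    anti := fun n => AddSubgroup.map_mono (cart_anti (Nat.le_succ n))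
    T5 := climb_T5 N hac1 hac2 hnode hnodes0 hnodes1 bc hbc Kpush hp u hpe he hperf htor
    T1 := T1
    T7 := climb_T7 N hac1 hac2 hnode bc hbc hp u hpe he }

end Fermat.Agent.ORD.Geo.Climb15
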