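/-
ORD (S33), chapter G, brick G2 (complement) — helper15.

The hypothesis `hperf` ("the residue field of the base is perfect") of `M1/Car/TorsInst15` and
`ORD/Geo/Climb15` from FINITENESS of the residue field `R / π` (the case of the valuation ring
`AK A K` of a number field), and the corresponding variants of `climb_T5` and
`depthContract_of_numData`.
-/
import Mathlib
import Fermat.Agent.ORD.Geo.Climb15
import Fermat.Agent.M1.Car.CentreFin99

set_option autoImplicit false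

namespace Fermat.Agent.ORD.Geo.ClimbFin15

open AlgebraicCurve Fermat.Agent.ES.N34.NodalCore13 Fermat.Agent.ES.N34.NumData13
  Fermat.Agent.M1.Car.Defs43 Fermat.Agent.M1.Car.TorsClass43 Fermat.Agent.M1.Car.TorsInst15
  Fermat.Agent.M1.Fib.Branch98 Fermat.Agent.M1.Fib.Constants98 Fermat.Agent.M1.Fib.H0k98
  Fermat.Agent.M1.Fib.Seminormal98 Fermat.Agent.M1.Pic2.Defs60
  Fermat.Agent.ORD.Geo.Abstract40 Fermat.Agent.ORD.Geo.Climb15

/-- A finite residue field of characteristic `p` is perfect: every element of `R` is a `p`-th power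
modulo `π`. -/
theorem hperf_of_finite {R : Type*} [CommRing R] {π : R}
    (hmax : (Ideal.span {π} : Ideal R).IsMaximal) [Finite (R ⧸ (Ideal.span {π} : Ideal R))]
    {p : ℕ} (hp : p.Prime) (hpπ : π ∣ (p : R)) : ∀ r : R, ∃ ρ : R, π ∣ ρ ^ p - r := by
  intro r
  let _ : Field (R ⧸ (Ideal.span {π} : Ideal R)) := Ideal.Quotient.field _
  have hp0 : ((p : ℕ) : R ⧸ (Ideal.span {π} : Ideal R)) = 0 := by
    have : (Ideal.Quotient.mk (Ideal.span {π} : Ideal R)) (p : R) = 0 :=
      Ideal.Quotient.eq_zero_iff_mem.mpr (Ideal.mem_span_singleton.mpr hpπ)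
    simpa using this
  have : Fact p.Prime := ⟨hp⟩
  have : CharP (R ⧸ (Ideal.span {π} : Ideal R)) p := by
    have h := CharP.ringChar_of_prime_eq_zero hp hp0
    exact h ▸ ringChar.charP _
  have hsurj : Function.Surjective (frobenius (R ⧸ (Ideal.span {π} : Ideal R)) p) :=
    Finite.surjective_of_injective (frobenius_inj _ p)
  obtain ⟨y, hy⟩ := hsurj (Ideal.Quotient.mk _ r)
  obtain ⟨ρ, rfl⟩ := Ideal.Quotient.mk_surjective y
  refine ⟨ρ, ?_⟩
  rw [← Ideal.mem_span_singleton, ← Ideal.Quotient.eq_zero_iff_mem, map_sub, map_pow, sub_eq_zero]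
  simpa [frobenius_def] using hy

variable {R K F : Type*} [CommRing R] [Field K] [Field F] [Algebra R K] [Algebra K F]
  [Algebra R F] [IsScalarTower R K F]
variable {π : R} {t : F} {B0 B1 : Subalgebra R F} {O1 O2 : ValuationSubring F}
variable {J : Type*} [AddCommGroup J]

/-- `hperf` for a nodal two-chart model over a base with finite residue field, from
`(p : R) = π ^ e * u` with `e ≥ 1`. -/
theorem hperf_of_numData (N : NodalNumData R K F π t B0 B1 O1 O2)
    [Finite (R ⧸ (Ideal.span {π} : Ideal R))] {p e : ℕ} (hp : p.Prime) (u : Rˣ)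
    (hpe : (p : R) = π ^ e * u) (he : 1 ≤ e) : ∀ r : R, ∃ ρ : R, π ∣ ρ ^ p - r :=
  hperf_of_finite
    (Fermat.Agent.M1.Car.CentreFin99.span_pi_isMaximal
      (Fermat.Agent.M1.Fib.PicInst98.not_isUnit_pi N) N.dvrR) hp
    (by rw [hpe]; exact Dvd.dvd.mul_right (dvd_pow_self π (by omega)) _)

/-- `Climb15.depthContract_of_numData` over a base with finite residue field (`hperf`
discharged; `d ≥ 1`, `p ≥ 2` give `e ≥ 1`). -/
theorem depthContract_of_numData_fin [HasPrincipalDivisors K F]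
    {Γ : Type*} [Group Γ] [DistribMulAction Γ J]
    (N : NodalNumData R K F π t B0 B1 O1 O2) [Finite (R ⧸ (Ideal.span {π} : Ideal R))]
    (hac1 : ResidueAlgClosed π O1) (hac2 : ResidueAlgClosed π O2)
    (hnode : HasNode π B0 B1 O1 O2)
    (hnodes0 : ∀ 𝔪 : Ideal B0, IsNode π B0 O1 O2 𝔪 → NodeSumAt π B0 O1 O2 𝔪)
    (hnodes1 : ∀ 𝔪 : Ideal B1, IsNode π B1 O1 O2 𝔪 → NodeSumAt π B1 O1 O2 𝔪)
    {hπ1 : algebraMap R F π ∈ O1} {hπ2 : algebraMap R F π ∈ O2}
    (bc : Pic0 K F →+ J) (hbc : Function.Injective bc) (Kpush : AddSubgroup J)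
    (I : Set Γ) (cyc : Γ → ℕ → Prop)
    {p e d : ℕ} (hp : p.Prime) (u : Rˣ) (hpe : (p : R) = π ^ e * u) (he : e = d * (p - 1))
    (hd : 1 ≤ d)
    (htor : ∀ n : ℕ, 1 ≤ n → n < d → ∀ D : Divisor.degZero (K := K) (F := F),
      HasLevel π B0 B1 O1 O2 n (D : Divisor K F) → p • Pic0.mk D = 0 →
      bc (Pic0.mk D) ∈ Kpush →
      ∃ c, HasLead (algebraMap R F π) n
          ((torsFrame_of_numData N hac1 hac2 hnode).pair (D : Divisor K F)) c ∧
        Fermat.Agent.M1.Pic2.ToricPic15.IsToric π B0 B1 O1 O2 c)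
    (T1 : ∀ τ ∈ I, ∀ c : ℕ, cyc τ c → ∀ x ∈ (Cart π B0 B1 O1 O2 hπ1 hπ2 d).map bc,
      τ • x - c • x ∈ (Cart π B0 B1 O1 O2 hπ1 hπ2 (d + 1)).map bc) :
    DepthContract p d I cyc Kpush (fun n => (Cart π B0 B1 O1 O2 hπ1 hπ2 n).map bc) := by
  have he1 : 1 ≤ e := by
    have h2 : 2 ≤ p := hp.two_le
    rw [he]
    exact Nat.one_le_iff_ne_zero.mpr (Nat.mul_ne_zero (by omega) (by omega))
  exact depthContract_of_numData N hac1 hac2 hnode hnodes0 hnodes1 bc hbc Kpush I cyc hp u hpe he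
    hd (hperf_of_numData N hp u hpe he1) htor T1

end Fermat.Agent.ORD.Geo.ClimbFin15
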