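/-
ORD (S33), chapter G (GeoData), brick G1 -- helper20.

The soft invariance statements of the depth filtration `Cart n` of `M1/Car/Defs43` under an
automorphism `σ` of the model coming from the inertia group, over an ARBITRARY base `R`
(think `R = A ∩ K`, `K` finite normal over `ℚ`), abstract over the frame `(π, B0, B1, O1, O2)`:

* `smul_sub_mem_cart_one`  : **(Gd)** `σ ≡ id mod π` on `O_1`, `O_2` ⟹ `(σ - 1) Cart 0 ⊆ Cart 1`
  (the case `n = 0` of `Defs43.smul_sub_mem_cart`; no hypothesis on `σ π`);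
* `smul_sub_mem_cart_zero` : **(Gc)** for ANY class `[D]` with local equations at the closed points
  of the special fibre: `σ [D] - [D] ∈ Cart 0` (the local equation `σ h / h` of `σ D - D` is a unit
  of `O_1` and of `O_2`: no Picard-Lefschetz, no torsion hypothesis);
* `smul_sub_nsmul_mem_cart_of_base` : **(T1'')** `Defs43.smul_sub_nsmul_mem_cart` with the
  congruence `ε ^ n ≡ c mod π` supplied in the base ring `R`.
-/
import Mathlib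
import Fermat.Agent.M1.Car.Defs43
import Fermat.Agent.M1.Car.Slope43

set_option autoImplicit false

namespace Fermat.Agent.ORD.Geo.InertiaCart20

open AlgebraicCurve Fermat.Agent.ES.N34.NodalCore13 Fermat.Agent.M1.Car.Defs43
  Fermat.Agent.M1.Mon.WildPL43 Fermat.Agent.M1.Car.Slope43

open scoped Pointwise

variable {R K F : Type*} [CommRing R] [Field K] [Field F] [Algebra K F] [Algebra R F]

variable {π : R} {B : Subalgebra R F} {σ : SemilinearAut K F}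

/-! ### (Gd): `(σ - 1) Cart 0 ⊆ Cart 1` -/

/-- The local computation behind (Gd): if `σ ≡ id mod π` on `O_j` then `σ h / h ≡ 1 mod π` for
every unit `h` of `O_j`. -/
theorem strictOn_one_smul_div {Oj : ValuationSubring F} {𝔪 : Ideal B}
    (hπ : algebraMap R F π ∈ Oj)
    (hram : ∀ x ∈ Oj, ∃ c ∈ Oj, σ • x - x = algebraMap R F π * c)
    {h : F} (hh : StrictOn π B Oj 𝔪 0 h) : StrictOn π B Oj 𝔪 1 (σ • h / h) := by
  rcases hh with hoff | hh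
  · exact Or.inl hoff
  have hmapO : ∀ x ∈ Oj, σ • x ∈ Oj := by
    intro x hx
    obtain ⟨c, hc, hxc⟩ := hram x hx
    have : σ • x = x + algebraMap R F π * c := by rw [← hxc]; ring
    rw [this]
    exact Oj.add_mem _ _ hx (Oj.mul_mem _ _ hπ hc)
  have hm : h ∈ Oj := StrictOn.mem hπ hh
  obtain ⟨h0, hhi, -, -, -⟩ := hh
  have hσh0 : σ • h ≠ 0 := by simpa using h0
  obtain ⟨c1, hc1, hcc1⟩ := hram h hm
  refine Or.inr ⟨div_ne_zero hσh0 h0, ?_, c1 * h⁻¹, Oj.mul_mem _ _ hc1 hhi, ?_⟩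
  · rw [inv_div, div_eq_mul_inv, ← smul_inv'']
    exact Oj.mul_mem _ _ hm (hmapO _ hhi)
  · have : σ • h / h - 1 = (σ • h - h) * h⁻¹ := by field_simp
    rw [this, hcc1]; ring

variable {O1 O2 : ValuationSubring F}

/-- Chart form of (Gd). -/
theorem chartLevel_one_smul_sub (hπ1 : algebraMap R F π ∈ O1) (hπ2 : algebraMap R F π ∈ O2)
    (hσ : PreservesChart π B σ) (hσ' : PreservesChart π B σ⁻¹)
    (hram1 : ∀ x ∈ O1, ∃ c ∈ O1, σ • x - x = algebraMap R F π * c)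
    (hram2 : ∀ x ∈ O2, ∃ c ∈ O2, σ • x - x = algebraMap R F π * c)
    {D : Divisor K F} (hD : ChartLevel π B O1 O2 0 D) :
    ChartLevel π B O1 O2 1 (σ • D - D) := fun 𝔪 h𝔪 hπ𝔪 => by
  obtain ⟨h, hh, h1, h2⟩ := hD 𝔪 h𝔪 hπ𝔪
  exact ⟨σ • h / h, (hh.smul hσ hσ' h𝔪 hπ𝔪).div hh, strictOn_one_smul_div hπ1 hram1 h1,
    strictOn_one_smul_div hπ2 hram2 h2⟩

/-- **(Gd): an automorphism of the model which is `≡ id mod π` on the two Gauss rings maps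
`Cart 0` into `Cart 1` by `σ - 1`.** -/
theorem smul_sub_mem_cart_one {B0 B1 : Subalgebra R F}
    {hπ1 : algebraMap R F π ∈ O1} {hπ2 : algebraMap R F π ∈ O2}
    (hσ0 : PreservesChart π B0 σ) (hσ0' : PreservesChart π B0 σ⁻¹)
    (hσ1 : PreservesChart π B1 σ) (hσ1' : PreservesChart π B1 σ⁻¹)
    (hram1 : ∀ x ∈ O1, ∃ c ∈ O1, σ • x - x = algebraMap R F π * c)
    (hram2 : ∀ x ∈ O2, ∃ c ∈ O2, σ • x - x = algebraMap R F π * c)
    {x : Pic0 K F} (hx : x ∈ Cart π B0 B1 O1 O2 hπ1 hπ2 0) :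
    σ • x - x ∈ Cart π B0 B1 O1 O2 hπ1 hπ2 1 := by
  obtain ⟨D, rfl, hD0, hD1⟩ := hx
  refine ⟨SemilinearAut.degZeroSMulHom σ D - D, ?_, ?_, ?_⟩
  · rw [SemilinearAut.pic0_smul_mk]; rfl
  · exact chartLevel_one_smul_sub hπ1 hπ2 hσ0 hσ0' hram1 hram2 hD0
  · exact chartLevel_one_smul_sub hπ1 hπ2 hσ1 hσ1' hram1 hram2 hD1

/-! ### (Gc): `σ [D] - [D] ∈ Cart 0` -/

/-- The local computation behind (Gc): `σ` preserves the valuation of `O_j` (`σ O_j ⊆ O_j`,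
`σ π = π ε` with `ε` a unit of `O_j`, value group generated by `π`), hence `σ h / h` is a unit of
`O_j` for every `h ≠ 0`. -/
theorem val_smul_div {Oj : ValuationSubring F}
    (hmap : ∀ x ∈ Oj, σ • x ∈ Oj)
    (hvals : ∀ z : F, z ≠ 0 → ∃ a : ℤ, Oj.valuation z = Oj.valuation (algebraMap R F π) ^ a)
    (hπ0 : algebraMap R F π ≠ 0)
    {ε : F} (hε : ε ∈ Oj) (hε' : ε⁻¹ ∈ Oj)
    (hπσ : σ • (algebraMap R F π) = algebraMap R F π * ε)
    {h : F} (h0 : h ≠ 0) : Oj.valuation (σ • h / h) = 1 := by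
  obtain ⟨a, ha⟩ := hvals h h0
  obtain ⟨u, hu1, hu2, hu0, hhu⟩ := exists_unit_of_val hπ0 h0 ha
  have hε0 : ε ≠ 0 := by
    rintro rfl
    have h1 : σ • (algebraMap R F π) = 0 := by rw [hπσ, mul_zero]
    exact hπ0 (by simpa using h1)
  have hvε : Oj.valuation ε = 1 := val_eq_one_of_unit hε0 hε hε'
  have hσu0 : σ • u ≠ 0 := by simpa using hu0
  have hvσu : Oj.valuation (σ • u) = 1 := by
    refine val_eq_one_of_unit hσu0 (hmap u hu1) ?_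
    rw [← smul_inv'']
    exact hmap _ hu2
  have hσh : σ • h = (algebraMap R F π * ε) ^ a * σ • u := by
    rw [hhu, smul_mul', ← hπσ]
    congr 1
    rw [SemilinearAut.smul_def, SemilinearAut.smul_def, map_zpow₀]
  have hvσh : Oj.valuation (σ • h) = Oj.valuation h := by
    rw [hσh, map_mul, map_zpow₀, map_mul, hvε, mul_one, hvσu, mul_one, ha]
  have hvh : Oj.valuation h ≠ 0 := (Valuation.ne_zero_iff _).mpr h0
  rw [map_div₀, hvσh, div_self hvh]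

/-- Level `0` of `σ D - D` at a closed point where `D` has a local equation. -/
theorem levelAt_zero_smul_sub
    (hσ : PreservesChart π B σ) (hσ' : PreservesChart π B σ⁻¹)
    (hmap1 : ∀ x ∈ O1, σ • x ∈ O1) (hmap2 : ∀ x ∈ O2, σ • x ∈ O2)
    (hvals1 : ∀ z : F, z ≠ 0 → ∃ a : ℤ, O1.valuation z = O1.valuation (algebraMap R F π) ^ a)
    (hvals2 : ∀ z : F, z ≠ 0 → ∃ a : ℤ, O2.valuation z = O2.valuation (algebraMap R F π) ^ a)
    (hπ0 : algebraMap R F π ≠ 0)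
    {ε : F} (hε1 : ε ∈ O1) (hε1' : ε⁻¹ ∈ O1) (hε2 : ε ∈ O2) (hε2' : ε⁻¹ ∈ O2)
    (hπσ : σ • (algebraMap R F π) = algebraMap R F π * ε)
    {𝔪 : Ideal B} (h𝔪 : 𝔪.IsMaximal) (hπ𝔪 : algebraMap R B π ∈ 𝔪)
    {D : Divisor K F} {h : F} (hh : IsLocEq B 𝔪 D h) :
    LevelAt π B O1 O2 0 (σ • D - D) 𝔪 :=
  ⟨σ • h / h, (hh.smul hσ hσ' h𝔪 hπ𝔪).div hh,
    strictOn_zero_of_val (val_smul_div hmap1 hvals1 hπ0 hε1 hε1' hπσ hh.1),
    strictOn_zero_of_val (val_smul_div hmap2 hvals2 hπ0 hε2 hε2' hπσ hh.1)⟩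

/-- **(Gc): for ANY class `[D]` having local equations (up to vertical components) at the closed
points of the special fibre, `σ [D] - [D] ∈ Cart 0`.** -/
theorem smul_sub_mem_cart_zero {B0 B1 : Subalgebra R F}
    {hπ1 : algebraMap R F π ∈ O1} {hπ2 : algebraMap R F π ∈ O2}
    (pres : ∀ B : Subalgebra R F, B = B0 ∨ B = B1 →
      PreservesChart π B σ ∧ PreservesChart π B σ⁻¹)
    (hmap1 : ∀ x ∈ O1, σ • x ∈ O1) (hmap2 : ∀ x ∈ O2, σ • x ∈ O2)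
    (hvals1 : ∀ z : F, z ≠ 0 → ∃ a : ℤ, O1.valuation z = O1.valuation (algebraMap R F π) ^ a)
    (hvals2 : ∀ z : F, z ≠ 0 → ∃ a : ℤ, O2.valuation z = O2.valuation (algebraMap R F π) ^ a)
    (hπ0 : algebraMap R F π ≠ 0)
    {ε : F} (hε1 : ε ∈ O1) (hε1' : ε⁻¹ ∈ O1) (hε2 : ε ∈ O2) (hε2' : ε⁻¹ ∈ O2)
    (hπσ : σ • (algebraMap R F π) = algebraMap R F π * ε)
    (D : Divisor.degZero (K := K) (F := F))
    (loc : ∀ B : Subalgebra R F, B = B0 ∨ B = B1 → ∀ 𝔪 : Ideal B, 𝔪.IsMaximal →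
      algebraMap R B π ∈ 𝔪 → ∃ h, IsLocEq B 𝔪 (D : Divisor K F) h) :
    σ • Pic0.mk D - Pic0.mk D ∈ Cart π B0 B1 O1 O2 hπ1 hπ2 0 := by
  refine ⟨SemilinearAut.degZeroSMulHom σ D - D, ?_, ?_, ?_⟩
  · rw [SemilinearAut.pic0_smul_mk]; rfl
  · intro 𝔪 h𝔪 hπ𝔪
    obtain ⟨h, hh⟩ := loc B0 (Or.inl rfl) 𝔪 h𝔪 hπ𝔪
    exact levelAt_zero_smul_sub (pres B0 (Or.inl rfl)).1 (pres B0 (Or.inl rfl)).2 hmap1 hmap2
      hvals1 hvals2 hπ0 hε1 hε1' hε2 hε2' hπσ h𝔪 hπ𝔪 hh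
  · intro 𝔪 h𝔪 hπ𝔪
    obtain ⟨h, hh⟩ := loc B1 (Or.inr rfl) 𝔪 h𝔪 hπ𝔪
    exact levelAt_zero_smul_sub (pres B1 (Or.inr rfl)).1 (pres B1 (Or.inr rfl)).2 hmap1 hmap2
      hvals1 hvals2 hπ0 hε1 hε1' hε2 hε2' hπσ h𝔪 hπ𝔪 hh

/-- `loc` from the `smooth` / `locN` hypotheses of `Slope43.mem_cart_zero_of_slopes`. -/
theorem loc_of_smooth_of_locN {B0 B1 : Subalgebra R F} (D : Divisor K F)
    (smooth : ∀ B : Subalgebra R F, B = B0 ∨ B = B1 → ∀ 𝔪 : Ideal B, 𝔪.IsMaximal →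
      algebraMap R B π ∈ 𝔪 → (OffBranch π B O1 𝔪 ∨ OffBranch π B O2 𝔪) →
      ∃ h, IsLocEq B 𝔪 D h ∧ StrictOn π B O1 𝔪 0 h ∧ StrictOn π B O2 𝔪 0 h)
    (locN : ∀ (B : Subalgebra R F) (𝔪 : Ideal B), IsNode π B0 B1 O1 O2 B 𝔪 →
      ∃ h, IsLocEq B 𝔪 D h) :
    ∀ B : Subalgebra R F, B = B0 ∨ B = B1 → ∀ 𝔪 : Ideal B, 𝔪.IsMaximal →
      algebraMap R B π ∈ 𝔪 → ∃ h, IsLocEq B 𝔪 D h := by
  intro B hB 𝔪 h𝔪 hπ𝔪
  by_cases hoff1 : OffBranch π B O1 𝔪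
  · obtain ⟨h, hh, -, -⟩ := smooth B hB 𝔪 h𝔪 hπ𝔪 (Or.inl hoff1)
    exact ⟨h, hh⟩
  by_cases hoff2 : OffBranch π B O2 𝔪
  · obtain ⟨h, hh, -, -⟩ := smooth B hB 𝔪 h𝔪 hπ𝔪 (Or.inr hoff2)
    exact ⟨h, hh⟩
  · exact locN B 𝔪 ⟨hB, h𝔪, hπ𝔪, hoff1, hoff2⟩

/-! ### Base-ring forms: the data of `σ` on `π` given in `R` -/

theorem smul_mem_of_ram {Oj : ValuationSubring F} (hπ : algebraMap R F π ∈ Oj)
    (hram : ∀ x ∈ Oj, ∃ c ∈ Oj, σ • x - x = algebraMap R F π * c) :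
    ∀ x ∈ Oj, σ • x ∈ Oj := by
  intro x hx
  obtain ⟨c, hc, hxc⟩ := hram x hx
  have : σ • x = x + algebraMap R F π * c := by rw [← hxc]; ring
  rw [this]
  exact Oj.add_mem _ _ hx (Oj.mul_mem _ _ hπ hc)

/-- **(Gc), base-ring form**: `σ` acts on the constants `R` through `τR`, `τR π = π εR` with `εR` a
unit of `R`, `σ ≡ id mod π` on `O_1`, `O_2`. -/
theorem smul_sub_mem_cart_zero_of_base {B0 B1 : Subalgebra R F}
    {hπ1 : algebraMap R F π ∈ O1} {hπ2 : algebraMap R F π ∈ O2}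
    (pres : ∀ B : Subalgebra R F, B = B0 ∨ B = B1 →
      PreservesChart π B σ ∧ PreservesChart π B σ⁻¹)
    (hram1 : ∀ x ∈ O1, ∃ c ∈ O1, σ • x - x = algebraMap R F π * c)
    (hram2 : ∀ x ∈ O2, ∃ c ∈ O2, σ • x - x = algebraMap R F π * c)
    (hvals1 : ∀ z : F, z ≠ 0 → ∃ a : ℤ, O1.valuation z = O1.valuation (algebraMap R F π) ^ a)
    (hvals2 : ∀ z : F, z ≠ 0 → ∃ a : ℤ, O2.valuation z = O2.valuation (algebraMap R F π) ^ a)
    (hπ0 : algebraMap R F π ≠ 0)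
    (hconst1 : ∀ r : R, algebraMap R F r ∈ O1) (hconst2 : ∀ r : R, algebraMap R F r ∈ O2)
    {τR : R →+* R} (hσR : ∀ r : R, σ • algebraMap R F r = algebraMap R F (τR r))
    {εR : R} (hεu : IsUnit εR) (hεR : τR π = π * εR)
    (D : Divisor.degZero (K := K) (F := F))
    (loc : ∀ B : Subalgebra R F, B = B0 ∨ B = B1 → ∀ 𝔪 : Ideal B, 𝔪.IsMaximal →
      algebraMap R B π ∈ 𝔪 → ∃ h, IsLocEq B 𝔪 (D : Divisor K F) h) :
    σ • Pic0.mk D - Pic0.mk D ∈ Cart π B0 B1 O1 O2 hπ1 hπ2 0 := by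
  obtain ⟨u, rfl⟩ := hεu
  have hπσ : σ • (algebraMap R F π) = algebraMap R F π * algebraMap R F (u : R) := by
    rw [hσR, hεR, map_mul]
  have hinv : (algebraMap R F (u : R))⁻¹ = algebraMap R F ((u⁻¹ : Rˣ) : R) := by
    apply inv_eq_of_mul_eq_one_right
    rw [← map_mul, Units.mul_inv, map_one]
  exact smul_sub_mem_cart_zero pres (smul_mem_of_ram hπ1 hram1) (smul_mem_of_ram hπ2 hram2)
    hvals1 hvals2 hπ0 (hconst1 _) (hinv ▸ hconst1 _) (hconst2 _) (hinv ▸ hconst2 _) hπσ D loc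

/-- **(T1''), base-ring form**: `Defs43.smul_sub_nsmul_mem_cart` with `ε = εR ∈ R`, `τR π = π εR`
and the congruence `εR ^ n ≡ c mod π` in `R`: `(σ - c) Cart n ⊆ Cart (n + 1)`, `n ≥ 1`. -/
theorem smul_sub_nsmul_mem_cart_of_base {B0 B1 : Subalgebra R F}
    {hπ1 : algebraMap R F π ∈ O1} {hπ2 : algebraMap R F π ∈ O2}
    (pres : ∀ B : Subalgebra R F, B = B0 ∨ B = B1 →
      PreservesChart π B σ ∧ PreservesChart π B σ⁻¹)
    (hram1 : ∀ x ∈ O1, ∃ c ∈ O1, σ • x - x = algebraMap R F π * c)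
    (hram2 : ∀ x ∈ O2, ∃ c ∈ O2, σ • x - x = algebraMap R F π * c)
    (hconst1 : ∀ r : R, algebraMap R F r ∈ O1) (hconst2 : ∀ r : R, algebraMap R F r ∈ O2)
    {τR : R →+* R} (hσR : ∀ r : R, σ • algebraMap R F r = algebraMap R F (τR r))
    {εR : R} (hεR : τR π = π * εR)
    {n : ℕ} (hn : 1 ≤ n) {c : ℕ} (hεc : ∃ b : R, εR ^ n - (c : R) = π * b)
    {x : Pic0 K F} (hx : x ∈ Cart π B0 B1 O1 O2 hπ1 hπ2 n) :
    σ • x - c • x ∈ Cart π B0 B1 O1 O2 hπ1 hπ2 (n + 1) := by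
  have hπσ : σ • (algebraMap R F π) = algebraMap R F π * algebraMap R F εR := by
    rw [hσR, hεR, map_mul]
  obtain ⟨b, hb⟩ := hεc
  have hεc' : algebraMap R F εR ^ n - (c : F) = algebraMap R F π * algebraMap R F b := by
    rw [← map_pow, ← map_natCast (algebraMap R F) c, ← map_sub, hb, map_mul]
  exact smul_sub_nsmul_mem_cart (pres B0 (Or.inl rfl)).1 (pres B0 (Or.inl rfl)).2
    (pres B1 (Or.inr rfl)).1 (pres B1 (Or.inr rfl)).2 hram1 hram2 (hconst1 _) (hconst2 _) hπσ hn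
    ⟨_, hconst1 b, hεc'⟩ ⟨_, hconst2 b, hεc'⟩ hx

/-- (Gd) in the `pres` packaging. -/
theorem smul_sub_mem_cart_one' {B0 B1 : Subalgebra R F}
    {hπ1 : algebraMap R F π ∈ O1} {hπ2 : algebraMap R F π ∈ O2}
    (pres : ∀ B : Subalgebra R F, B = B0 ∨ B = B1 →
      PreservesChart π B σ ∧ PreservesChart π B σ⁻¹)
    (hram1 : ∀ x ∈ O1, ∃ c ∈ O1, σ • x - x = algebraMap R F π * c)
    (hram2 : ∀ x ∈ O2, ∃ c ∈ O2, σ • x - x = algebraMap R F π * c)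
    {x : Pic0 K F} (hx : x ∈ Cart π B0 B1 O1 O2 hπ1 hπ2 0) :
    σ • x - x ∈ Cart π B0 B1 O1 O2 hπ1 hπ2 1 :=
  smul_sub_mem_cart_one (pres B0 (Or.inl rfl)).1 (pres B0 (Or.inl rfl)).2
    (pres B1 (Or.inr rfl)).1 (pres B1 (Or.inr rfl)).2 hram1 hram2 hx

end Fermat.Agent.ORD.Geo.InertiaCart20
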