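/-
ORD (S33), chapter G, the `loc` wiring for helper20's `CartPkg20` (helper97, backup of POLE 1).

For a `NodalNumData` (the nodal two-chart model of record over ANY base `R`, e.g. `R = A ∩ K` with
`K` finite normal over `ℚ`) all of whose nodes are thick nodes (`NodeFrame58.ThickNodes`), EVERY
divisor of `F / K` has a local equation up to vertical components at EVERY closed point of both
charts:

* `smooth_all`  : the hypothesis `smooth` of `Slope43` / `ContractInst43` for all divisors at once;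
* `locN_all`    : the hypothesis `locN` of `Slope43` / `ContractInst43` for all divisors at once;
* `loc_special` : the hypothesis `loc` of `ORD/Geo/{InertiaCart20, InertiaAK20, SigmaCart20}`
  (closed points of the special fibre), literally;
* `loc_all`     : the same at all maximal ideals of the two charts (special fibre: one-branch points
  by `SmoothEq53.smooth_of_numData`, nodes by `NodeFrame58.locN_of_thickNodes`; the other maximal
  ideals by `HorizEq53.horiz_of_numData`);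
* `levelAt_zero_of_offBranch`, `chartLevel_zero_iff` : bookkeeping for level `0`.
-/
import Mathlib
import Fermat.Agent.M1.Car.SmoothEq53
import Fermat.Agent.M1.Car.HorizEq53
import Fermat.Agent.M1.Car.NodeFrame58
import Fermat.Agent.ORD.Geo.InertiaCart20

set_option autoImplicit false

namespace Fermat.Agent.ORD.Geo.LocAll97

open AlgebraicCurve Fermat.Agent.ES.N34.NodalCore13 Fermat.Agent.ES.N34.NumData13
  Fermat.Agent.M1.Car.Defs43 Fermat.Agent.M1.Mon.WildPL43 Fermat.Agent.M1.Car.NodeFrame58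

variable {R K F : Type*} [CommRing R] [Field K] [Field F] [Algebra R K] [Algebra K F]
  [Algebra R F] [IsScalarTower R K F]
  {π : R} {t : F} {B0 B1 : Subalgebra R F} {O1 O2 : ValuationSubring F}

/-- The hypothesis `smooth` of `Slope43.mem_cart_zero_of_slopes` / `ContractInst43`, for every
divisor. -/
theorem smooth_all (N : NodalNumData R K F π t B0 B1 O1 O2) (D : Divisor K F) :
    ∀ B : Subalgebra R F, B = B0 ∨ B = B1 → ∀ 𝔪 : Ideal B, 𝔪.IsMaximal →
      algebraMap R B π ∈ 𝔪 → (OffBranch π B O1 𝔪 ∨ OffBranch π B O2 𝔪) →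
      ∃ h, IsLocEq B 𝔪 D h ∧ StrictOn π B O1 𝔪 0 h ∧ StrictOn π B O2 𝔪 0 h :=
  Fermat.Agent.M1.Car.SmoothEq53.smooth_of_numData N D

/-- The hypothesis `locN` of `Slope43` / `ContractInst43`, for every divisor. -/
theorem locN_all (N : NodalNumData R K F π t B0 B1 O1 O2) {e : ℕ}
    (hth : ThickNodes π B0 B1 O1 O2 e) (D : Divisor K F) :
    ∀ (B : Subalgebra R F) (𝔪 : Ideal B), IsNode π B0 B1 O1 O2 B 𝔪 → ∃ h, IsLocEq B 𝔪 D h :=
  fun B 𝔪 hs => locN_of_thickNodes N hth D B 𝔪 hs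

/-- **`loc`**: every divisor has a local equation (up to vertical components) at every closed point
of the special fibre of both charts.  Literally the hypothesis `loc` of
`InertiaCart20.smul_sub_mem_cart_zero`, `InertiaAK20.inertia_smul_sub_mem_cart_zero`,
`SigmaCart20`. -/
theorem loc_special (N : NodalNumData R K F π t B0 B1 O1 O2) {e : ℕ}
    (hth : ThickNodes π B0 B1 O1 O2 e) (D : Divisor K F) :
    ∀ B : Subalgebra R F, B = B0 ∨ B = B1 → ∀ 𝔪 : Ideal B, 𝔪.IsMaximal →
      algebraMap R B π ∈ 𝔪 → ∃ h, IsLocEq B 𝔪 D h :=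
  Fermat.Agent.ORD.Geo.InertiaCart20.loc_of_smooth_of_locN D (smooth_all N D) (locN_all N hth D)

/-- **`loc` at all closed points of the two charts** (special fibre or not). -/
theorem loc_all (N : NodalNumData R K F π t B0 B1 O1 O2) {e : ℕ}
    (hth : ThickNodes π B0 B1 O1 O2 e) (D : Divisor K F) :
    ∀ B : Subalgebra R F, B = B0 ∨ B = B1 → ∀ 𝔪 : Ideal B, 𝔪.IsMaximal →
      ∃ h, IsLocEq B 𝔪 D h := by
  intro B hB 𝔪 h𝔪
  by_cases hπ𝔪 : algebraMap R B π ∈ 𝔪
  · exact loc_special N hth D B hB 𝔪 h𝔪 hπ𝔪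
  · obtain ⟨h0, h1⟩ := Fermat.Agent.M1.Car.HorizEq53.horiz_of_numData N D
    rcases hB with rfl | rfl
    · exact h0 𝔪 h𝔪 hπ𝔪
    · exact h1 𝔪 h𝔪 hπ𝔪

/-- the degree-zero form used by `CartPkg`-type statements. -/
theorem loc_degZero (N : NodalNumData R K F π t B0 B1 O1 O2) {e : ℕ}
    (hth : ThickNodes π B0 B1 O1 O2 e) (D : Divisor.degZero (K := K) (F := F)) :
    ∀ B : Subalgebra R F, B = B0 ∨ B = B1 → ∀ 𝔪 : Ideal B, 𝔪.IsMaximal →
      algebraMap R B π ∈ 𝔪 → ∃ h, IsLocEq B 𝔪 (D : Divisor K F) h :=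
  loc_special N hth (D : Divisor K F)

/-- At a one-branch point every divisor has level `0` (no condition at all). -/
theorem levelAt_zero_of_offBranch (N : NodalNumData R K F π t B0 B1 O1 O2) (D : Divisor K F)
    (B : Subalgebra R F) (hB : B = B0 ∨ B = B1) (𝔪 : Ideal B) (h𝔪 : 𝔪.IsMaximal)
    (hπ𝔪 : algebraMap R B π ∈ 𝔪) (hoff : OffBranch π B O1 𝔪 ∨ OffBranch π B O2 𝔪) :
    LevelAt π B O1 O2 0 D 𝔪 :=
  smooth_all N D B hB 𝔪 h𝔪 hπ𝔪 hoff

/-- `D` has level `0` on the model iff it has level `0` at the nodes. -/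
theorem hasLevel_zero_iff (N : NodalNumData R K F π t B0 B1 O1 O2) (D : Divisor K F) :
    HasLevel π B0 B1 O1 O2 0 D ↔
      ∀ (B : Subalgebra R F) (𝔪 : Ideal B), IsNode π B0 B1 O1 O2 B 𝔪 →
        LevelAt π B O1 O2 0 D 𝔪 := by
  constructor
  · rintro ⟨h0, h1⟩ B 𝔪 hs
    rcases hs.chart with rfl | rfl
    · exact h0 𝔪 hs.max hs.pi_mem
    · exact h1 𝔪 hs.max hs.pi_mem
  · intro hn
    have key : ∀ B : Subalgebra R F, B = B0 ∨ B = B1 → ChartLevel π B O1 O2 0 D := by
      intro B hB 𝔪 h𝔪 hπ𝔪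
      by_cases hoff1 : OffBranch π B O1 𝔪
      · exact levelAt_zero_of_offBranch N D B hB 𝔪 h𝔪 hπ𝔪 (Or.inl hoff1)
      by_cases hoff2 : OffBranch π B O2 𝔪
      · exact levelAt_zero_of_offBranch N D B hB 𝔪 h𝔪 hπ𝔪 (Or.inr hoff2)
      · exact hn B 𝔪 ⟨hB, h𝔪, hπ𝔪, hoff1, hoff2⟩
    exact ⟨key B0 (Or.inl rfl), key B1 (Or.inr rfl)⟩

end Fermat.Agent.ORD.Geo.LocAll97
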