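/-
ORD (S33), chapter G (GeoData), brick G1, arithmetic layer -- helper20.

`Geo/InertiaCart20` instantiated at the base ring `R = A ∩ K`, `K ⊂ ℚ̄` an ARBITRARY finite normal
field containing `μ_p`, `ϖ` a uniformiser of `A ∩ K`, `τ` in the inertia group of `A`, with the
arithmetic inputs discharged by `M1/Ram/TameGen20`:

* `inertia_smul_sub_mem_cart_zero`  : **(Gc)**  `σ [D] - [D] ∈ Cart 0`;
* `inertia_smul_sub_nsmul_mem_cart` : **(T1'')** if `τ ζ = ζ ^ c` and `ζ - 1 ~ ϖ ^ d`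
  (`d = e_K / (p - 1)`) then `(σ - c) Cart d ⊆ Cart (d + 1)`  (`ε ^ d ≡ c mod ϖ`, i.e. `θ₀ ^ d = ω`).

Here `σ : SemilinearAut K F` is any semilinear automorphism of the function field `F` acting on the
constants `A ∩ K` through `τ` (`hσR`; for `F = FK M K`, `σ = galK K M τ` this is
`arithmeticRingAut_algebraMap`), and the frame `(B0, B1, O1, O2)` is abstract: `pres`, `hram_j`
(`σ ≡ id mod ϖ` on the Gauss rings) and `hconst_j` (constants are integral) are hypotheses in the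
literal shape of `M1/Car/Defs43` / `M1/Mon/WildPL43`.  (Gd) needs no arithmetic:
`InertiaCart20.smul_sub_mem_cart_one'`.
-/
import Mathlib
import Fermat.Agent.ORD.Geo.InertiaCart20
import Fermat.Agent.M1.Ram.TameGen20

set_option autoImplicit false
set_option linter.unusedSectionVars false

namespace Fermat.Agent.ORD.Geo.InertiaAK20

open AlgebraicCurve Fermat.Agent.ES.N34.NodalCore13 Fermat.Agent.M1.Car.Defs43
  Fermat.Agent.RED.Interface4 Fermat.Agent.RED.DESC.NumberFieldDVR27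
  Fermat.Agent.ES.N34.GalBase21 Fermat.Agent.M1.Ram.WildCyclic20
  Fermat.Agent.M1.Ram.TameGen20 Fermat.Agent.ORD.Geo.InertiaCart20

open scoped Pointwise

variable {A : ValuationSubring Qbar} {K : IntermediateField ℚ Qbar} [Normal ℚ K]
  {F : Type*} [Field F] [Algebra K F] [Algebra (AK A K) F]
  {ϖ : AK A K} {B0 B1 : Subalgebra (AK A K) F} {O1 O2 : ValuationSubring F}
  {σ : SemilinearAut K F}

/-- **(Gc) for the inertia group**: for ANY class `[D]` with local equations at the closed points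
of the special fibre, `σ [D] - [D] ∈ Cart 0`. -/
theorem inertia_smul_sub_mem_cart_zero (h : IsUnifAK A K ϖ) {τ : Qbar ≃ₐ[ℚ] Qbar}
    (hτ : τ ∈ A.inertiaSubgroupIn ℚ)
    {hπ1 : algebraMap (AK A K) F ϖ ∈ O1} {hπ2 : algebraMap (AK A K) F ϖ ∈ O2}
    (pres : ∀ B : Subalgebra (AK A K) F, B = B0 ∨ B = B1 →
      PreservesChart ϖ B σ ∧ PreservesChart ϖ B σ⁻¹)
    (hram1 : ∀ x ∈ O1, ∃ c ∈ O1, σ • x - x = algebraMap (AK A K) F ϖ * c)
    (hram2 : ∀ x ∈ O2, ∃ c ∈ O2, σ • x - x = algebraMap (AK A K) F ϖ * c)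
    (hvals1 : ∀ z : F, z ≠ 0 →
      ∃ a : ℤ, O1.valuation z = O1.valuation (algebraMap (AK A K) F ϖ) ^ a)
    (hvals2 : ∀ z : F, z ≠ 0 →
      ∃ a : ℤ, O2.valuation z = O2.valuation (algebraMap (AK A K) F ϖ) ^ a)
    (hπ0 : algebraMap (AK A K) F ϖ ≠ 0)
    (hconst1 : ∀ r : AK A K, algebraMap (AK A K) F r ∈ O1)
    (hconst2 : ∀ r : AK A K, algebraMap (AK A K) F r ∈ O2)
    (hσR : ∀ r : AK A K, σ • algebraMap (AK A K) F r =
      algebraMap (AK A K) F (resAK K (mem_decomposition_of_mem_inertia A hτ) r))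
    (D : Divisor.degZero (K := K) (F := F))
    (loc : ∀ B : Subalgebra (AK A K) F, B = B0 ∨ B = B1 → ∀ 𝔪 : Ideal B, 𝔪.IsMaximal →
      algebraMap (AK A K) B ϖ ∈ 𝔪 → ∃ h, IsLocEq B 𝔪 (D : Divisor K F) h) :
    σ • Pic0.mk D - Pic0.mk D ∈ Cart ϖ B0 B1 O1 O2 hπ1 hπ2 0 := by
  obtain ⟨ε, hεu, hε⟩ := exists_eps h hτ
  exact smul_sub_mem_cart_zero_of_base pres hram1 hram2 hvals1 hvals2 hπ0 hconst1 hconst2 hσR
    hεu hε D loc

/-- **(T1'') for the inertia group**: if `τ ζ = ζ ^ c` and `ζ - 1 ~ ϖ ^ d` then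
`(σ - c) Cart d ⊆ Cart (d + 1)`. -/
theorem inertia_smul_sub_nsmul_mem_cart (h : IsUnifAK A K ϖ) {p : ℕ} (hp : p.Prime)
    {τ : Qbar ≃ₐ[ℚ] Qbar} (hτ : τ ∈ A.inertiaSubgroupIn ℚ)
    {ζ : Qbar} (hζK : ζ ∈ K) (hζ : ζ ^ p = 1) (hζ1 : ζ ≠ 1) (c : ℕ) (hc : τ ζ = ζ ^ c)
    {d : ℕ} (hd0 : d ≠ 0)
    (hd : Associated (zetaK (A := A) hp.ne_zero hζK hζ - 1) (ϖ ^ d))
    {hπ1 : algebraMap (AK A K) F ϖ ∈ O1} {hπ2 : algebraMap (AK A K) F ϖ ∈ O2}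
    (pres : ∀ B : Subalgebra (AK A K) F, B = B0 ∨ B = B1 →
      PreservesChart ϖ B σ ∧ PreservesChart ϖ B σ⁻¹)
    (hram1 : ∀ x ∈ O1, ∃ c ∈ O1, σ • x - x = algebraMap (AK A K) F ϖ * c)
    (hram2 : ∀ x ∈ O2, ∃ c ∈ O2, σ • x - x = algebraMap (AK A K) F ϖ * c)
    (hconst1 : ∀ r : AK A K, algebraMap (AK A K) F r ∈ O1)
    (hconst2 : ∀ r : AK A K, algebraMap (AK A K) F r ∈ O2)
    (hσR : ∀ r : AK A K, σ • algebraMap (AK A K) F r =
      algebraMap (AK A K) F (resAK K (mem_decomposition_of_mem_inertia A hτ) r))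
    {x : Pic0 K F} (hx : x ∈ Cart ϖ B0 B1 O1 O2 hπ1 hπ2 d) :
    σ • x - c • x ∈ Cart ϖ B0 B1 O1 O2 hπ1 hπ2 (d + 1) := by
  obtain ⟨ε, -, hε⟩ := exists_eps h hτ
  have hεc := eps_pow_sub h hp hτ hζK hζ hζ1 c hc hd0 hd hε
  exact smul_sub_nsmul_mem_cart_of_base pres hram1 hram2 hconst1 hconst2 hσR hε
    (Nat.one_le_iff_ne_zero.mpr hd0) hεc hx

/-- The threshold depth exists: `ζ - 1 ~ ϖ ^ d`, `d ≠ 0`, and then `ϖ ^ (d (p - 1)) ~ p`. -/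
theorem exists_threshold [FiniteDimensional ℚ K] (h : IsUnifAK A K ϖ) {p : ℕ} (hp : p.Prime)
    (hA : A.LiesOverPrime p) {ζ : Qbar} (hζK : ζ ∈ K) (hζ : ζ ^ p = 1) (hζ1 : ζ ≠ 1) :
    ∃ d : ℕ, d ≠ 0 ∧ Associated (zetaK (A := A) hp.ne_zero hζK hζ - 1) (ϖ ^ d) ∧
      Associated (ϖ ^ (d * (p - 1))) ((p : ℕ) : AK A K) := by
  obtain ⟨d, hd0, hd⟩ := exists_depth h hp hA hζK hζ hζ1
  exact ⟨d, hd0, hd, associated_pow_mul hp hζK hζ hζ1 hd⟩

end Fermat.Agent.ORD.Geo.InertiaAK20
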