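/-
ORD (S33), chapter G (GeoData), brick G1, adapter to the model of record -- helper20.

`Geo/InertiaCart20` / `Geo/InertiaAK20` with all the frame hypotheses on `σ` (`pres`, `hram_j`,
`hmap_j`, `hvals_j`, `hconst_j`, the unit `ε`) discharged from the TWO structures the old library
already provides for EVERY finite normal `K` and every `τ` in the inertia group
(`ES/N34/GalModel21.sigmaData`, `sigmaDataN`):

  `M : NodalCore13.NodalTwoChartModel R F π t B0 B1 O1 O2`,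
  `h : GalChart21.SigmaData π t O1 O2 (SemilinearAut.toRingAut σ)`.

* `pres_of_sigmaData`, `ram1_of_sigmaData`, `ram2_of_sigmaData` : the literal σ-side hypotheses of
  `M1/Car/Defs43` and `M1/Mon/WildPL43` at depth `0`;
* `smul_sub_mem_cart_one_of_sigmaData`   : **(Gd)**;
* `smul_sub_mem_cart_zero_of_sigmaData`  : **(Gc)**;
* `smul_sub_nsmul_mem_cart_of_sigmaData` : **(T1'')**, base-ring form;
* `inertia_smul_sub_nsmul_mem_cart_of_sigmaData` : **(T1'')** for `R = A ∩ K`, `τ ∈ I_A`,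
  `τ ζ = ζ ^ c`, `ζ - 1 ~ ϖ ^ d`;
* `galK_smul_algebraMap` : the hypothesis `hσR` for `F = FK M K`, `σ = galK K M τ`.
-/
import Mathlib
import Fermat.Agent.ORD.Geo.InertiaAK20
import Fermat.Agent.ES.N34.GalChart21
import Fermat.Agent.ES.N34.GalConc21

set_option autoImplicit false
set_option linter.unusedSectionVars false

namespace Fermat.Agent.ORD.Geo.SigmaCart20

open AlgebraicCurve Fermat.Agent.ES.N34.NodalCore13 Fermat.Agent.ES.N34.GalGauss21
  Fermat.Agent.ES.N34.GalChart21 Fermat.Agent.M1.Car.Defs43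
  Fermat.Agent.ORD.Geo.InertiaCart20

open scoped Pointwise

section Symm

variable {F : Type*} [Field F] {O : ValuationSubring F} {p : F}

/-- The inverse of an inertial automorphism is inertial. -/
theorem isInertial_symm {g : F ≃+* F} (hg : IsInertial O p g) (hp0 : p ≠ 0) :
    IsInertial O p g.symm := by
  refine ⟨hg.symm_mem, fun x hx => by simpa using hg.map_mem x hx, fun x hx => ?_, ?_⟩
  · obtain ⟨c, hc, hcx⟩ := hg.sub_mem (g.symm x) (hg.symm_mem x hx)
    refine ⟨-c, O.neg_mem _ hc, ?_⟩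
    rw [RingEquiv.apply_symm_apply] at hcx
    linear_combination -hcx
  · obtain ⟨ε, hε, hεi, hgp⟩ := hg.map_p
    have hε0 : ε ≠ 0 := by
      rintro rfl
      rw [mul_zero] at hgp
      exact hp0 ((map_eq_zero_iff g g.injective).mp hgp)
    have hsε0 : g.symm ε ≠ 0 := (map_ne_zero_iff g.symm g.symm.injective).mpr hε0
    refine ⟨(g.symm ε)⁻¹, ?_, ?_, ?_⟩
    · rw [← map_inv₀]
      exact hg.symm_mem _ hεi
    · rw [inv_inv]
      exact hg.symm_mem _ hε
    · have h1 : p = g.symm p * g.symm ε := by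
        have := congrArg g.symm hgp
        rwa [RingEquiv.symm_apply_apply, map_mul] at this
      field_simp
      exact h1.symm

end Symm

variable {R K F : Type*} [CommRing R] [Field K] [Field F] [Algebra K F] [Algebra R F]

variable {π : R} {t : F} {B0 B1 : Subalgebra R F} {O1 O2 : ValuationSubring F}

/-- `SigmaData` for the inverse. -/
theorem sigmaData_symm {g : F ≃+* F} (h : SigmaData π t O1 O2 g)
    (hπ0 : algebraMap R F π ≠ 0) : SigmaData π t O1 O2 g.symm :=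
  ⟨h.semilin_symm, fun r => by simpa using h.semilin r, h.symm_map_t,
    isInertial_symm h.inert1 hπ0, isInertial_symm h.inert2 hπ0⟩

variable {σ : SemilinearAut K F}

/-- `σ ≡ id mod π` on `O_1`. -/
theorem ram1_of_sigmaData (h : SigmaData π t O1 O2 (SemilinearAut.toRingAut σ)) :
    ∀ x ∈ O1, ∃ c ∈ O1, σ • x - x = algebraMap R F π * c :=
  fun x hx => h.inert1.sub_mem x hx

/-- `σ ≡ id mod π` on `O_2`. -/
theorem ram2_of_sigmaData (h : SigmaData π t O1 O2 (SemilinearAut.toRingAut σ)) :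
    ∀ x ∈ O2, ∃ c ∈ O2, σ • x - x = algebraMap R F π * c :=
  fun x hx => h.inert2.sub_mem x hx

theorem preservesChart0 (M : NodalTwoChartModel R F π t B0 B1 O1 O2) {g : SemilinearAut K F}
    (h : SigmaData π t O1 O2 (SemilinearAut.toRingAut g)) : PreservesChart π B0 g :=
  ⟨fun _ hb => h.map_mem_B0 M hb, fun 𝔪 _ hπ𝔪 b hb _ => (h.mem_ideal_iff0 M 𝔪 hπ𝔪 b).mpr hb⟩

theorem preservesChart1 (M : NodalTwoChartModel R F π t B0 B1 O1 O2) {g : SemilinearAut K F}
    (h : SigmaData π t O1 O2 (SemilinearAut.toRingAut g)) : PreservesChart π B1 g :=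
  ⟨fun _ hb => h.map_mem_B1 M hb, fun 𝔪 _ hπ𝔪 b hb _ => (h.mem_ideal_iff1 M 𝔪 hπ𝔪 b).mpr hb⟩

theorem sigmaData_inv (M : NodalTwoChartModel R F π t B0 B1 O1 O2)
    (h : SigmaData π t O1 O2 (SemilinearAut.toRingAut σ)) :
    SigmaData π t O1 O2 (SemilinearAut.toRingAut σ⁻¹) := by
  rw [SemilinearAut.toRingAut_inv]
  exact sigmaData_symm h M.pi_ne

/-- **`pres`** (literal hypothesis of `WildPL43` / `InertiaCart20`) from `SigmaData`. -/
theorem pres_of_sigmaData (M : NodalTwoChartModel R F π t B0 B1 O1 O2)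
    (h : SigmaData π t O1 O2 (SemilinearAut.toRingAut σ)) :
    ∀ B : Subalgebra R F, B = B0 ∨ B = B1 →
      PreservesChart π B σ ∧ PreservesChart π B σ⁻¹ := by
  have h' := sigmaData_inv M h
  rintro B (rfl | rfl)
  · exact ⟨preservesChart0 M h, preservesChart0 M h'⟩
  · exact ⟨preservesChart1 M h, preservesChart1 M h'⟩

theorem const_mem1 (M : NodalTwoChartModel R F π t B0 B1 O1 O2) (r : R) :
    algebraMap R F r ∈ O1 := M.le_O1_0 _ (B0.algebraMap_mem r)

theorem const_mem2 (M : NodalTwoChartModel R F π t B0 B1 O1 O2) (r : R) :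
    algebraMap R F r ∈ O2 := M.le_O2_0 _ (B0.algebraMap_mem r)

/-- **(Gd)** from `SigmaData`. -/
theorem smul_sub_mem_cart_one_of_sigmaData (M : NodalTwoChartModel R F π t B0 B1 O1 O2)
    (h : SigmaData π t O1 O2 (SemilinearAut.toRingAut σ))
    {hπ1 : algebraMap R F π ∈ O1} {hπ2 : algebraMap R F π ∈ O2}
    {x : Pic0 K F} (hx : x ∈ Cart π B0 B1 O1 O2 hπ1 hπ2 0) :
    σ • x - x ∈ Cart π B0 B1 O1 O2 hπ1 hπ2 1 :=
  smul_sub_mem_cart_one' (pres_of_sigmaData M h) (ram1_of_sigmaData h) (ram2_of_sigmaData h) hx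

/-- **(Gc)** from `SigmaData`: for ANY class `[D]` with local equations at the closed points of the
special fibre, `σ [D] - [D] ∈ Cart 0`. -/
theorem smul_sub_mem_cart_zero_of_sigmaData (M : NodalTwoChartModel R F π t B0 B1 O1 O2)
    (h : SigmaData π t O1 O2 (SemilinearAut.toRingAut σ))
    {hπ1 : algebraMap R F π ∈ O1} {hπ2 : algebraMap R F π ∈ O2}
    (D : Divisor.degZero (K := K) (F := F))
    (loc : ∀ B : Subalgebra R F, B = B0 ∨ B = B1 → ∀ 𝔪 : Ideal B, 𝔪.IsMaximal →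
      algebraMap R B π ∈ 𝔪 → ∃ h, IsLocEq B 𝔪 (D : Divisor K F) h) :
    σ • Pic0.mk D - Pic0.mk D ∈ Cart π B0 B1 O1 O2 hπ1 hπ2 0 := by
  have pres := pres_of_sigmaData M h
  have key : ∀ B : Subalgebra R F, B = B0 ∨ B = B1 →
      ChartLevel π B O1 O2 0 (σ • (D : Divisor K F) - (D : Divisor K F)) := by
    intro B hB 𝔪 h𝔪 hπ𝔪
    obtain ⟨f, hf⟩ := loc B hB 𝔪 h𝔪 hπ𝔪
    have h1 := h.inert1.ratio_mem M.pi_ne M.unif1 M.arch1 hf.1
    have h2 := h.inert2.ratio_mem M.pi_ne M.unif2 M.arch2 hf.1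
    have hne : σ • f / f ≠ 0 := div_ne_zero (by simpa using hf.1) hf.1
    refine ⟨σ • f / f, (hf.smul (pres B hB).1 (pres B hB).2 h𝔪 hπ𝔪).div hf,
      Or.inr ⟨hne, h1.2, σ • f / f - 1, sub_mem h1.1 O1.one_mem, by rw [pow_zero, one_mul]⟩,
      Or.inr ⟨hne, h2.2, σ • f / f - 1, sub_mem h2.1 O2.one_mem, by rw [pow_zero, one_mul]⟩⟩
  refine ⟨SemilinearAut.degZeroSMulHom σ D - D, ?_, key B0 (Or.inl rfl), key B1 (Or.inr rfl)⟩
  rw [SemilinearAut.pic0_smul_mk]; rfl

/-- **(T1'')**, base-ring form, from `SigmaData`. -/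
theorem smul_sub_nsmul_mem_cart_of_sigmaData (M : NodalTwoChartModel R F π t B0 B1 O1 O2)
    (h : SigmaData π t O1 O2 (SemilinearAut.toRingAut σ))
    {hπ1 : algebraMap R F π ∈ O1} {hπ2 : algebraMap R F π ∈ O2}
    {τR : R →+* R} (hσR : ∀ r : R, σ • algebraMap R F r = algebraMap R F (τR r))
    {εR : R} (hεR : τR π = π * εR)
    {n : ℕ} (hn : 1 ≤ n) {c : ℕ} (hεc : ∃ b : R, εR ^ n - (c : R) = π * b)
    {x : Pic0 K F} (hx : x ∈ Cart π B0 B1 O1 O2 hπ1 hπ2 n) :
    σ • x - c • x ∈ Cart π B0 B1 O1 O2 hπ1 hπ2 (n + 1) :=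
  smul_sub_nsmul_mem_cart_of_base (pres_of_sigmaData M h) (ram1_of_sigmaData h)
    (ram2_of_sigmaData h) (const_mem1 M) (const_mem2 M) hσR hεR hn hεc hx

section AK

open Fermat.Agent.RED.Interface4 Fermat.Agent.RED.DESC.NumberFieldDVR27
  Fermat.Agent.ES.N34.GalBase21 Fermat.Agent.M1.Ram.WildCyclic20
  Fermat.Agent.M1.Ram.TameGen20 Fermat.Agent.ORD.Geo.InertiaAK20

variable {A : ValuationSubring Qbar} {L : IntermediateField ℚ Qbar} [Normal ℚ L]
  {E : Type*} [Field E] [Algebra L E] [Algebra (AK A L) E]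
  {ϖ : AK A L} {s : E} {C0 C1 : Subalgebra (AK A L) E} {V1 V2 : ValuationSubring E}
  {g : SemilinearAut L E}

/-- **(T1'') for the inertia group on a nodal two-chart model over `A ∩ L`**, `L` an arbitrary
finite normal field containing `μ_p`: if `τ ζ = ζ ^ c` and `ζ - 1 ~ ϖ ^ d` then
`(g - c) Cart d ⊆ Cart (d + 1)`. -/
theorem inertia_smul_sub_nsmul_mem_cart_of_sigmaData
    (M : NodalTwoChartModel (AK A L) E ϖ s C0 C1 V1 V2)
    (h : SigmaData ϖ s V1 V2 (SemilinearAut.toRingAut g))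
    (hu : IsUnifAK A L ϖ) {p : ℕ} (hp : p.Prime)
    {τ : Qbar ≃ₐ[ℚ] Qbar} (hτ : τ ∈ A.inertiaSubgroupIn ℚ)
    {ζ : Qbar} (hζL : ζ ∈ L) (hζ : ζ ^ p = 1) (hζ1 : ζ ≠ 1) (c : ℕ) (hc : τ ζ = ζ ^ c)
    {d : ℕ} (hd0 : d ≠ 0)
    (hd : Associated (zetaK (A := A) hp.ne_zero hζL hζ - 1) (ϖ ^ d))
    {hπ1 : algebraMap (AK A L) E ϖ ∈ V1} {hπ2 : algebraMap (AK A L) E ϖ ∈ V2}
    (hσR : ∀ r : AK A L, g • algebraMap (AK A L) E r =
      algebraMap (AK A L) E (resAK L (mem_decomposition_of_mem_inertia A hτ) r))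
    {x : Pic0 L E} (hx : x ∈ Cart ϖ C0 C1 V1 V2 hπ1 hπ2 d) :
    g • x - c • x ∈ Cart ϖ C0 C1 V1 V2 hπ1 hπ2 (d + 1) :=
  inertia_smul_sub_nsmul_mem_cart hu hp hτ hζL hζ hζ1 c hc hd0 hd (pres_of_sigmaData M h)
    (ram1_of_sigmaData h) (ram2_of_sigmaData h) (const_mem1 M) (const_mem2 M) hσR hx

set_option synthInstance.maxHeartbeats 400000 in
/-- The hypothesis `hσR` for `E = FK M L`, `g = galK L M τ`: the arithmetic Galois action on the
function field acts on the constants `A ∩ L` through `τ`. -/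
theorem galK_smul_algebraMap {τ : Qbar ≃ₐ[ℚ] Qbar} (hτ : τ ∈ A.inertiaSubgroupIn ℚ) (M : ℕ)
    (r : AK A L) :
    galK L M τ • algebraMap (AK A L) (FK M L) r =
      algebraMap (AK A L) (FK M L) (resAK L (mem_decomposition_of_mem_inertia A hτ) r) :=
  ModularCurve.arithmeticRingAut_algebraMap (ModularCurve.modularFunctionFieldFull M) (resK L τ)
    (r : L)

end AK

end Fermat.Agent.ORD.Geo.SigmaCart20
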