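/-
ORD (S33), chapter G (GeoData), brick G3, layer A -- helper20.

**The `Abstract40.FieldSystem` on `J₀(N)(ℚ̄)` from per-field CART-LEVEL packages.**

* `Fld K₀` : the directed set of finite normal subfields `K ⊂ ℚ̄` containing a fixed finite normal
  `K₀` (think `K₀ = ℚ(ζ_p, ζ_{M''})`);
* `CartPkg p N I cyc Kpush K` : what the local chapters prove over ONE field `K`, at the level of
  `Pic⁰(K·F_N)`: a decreasing filtration `C n` (think `Cart ϖ_K B0 B1 O1 O2 n`), the threshold `d`,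
  and (Gc), (Gd), (T1''), (T5'), (T7') for the action of `galK N K τ` (`τ ∈ I`);
* `fieldSystem` : the `FieldSystem` with `Rat K = range (bcPic0 N K)`, `J0 K = bcPic0 (C 0)`,
  `JL K n = bcPic0 (C n)`, from the packages and the base change monotonicity (CAR-BC) at `n = 0, 1`.

Everything is transported along `bcPic0 N K : Pic⁰(K·F_N) → J₀(N)(ℚ̄)` (helper25's `Car/RatMain25`:
`mem_range_bcPic0_iff`, `bcPic0_injective`, `bcPic0_smul`); `cover` is `OpenStab12.hasLevel_pic0`
plus a normal closure.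
-/
import Mathlib
import Fermat.Agent.ORD.Geo.Abstract40
import Fermat.Agent.M1.Car.RatMain25
import Fermat.Agent.ES.GAL.OpenStab12

set_option autoImplicit false
set_option linter.unusedSectionVars false
set_option linter.style.haveILetI false

open AlgebraicCurve ModularCurve IntermediateField

namespace Fermat.Agent.ORD.Geo.System20

open Fermat.Agent.RED.Interface4 Fermat.Agent.M1.Car.RatClass25 Fermat.Agent.M1.Car.RatMain25
  Fermat.Agent.ORD.Geo.Abstract40

noncomputable section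

local notation "GQ" => (Qbar ≃ₐ[ℚ] Qbar)

/-- Shortcut to the instance found (slowly) by instance search. -/
local instance (priority := 5000) algKFK20 (M : ℕ) (K : IntermediateField ℚ Qbar) :
    Algebra K (FK M K) := SubalgebraClass.toAlgebra (FK M K)

/-! ### The directed set of fields -/

/-- A finite normal subfield of `ℚ̄` containing `K₀`. -/
structure Fld (K₀ : IntermediateField ℚ Qbar) where
  /-- the field -/
  K : IntermediateField ℚ Qbar
  fin : FiniteDimensional ℚ K
  normal : Normal ℚ K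
  le : K₀ ≤ K

variable {K₀ : IntermediateField ℚ Qbar}

instance : Preorder (Fld K₀) := Preorder.lift Fld.K

theorem Fld.le_def (i j : Fld K₀) : i ≤ j ↔ i.K ≤ j.K := Iff.rfl

instance (i : Fld K₀) : FiniteDimensional ℚ i.K := i.fin

instance (i : Fld K₀) : Normal ℚ i.K := i.normal

/-- The compositum. -/
def Fld.sup (i j : Fld K₀) : Fld K₀ where
  K := i.K ⊔ j.K
  fin := IntermediateField.finiteDimensional_sup i.K j.K
  normal := @IntermediateField.normal_sup ℚ Qbar _ _ _ i.K j.K i.normal j.normal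
  le := i.le.trans le_sup_left

instance : IsDirected (Fld K₀) (· ≤ ·) :=
  ⟨fun i j => ⟨i.sup j, (le_sup_left : i.K ≤ i.K ⊔ j.K), (le_sup_right : j.K ≤ i.K ⊔ j.K)⟩⟩

/-- The base field itself. -/
def Fld.base (K₀ : IntermediateField ℚ Qbar) [FiniteDimensional ℚ K₀] [Normal ℚ K₀] : Fld K₀ :=
  ⟨K₀, inferInstance, inferInstance, le_rfl⟩

instance [FiniteDimensional ℚ K₀] [Normal ℚ K₀] : Nonempty (Fld K₀) := ⟨Fld.base K₀⟩

/-- `ℚ̄ / ℚ` is normal (for the `ℚ`-algebra structure used by `IntermediateField ℚ ℚ̄`). -/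
theorem normal_qbar20 : Normal ℚ Qbar :=
  normal_iff.mpr fun x =>
    ⟨((AlgebraicClosure.isAlgebraic ℚ).isAlgebraic x).isIntegral, IsAlgClosed.splits _⟩

/-- Every number field lies in a member of `Fld K₀`. -/
theorem Fld.exists_ge [FiniteDimensional ℚ K₀] (L : IntermediateField ℚ Qbar)
    [FiniteDimensional ℚ L] : ∃ i : Fld K₀, L ≤ i.K := by
  haveI : FiniteDimensional ℚ ↥(L ⊔ K₀) := IntermediateField.finiteDimensional_sup L K₀
  haveI := normal_qbar20
  refine ⟨⟨IntermediateField.normalClosure ℚ ↥(L ⊔ K₀) Qbar, ?_, ?_, ?_⟩, ?_⟩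
  · exact normalClosure.is_finiteDimensional ℚ ↥(L ⊔ K₀) Qbar
  · exact normalClosure.normal ℚ ↥(L ⊔ K₀) Qbar
  · exact (le_sup_right : K₀ ≤ L ⊔ K₀).trans (IntermediateField.le_normalClosure _)
  · exact (le_sup_left : L ≤ L ⊔ K₀).trans (IntermediateField.le_normalClosure _)

/-! ### The per-field package -/

variable (p N : ℕ) [NeZero N] (I : Set GQ) (cyc : GQ → ℕ → Prop) (Kpush : AddSubgroup (JZero N))

/-- **The Cart-level package over one field `K`.** -/
structure CartPkg (K : IntermediateField ℚ Qbar) [FiniteDimensional ℚ K] [Normal ℚ K] where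
  /-- the depth filtration of `Pic⁰(K·F_N)` -/
  C : ℕ → AddSubgroup (Pic0 K (FK N K))
  /-- the threshold depth `e_K / (p - 1)` -/
  d : ℕ
  one_le : 1 ≤ d
  anti : ∀ n : ℕ, C (n + 1) ≤ C n
  /-- (Gc) the component group is inertia-invariant -/
  Gc : ∀ τ ∈ I, ∀ x : Pic0 K (FK N K), galK N K τ • x - x ∈ C 0
  /-- (Gd) inertia acts trivially on the special fibre -/
  Gd : ∀ τ ∈ I, ∀ x ∈ C 0, galK N K τ • x - x ∈ C 1
  /-- (T1'') inertia acts on `gr^d` through the mod `p` cyclotomic character -/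
  T1 : ∀ τ ∈ I, ∀ c : ℕ, cyc τ c → ∀ x ∈ C d, galK N K τ • x - c • x ∈ C (d + 1)
  /-- (T5') climbing below the threshold -/
  T5 : ∀ n : ℕ, 1 ≤ n → n < d → ∀ x ∈ C n, p • x = 0 → bcPic0 N K x ∈ Kpush → x ∈ C (n + 1)
  /-- (T7') no `p`-torsion above the threshold -/
  T7 : ∀ x ∈ C (d + 1), p • x = 0 → x = 0

variable {p N I cyc Kpush}

section OneField

variable {K : IntermediateField ℚ Qbar} [FiniteDimensional ℚ K] [Normal ℚ K]

theorem smul_bcPic0_eq (τ : GQ) (x : Pic0 K (FK N K)) :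
    τ • bcPic0 N K x = bcPic0 N K (galK N K τ • x) :=
  (bcPic0_smul N K τ x).symm

/-- The depth contract of `Abstract40` over one field, for `JL n := bcPic0 (C n)`. -/
theorem CartPkg.depthContract (P : CartPkg p N I cyc Kpush K) :
    DepthContract p P.d I cyc Kpush fun n => (P.C n).map (bcPic0 N K) where
  one_le := P.one_le
  anti n := AddSubgroup.map_mono (P.anti n)
  T5 n hn hnd x hx hpx hK := by
    obtain ⟨y, hy, rfl⟩ := hx
    have hpy : p • y = 0 := by
      apply bcPic0_injective N K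
      rw [map_nsmul, map_zero]
      exact hpx
    exact ⟨y, P.T5 n hn hnd y hy hpy hK, rfl⟩
  T1 τ hτ c hc x hx := by
    obtain ⟨y, hy, rfl⟩ := hx
    refine ⟨galK N K τ • y - c • y, P.T1 τ hτ c hc y hy, ?_⟩
    rw [map_sub, map_nsmul, ← smul_bcPic0_eq]
  T7 x hx hpx := by
    obtain ⟨y, hy, rfl⟩ := hx
    have hpy : p • y = 0 := by
      apply bcPic0_injective N K
      rw [map_nsmul, map_zero]
      exact hpx
    rw [P.T7 y hy hpy, map_zero]

end OneField

/-! ### The field system -/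

theorem range_bcPic0_mono {K K' : IntermediateField ℚ Qbar} [FiniteDimensional ℚ K]
    [FiniteDimensional ℚ K'] (h : K ≤ K') : (bcPic0 N K).range ≤ (bcPic0 N K').range := by
  intro v hv
  rw [mem_range_bcPic0_iff] at hv ⊢
  exact fun σ hσ => hv σ fun a ha => hσ a (h ha)

/-- Every class of `J₀(N)(ℚ̄)` is rational over a member of `Fld K₀`. -/
theorem exists_mem_range [FiniteDimensional ℚ K₀] (x : JZero N) :
    ∃ i : Fld K₀, x ∈ (bcPic0 N i.K).range := by
  obtain ⟨L, hL, hfix⟩ := Fermat.Agent.ES.GAL.OpenStab12.hasLevel_pic0 N x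
  haveI := hL
  obtain ⟨i, hi⟩ := Fld.exists_ge (K₀ := K₀) L
  refine ⟨i, ?_⟩
  rw [mem_range_bcPic0_iff]
  exact fun σ hσ => hfix σ fun a ha => hσ a (hi ha)

/-- **The field system on `J₀(N)(ℚ̄)`** from the per-field packages and the base change
monotonicity of `J⁰` and `J_1` (CAR-BC). -/
def fieldSystem [FiniteDimensional ℚ K₀] [Normal ℚ K₀]
    (pkg : ∀ i : Fld K₀, CartPkg p N I cyc Kpush i.K)
    (mono0 : ∀ i j : Fld K₀, i ≤ j →
      ((pkg i).C 0).map (bcPic0 N i.K) ≤ ((pkg j).C 0).map (bcPic0 N j.K))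
    (mono1 : ∀ i j : Fld K₀, i ≤ j →
      ((pkg i).C 1).map (bcPic0 N i.K) ≤ ((pkg j).C 1).map (bcPic0 N j.K)) :
    FieldSystem (J := JZero N) p I cyc Kpush (Fld K₀) where
  Rat i := (bcPic0 N i.K).range
  J0 i := ((pkg i).C 0).map (bcPic0 N i.K)
  JL i n := ((pkg i).C n).map (bcPic0 N i.K)
  d i := (pkg i).d
  cover _ x _ := exists_mem_range x
  Rat_mono i j hij := range_bcPic0_mono hij
  J0_le_Rat i := by
    rintro _ ⟨y, -, rfl⟩
    exact ⟨y, rfl⟩
  J0_mono := mono0
  J1_mono := mono1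
  Gc i σ hσ x hx := by
    obtain ⟨y, rfl⟩ := hx
    refine ⟨galK N i.K σ • y - y, (pkg i).Gc σ hσ y, ?_⟩
    rw [map_sub, ← smul_bcPic0_eq]
  Gd i σ hσ x hx := by
    obtain ⟨y, hy, rfl⟩ := hx
    refine ⟨galK N i.K σ • y - y, (pkg i).Gd σ hσ y hy, ?_⟩
    rw [map_sub, ← smul_bcPic0_eq]
  contract i := (pkg i).depthContract

end

end Fermat.Agent.ORD.Geo.System20
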