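/-
ORD (S33), chapter G (GeoData), brick G3, layer B -- helper20.

**The per-field Cart-level package `System20.CartPkg` for a nodal two-chart model over `A ∩ K`**,
`K ⊂ ℚ̄` an arbitrary finite normal field containing `μ_p`:

  `C n := Cart ϖ B0 B1 O1 O2 _ _ n`,   `d := e_K / (p - 1)`  (`ζ_p - 1 ~ ϖ ^ d`),

from
* `Nd : NodalNumData (A ∩ K) K (K·F_N) ϖ t B0 B1 O1 O2` (model of record:
  `ES/N34/ModelEnd4.modelInput_four`, every large normal `K`, ramified or not);
* `hσ : ∀ τ ∈ I_A, SigmaData ϖ t O1 O2 (galK N K τ)` (`ES/N34/GalModel21.sigmaDataN`);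
* `H : ModelHyp Nd p Kpush` : the model-side facts which are supplied by other bricks
  (`hac_j` FIB/ACModel98, `hnode` Fib/NodeExists49, `hnodes_i` + `loc` from thick nodes
  (`ModelHyp.of_thickNodes`: `Fib/SemiLocal98` + `ORD/Geo/LocAll97`), `htor` NRM/HtorPush88 + G3c).

`hperf` (perfect residue field) is discharged here: the residue field of `A ∩ K` is finite
(`NumberFieldDVR27.finite_residueField_AK`, `ClimbFin15.hperf_of_finite`).

(Gc), (Gd), (T1'') are `Geo/SigmaCart20`; (T5'), (T7') are `M1/Car/TorsInst15` (as in `Geo/Climb15`).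
-/
import Mathlib
import Fermat.Agent.ORD.Geo.System20
import Fermat.Agent.ORD.Geo.SigmaCart20
import Fermat.Agent.ORD.Geo.ClimbFin15
import Fermat.Agent.ORD.Geo.LocAll97
import Fermat.Agent.M1.Fib.SemiLocal98

set_option autoImplicit false
set_option linter.unusedSectionVars false
set_option linter.style.haveILetI false
set_option synthInstance.maxHeartbeats 400000
set_option maxHeartbeats 2000000

open AlgebraicCurve ModularCurve IntermediateField

namespace Fermat.Agent.ORD.Geo.CartPkg20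

open Fermat.Agent.RED.Interface4 Fermat.Agent.RED.PUR.GaussGen8
  Fermat.Agent.RED.DESC.NumberFieldDVR27
  Fermat.Agent.ES.N34.NodalCore13 Fermat.Agent.ES.N34.NumData13
  Fermat.Agent.ES.N34.GalChart21 Fermat.Agent.ES.N34.GalBase21
  Fermat.Agent.M1.Car.Defs43 Fermat.Agent.M1.Car.TorsClass43 Fermat.Agent.M1.Car.TorsInst15
  Fermat.Agent.M1.Car.RatClass25 Fermat.Agent.M1.Car.RatMain25
  Fermat.Agent.M1.Fib.Branch98 Fermat.Agent.M1.Fib.Constants98 Fermat.Agent.M1.Fib.H0k98
  Fermat.Agent.M1.Fib.Seminormal98 Fermat.Agent.M1.Pic2.Defs60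
  Fermat.Agent.M1.Ram.TameGen20 Fermat.Agent.M1.Ram.WildCyclic20
  Fermat.Agent.ORD.Geo.System20 Fermat.Agent.ORD.Geo.SigmaCart20
  Fermat.Agent.ORD.Geo.InertiaAK20 Fermat.Agent.ORD.Geo.Climb15

noncomputable section

local notation "GQ" => (Qbar ≃ₐ[ℚ] Qbar)

/-! Shortcuts to the instances found (slowly: ~20 s each) by instance search. -/

local instance (priority := 5000) algKFK20b (M : ℕ) (K : IntermediateField ℚ Qbar) :
    Algebra K (FK M K) := SubalgebraClass.toAlgebra (FK M K)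

local instance (priority := 5000) modKFK20b (M : ℕ) (K : IntermediateField ℚ Qbar) :
    Module K (FK M K) := Algebra.toModule

local instance (priority := 5000) smulKFK20b (M : ℕ) (K : IntermediateField ℚ Qbar) :
    SMul K (FK M K) := Algebra.toSMul

local instance (priority := 5000) algAKFK20b (A : ValuationSubring Qbar)
    (K : IntermediateField ℚ Qbar) (M : ℕ) : Algebra (AK A K) (FK M K) :=
  Algebra.ofSubsemiring (AK A K)

local instance (priority := 5000) modAKFK20b (A : ValuationSubring Qbar)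
    (K : IntermediateField ℚ Qbar) (M : ℕ) : Module (AK A K) (FK M K) := Algebra.toModule

local instance (priority := 5000) smulAKFK20b (A : ValuationSubring Qbar)
    (K : IntermediateField ℚ Qbar) (M : ℕ) : SMul (AK A K) (FK M K) := Algebra.toSMul

variable {A : ValuationSubring Qbar} {K : IntermediateField ℚ Qbar} {N : ℕ}

/-- The scalar tower `A ∩ K → K → K·F_N`. -/
local instance towerAK20 : IsScalarTower (AK A K) K (FK N K) :=
  IsScalarTower.of_algebraMap_eq fun _ => rfl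

/-- A uniformiser in the sense of `GaussGen8` is one in the sense of `TameGen20`. -/
theorem isUnifAK_of_isUnif {ϖ : AK A K} (hϖ : IsUnif (AK A K) ϖ) : IsUnifAK A K ϖ :=
  ⟨fun x => by
    rw [← mem_nonunits_iff, ← IsLocalRing.mem_maximalIdeal, hϖ.max_eq, Ideal.mem_span_singleton],
    hϖ.ne_zero⟩

variable [FiniteDimensional ℚ K] [Normal ℚ K] [NeZero N]

/-- The residue field of `A ∩ K` is perfect (it is finite). -/
theorem hperf_AK {p : ℕ} (hp : p.Prime) (hA : A.LiesOverPrime p) {ϖ : AK A K}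
    (hϖ : IsUnif (AK A K) ϖ) : ∀ r : AK A K, ∃ ρ : AK A K, ϖ ∣ ρ ^ p - r := by
  have hmax : (Ideal.span {ϖ} : Ideal (AK A K)).IsMaximal :=
    hϖ.max_eq ▸ IsLocalRing.maximalIdeal.isMaximal _
  have hfin : Finite (AK A K ⧸ (Ideal.span {ϖ} : Ideal (AK A K))) := by
    have h1 : Finite (IsLocalRing.ResidueField (AK A K)) :=
      finite_residueField_AK A K hp.ne_zero hA
    rw [← hϖ.max_eq]
    exact h1
  have hpϖ : ϖ ∣ ((p : ℕ) : AK A K) := by
    rw [← Ideal.mem_span_singleton, ← hϖ.max_eq]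
    exact natCast_mem_maximalIdeal A K hA
  exact Fermat.Agent.ORD.Geo.ClimbFin15.hperf_of_finite hmax hp hpϖ

/-- **(htor) over `K`**: the leading coefficient of a `p`-torsion class of level `n ≥ 1` killed by
the pushes is toric. -/
def HtorAt {ϖ : AK A K} {t : FK N K} {B0 B1 : Subalgebra (AK A K) (FK N K)}
    {O1 O2 : ValuationSubring (FK N K)}
    (Nd : NodalNumData (AK A K) K (FK N K) ϖ t B0 B1 O1 O2)
    (hac1 : ResidueAlgClosed ϖ O1) (hac2 : ResidueAlgClosed ϖ O2)
    (hnode : HasNode ϖ B0 B1 O1 O2) (p : ℕ) (Kpush : AddSubgroup (JZero N)) : Prop :=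
  ∀ n : ℕ, 1 ≤ n → ∀ D : Divisor.degZero (K := K) (F := FK N K),
    HasLevel ϖ B0 B1 O1 O2 n (D : Divisor K (FK N K)) → p • Pic0.mk D = 0 →
    bcPic0 N K (Pic0.mk D) ∈ Kpush →
    ∃ c, HasLead (algebraMap (AK A K) (FK N K) ϖ) n
        ((torsFrame_of_numData Nd hac1 hac2 hnode).pair (D : Divisor K (FK N K))) c ∧
      Fermat.Agent.M1.Pic2.ToricPic15.IsToric ϖ B0 B1 O1 O2 c

/-- **The model-side hypotheses supplied by other bricks.** -/
structure ModelHyp {ϖ : AK A K} {t : FK N K} {B0 B1 : Subalgebra (AK A K) (FK N K)}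
    {O1 O2 : ValuationSubring (FK N K)}
    (Nd : NodalNumData (AK A K) K (FK N K) ϖ t B0 B1 O1 O2) (p : ℕ)
    (Kpush : AddSubgroup (JZero N)) : Prop where
  /-- the residue fields of the two components are algebraically closed in the relevant sense -/
  hac1 : ResidueAlgClosed ϖ O1
  hac2 : ResidueAlgClosed ϖ O2
  /-- the two components meet -/
  hnode : HasNode ϖ B0 B1 O1 O2
  /-- the nodes are seminormal -/
  hnodes0 : ∀ 𝔪 : Ideal B0, IsNode ϖ B0 O1 O2 𝔪 → NodeSumAt ϖ B0 O1 O2 𝔪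
  hnodes1 : ∀ 𝔪 : Ideal B1, IsNode ϖ B1 O1 O2 𝔪 → NodeSumAt ϖ B1 O1 O2 𝔪
  /-- every divisor has local equations (up to vertical components) at the closed points of the
  special fibre -/
  loc : ∀ (D : Divisor K (FK N K)) (B : Subalgebra (AK A K) (FK N K)), B = B0 ∨ B = B1 →
    ∀ 𝔪 : Ideal B, 𝔪.IsMaximal → algebraMap (AK A K) B ϖ ∈ 𝔪 → ∃ h, IsLocEq B 𝔪 D h
  /-- the leading coefficient of a `p`-torsion class killed by the pushes is toric -/
  htor : HtorAt Nd hac1 hac2 hnode p Kpush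

/-- **`ModelHyp` from thick nodes**: `hnodes_i` is `SemiLocal98.nodeSumAt_of_thickNodes`, `loc` is
`LocAll97.loc_special`. -/
theorem ModelHyp.of_thickNodes {ϖ : AK A K} {t : FK N K} {B0 B1 : Subalgebra (AK A K) (FK N K)}
    {O1 O2 : ValuationSubring (FK N K)}
    (Nd : NodalNumData (AK A K) K (FK N K) ϖ t B0 B1 O1 O2) {p : ℕ}
    {Kpush : AddSubgroup (JZero N)} {e : ℕ}
    (hac1 : ResidueAlgClosed ϖ O1) (hac2 : ResidueAlgClosed ϖ O2)
    (hnode : HasNode ϖ B0 B1 O1 O2)
    (hth : Fermat.Agent.M1.Car.NodeFrame58.ThickNodes ϖ B0 B1 O1 O2 e)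
    (htor : HtorAt Nd hac1 hac2 hnode p Kpush) : ModelHyp Nd p Kpush where
  hac1 := hac1
  hac2 := hac2
  hnode := hnode
  hnodes0 := (Fermat.Agent.M1.Fib.SemiLocal98.nodeSumAt_of_thickNodes hth).1
  hnodes1 := (Fermat.Agent.M1.Fib.SemiLocal98.nodeSumAt_of_thickNodes hth).2
  loc := fun D => Fermat.Agent.ORD.Geo.LocAll97.loc_special Nd hth D
  htor := htor

variable {p : ℕ} {ϖ : AK A K} {t : FK N K} {B0 B1 : Subalgebra (AK A K) (FK N K)}
  {O1 O2 : ValuationSubring (FK N K)}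

/-- **The Cart-level package over `K` for a nodal two-chart model.** -/
def cartPkg (hp : p.Prime) (hA : A.LiesOverPrime p) (hϖ : IsUnif (AK A K) ϖ)
    (Nd : NodalNumData (AK A K) K (FK N K) ϖ t B0 B1 O1 O2)
    (hσ : ∀ τ ∈ A.inertiaSubgroupIn ℚ,
      SigmaData ϖ t O1 O2 (SemilinearAut.toRingAut (Fermat.Agent.M1.Car.RatMain25.galK N K τ)))
    {ζ : Qbar} (hζK : ζ ∈ K) (hζ : ζ ^ p = 1) (hζ1 : ζ ≠ 1)
    (Kpush : AddSubgroup (JZero N)) (H : ModelHyp Nd p Kpush) :
    CartPkg p N (↑(A.inertiaSubgroupIn ℚ) : Set GQ)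
      (fun σ c => ∀ η : Qbar, η ^ p = 1 → σ η = η ^ c) Kpush K :=
  have hu : IsUnifAK A K ϖ := isUnifAK_of_isUnif hϖ
  have hex := exists_threshold hu hp hA hζK hζ hζ1
  have hd0 : Classical.choose hex ≠ 0 := (Classical.choose_spec hex).1
  have hd := (Classical.choose_spec hex).2.1
  have hpe := (Classical.choose_spec hex).2.2
  { C := fun n => Cart ϖ B0 B1 O1 O2 (const_mem1 Nd.model ϖ) (const_mem2 Nd.model ϖ) n
    d := Classical.choose hex
    one_le := Nat.one_le_iff_ne_zero.mpr hd0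
    anti := fun n => cart_anti (Nat.le_succ n)
    Gc := fun τ hτ x => by
      obtain ⟨D, rfl⟩ := Pic0.mk_surjective x
      exact smul_sub_mem_cart_zero_of_sigmaData Nd.model (hσ τ hτ) D (H.loc D)
    Gd := fun τ hτ x hx => smul_sub_mem_cart_one_of_sigmaData Nd.model (hσ τ hτ) hx
    T1 := fun τ hτ c hc x hx =>
      inertia_smul_sub_nsmul_mem_cart_of_sigmaData Nd.model (hσ τ hτ) hu hp hτ hζK hζ hζ1 c
        (hc ζ hζ) hd0 hd (galK_smul_algebraMap hτ N) hx
    T5 := fun n hn hnd x hx hpx hK => by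
      obtain ⟨u, hu'⟩ := hpe
      obtain ⟨D, rfl, hD⟩ := hx
      have hpeR : ((p : ℕ) : AK A K) = ϖ ^ (Classical.choose hex * (p - 1)) * u := hu'.symm
      exact cart_succ_of_toric_of_numData Nd H.hac1 H.hac2 H.hnode H.hnodes0 H.hnodes1 hp u hpeR
        (hperf_AK hp hA hϖ) hn (mul_lt_add hp.two_le rfl hnd) D hD hpx (H.htor n hn D hD hpx hK)
    T7 := fun x hx hpx => by
      obtain ⟨u, hu'⟩ := hpe
      have hpeR : ((p : ℕ) : AK A K) = ϖ ^ (Classical.choose hex * (p - 1)) * u := hu'.symm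
      exact cart_torsion_free_of_numData Nd H.hac1 H.hac2 H.hnode hp u hpeR
        (Nat.succ_le_succ (Nat.zero_le _)) (succ_add_lt hp.two_le rfl) hx hpx }

end

end Fermat.Agent.ORD.Geo.CartPkg20
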