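/-
ORD (S33), chapter G, brick G4 = Geo/Lvl (L2 + L3) — helper91.

**`GeoLite40.GeoStmtLite` from ONE `Abstract40.FieldSystem` per auxiliary level `M'' p`, `4 ∣ M''`.**

* `cyc p σ c` : "`σ` acts on `μ_p` through `ζ ↦ ζ ^ c`";
* `Kpush hp hpM` : the common kernel of `alphaPush`, `betaPush : J₀(M p) → J₀(M)` (ES/N35/PushO12);
* `geoDataLiteOfFieldSystem` : a `FieldSystem` on `J₀(M p)` with `Γ := G_ℚ`, `I := I_P`, `cyc p`,
  `Kpush` gives `GeoDataLite p (M p) M P` (`J0 := ⨆ J0 i`, `J1 := ⨆ JL i 1`);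
* `levelPullback_lcm_four_eq_zero` (L3): `π^* : J₀(M p) → J₀(lcm(M,4) p)` is injective on torsion;
* `geoDataLite_of_aux` : transfer from the level `lcm(M,4) p` to the level `M p`
  (`GeoDataLite.ofAux` + `M1/Lvl/LevelOps47.levelPullback_alphaPush/_betaPush` +
  `PullbackInj12.levelPullback_smul`);
* `geoStmtLite_of_fieldSystems` : the final statement.
-/
import Mathlib
import Fermat.Agent.ORD.Spec.GeoLite40
import Fermat.Agent.ORD.Geo.Abstract40
import Fermat.Agent.M1.Lvl.LevelOps47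
import Fermat.Agent.ES.N35.TateFrob12
import Fermat.Agent.ES.RED.PullbackInj12

set_option autoImplicit false
set_option linter.unusedSectionVars false
set_option linter.style.haveILetI false

noncomputable section

namespace Fermat.Agent.ORD.Geo.Lvl91

open ModularCurve AlgebraicCurve
open Fermat.Agent.ES.N35.PushO12 Fermat.Agent.ES.N35.TateFrob12
open Fermat.Agent.ES.HECKE.LevelPullback12 Fermat.Agent.ES.RED.PullbackInj12
open Fermat.Agent.ORD.Geo.Abstract40 Fermat.Agent.ORD.Spec.Spec40 Fermat.Agent.ORD.Spec.GeoLite40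
open Fermat.Agent.M1.Lvl.LevelOps47

local notation "Qb" => AlgebraicClosure ℚ
local notation "GQ" => (AlgebraicClosure ℚ ≃ₐ[ℚ] AlgebraicClosure ℚ)

/-- "`σ` acts on `μ_p` through `ζ ↦ ζ ^ c`". -/
def cyc (p : ℕ) : GQ → ℕ → Prop := fun σ c => ∀ ζ : Qb, ζ ^ p = 1 → σ ζ = ζ ^ c

variable {p M : ℕ} [NeZero M] [NeZero p]

/-- the common kernel of the two degeneracy push-forwards `J₀(M p) → J₀(M)`. -/
def Kpush (hp : p.Prime) (hpM : ¬ p ∣ M) : AddSubgroup (JZero (M * p)) :=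
  (alphaPush hp hpM).ker ⊓ (betaPush hp hpM).ker

theorem mem_Kpush (hp : p.Prime) (hpM : ¬ p ∣ M) (x : JZero (M * p)) :
    x ∈ Kpush hp hpM ↔ alphaPush hp hpM x = 0 ∧ betaPush hp hpM x = 0 := by
  rw [Kpush, AddSubgroup.mem_inf, AddMonoidHom.mem_ker, AddMonoidHom.mem_ker]

/-- **GeoDataLite at the level of the `FieldSystem`.** -/
def geoDataLiteOfFieldSystem (hp : p.Prime) (hpM : ¬ p ∣ M) (P : ValuationSubring Qb)
    {ι : Type*} [Preorder ι] [IsDirected ι (· ≤ ·)] [Nonempty ι]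
    (S : FieldSystem (J := JZero (M * p)) (Γ := GQ) p
      (↑(P.inertiaSubgroupIn ℚ) : Set GQ) (cyc p) (Kpush hp hpM) ι) :
    GeoDataLite p (M * p) M P where
  pα := alphaPush hp hpM
  pβ := betaPush hp hpM
  pα_galois σ x := alphaPush_smul hp hpM σ x
  pβ_galois σ x := betaPush_smul hp hpM σ x
  J0 := ⨆ i, S.J0 i
  J1 := ⨆ i, S.JL i 1
  G2 σ hσ k x hx := S.G2 σ hσ k x hx
  G3 σ hσ _ x _ hx0 := S.G3 σ hσ x hx0
  G4 x hx1 hpx hαx hβx σ hσ c hc :=
    S.G4 x hx1 hpx ((mem_Kpush hp hpM x).mpr ⟨hαx, hβx⟩) σ hσ c hc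

/-! ### (L3) injectivity of `π^*` on torsion at the auxiliary level `lcm(M,4) p` -/

theorem lcm_mul_four (hp : p.Prime) (hp2 : p ≠ 2) (M : ℕ) :
    Nat.lcm (M * p) 4 = Nat.lcm M 4 * p := by
  have hcop : Nat.Coprime p 4 := by
    have h22 : (4 : ℕ) = 2 ^ 2 := by norm_num
    rw [h22]
    exact Nat.Coprime.pow_right 2 ((Nat.coprime_primes hp Nat.prime_two).mpr hp2)
  have hg : Nat.gcd (M * p) 4 = Nat.gcd M 4 := Nat.Coprime.gcd_mul_right_cancel M hcop
  have h1 := Nat.gcd_mul_lcm (M * p) 4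
  have h2 := Nat.gcd_mul_lcm M 4
  rw [hg] at h1
  have hgpos : 0 < Nat.gcd M 4 := Nat.gcd_pos_of_pos_right M (by norm_num)
  apply Nat.eq_of_mul_eq_mul_left hgpos
  rw [h1, ← mul_assoc, h2]
  ring

theorem not_dvd_lcm_four (hp : p.Prime) (hp2 : p ≠ 2) (hpM : ¬ p ∣ M) : ¬ p ∣ Nat.lcm M 4 := by
  intro h
  have h4 : ¬ p ∣ 4 := by
    intro h4
    have h22 : (4 : ℕ) = 2 ^ 2 := by norm_num
    rw [h22] at h4
    exact hp2 ((Nat.prime_dvd_prime_iff_eq hp Nat.prime_two).mp (hp.dvd_of_dvd_pow h4))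
  have := (Nat.Prime.dvd_mul hp).mp (h.trans (Nat.lcm_dvd_mul M 4))
  exact this.elim hpM h4

instance neZero_lcm_four (M : ℕ) [NeZero M] : NeZero (Nat.lcm M 4) :=
  ⟨Nat.lcm_ne_zero (NeZero.ne M) (by norm_num)⟩

open Fermat.Agent.RED.Interface4 Fermat.Agent.RED.BASE.Interface12 Fermat.Agent.RED.LVL in
/-- **(L3)**: `π^* : J₀(M p) → J₀(lcm(M,4) p)` is injective on torsion (`p` odd). -/
theorem levelPullback_lcm_four_eq_zero (hp : p.Prime) (hp2 : p ≠ 2) (m : ℕ) (hm : 0 < m)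
    (x : JZero (M * p)) (hmx : m • x = 0)
    (hx : levelPullback (mul_dvd_mul_right (Nat.dvd_lcm_left M 4) p) x = 0) : x = 0 := by
  obtain ⟨e, he⟩ := Nat.dvd_lcm_left M 4
  have hM0 : 0 < M := Nat.pos_of_ne_zero (NeZero.ne M)
  have hp0 : 0 < p := hp.pos
  haveI : NeZero e := ⟨fun h0 => NeZero.ne (Nat.lcm M 4) (by rw [he, h0, mul_zero])⟩
  have hM : Nat.lcm M 4 * p = M * p * e := by rw [he]; ring
  have haux : auxLevel p (M * p) = Nat.lcm M 4 * p := by
    unfold auxLevel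
    rw [if_neg hp2, lcm_mul_four hp hp2 M]
  have hdiv : Nat.lcm M 4 * p / (M * p) = e := by
    rw [hM]
    exact Nat.mul_div_cancel_left e (Nat.mul_pos hM0 hp0)
  have hdeg := LevelDegree17.relfinrank_auxLevel_lt p (M * p)
  rw [haux, hdiv] at hdeg
  exact levelPullback_eq_zero_of_degree e hM hdeg m hm x hmx hx

/-! ### Transfer to the level `M p` -/

/-- **GeoDataLite at level `M p` from GeoDataLite at level `M'' p`** whose pushes are the concrete
`alphaPush`, `betaPush` (`M ∣ M''`, `p ∤ M''`, `π^*` injective on `p`-torsion). -/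
def geoDataLite_of_aux {M'' : ℕ} [NeZero M''] (hp : p.Prime) (hpM'' : ¬ p ∣ M'') (h : M ∣ M'')
    (P : ValuationSubring Qb) (G₂ : GeoDataLite p (M'' * p) M'' P)
    (hGα : G₂.pα = alphaPush hp hpM'') (hGβ : G₂.pβ = betaPush hp hpM'')
    (hinj : ∀ x : JZero (M * p), p • x = 0 →
      levelPullback (mul_dvd_mul_right h p) x = 0 → x = 0) :
    GeoDataLite p (M * p) M P :=
  G₂.ofAux (levelPullback (mul_dvd_mul_right h p)) (levelPullback h)
    (fun σ x => levelPullback_smul (mul_dvd_mul_right h p) σ x) hinj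
    (alphaPush hp (fun hd => hpM'' (hd.trans h))) (betaPush hp (fun hd => hpM'' (hd.trans h)))
    (fun σ x => alphaPush_smul hp _ σ x) (fun σ x => betaPush_smul hp _ σ x)
    (fun x => by rw [hGα]; exact (levelPullback_alphaPush h hp hpM'' x).symm)
    (fun x => by rw [hGβ]; exact (levelPullback_betaPush h hp hpM'' x).symm)

/-- **Chapter G, final reduction**: ONE `FieldSystem` on `J₀(M'' p)` for every `M''` with `4 ∣ M''`,
`p ∤ M''` (with `Γ := G_ℚ`, `I := I_P`, `cyc p`, `Kpush`) gives `GeoStmtLite`. -/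
theorem geoStmtLite_of_fieldSystems
    (hS : ∀ (p : ℕ) [NeZero p] (hp : p.Prime) (_hp2 : p ≠ 2) (M'' : ℕ) [NeZero M'']
      (hpM'' : ¬ p ∣ M'') (_h4 : 4 ∣ M'') (P : ValuationSubring Qb) (_hP : P.LiesOverPrime p),
      ∃ (ι : Type) (_ : Preorder ι) (_ : IsDirected ι (· ≤ ·)) (_ : Nonempty ι),
        Nonempty (FieldSystem (J := JZero (M'' * p)) (Γ := GQ) p
          (↑(P.inertiaSubgroupIn ℚ) : Set GQ) (cyc p) (Kpush hp hpM'') ι)) :
    GeoStmtLite := by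
  intro p hp hp2 M _ hpM N _ hN P hP
  subst hN
  haveI : NeZero p := ⟨hp.ne_zero⟩
  have hpM'' : ¬ p ∣ Nat.lcm M 4 := not_dvd_lcm_four hp hp2 hpM
  obtain ⟨ι, _, _, _, ⟨S⟩⟩ := hS p hp hp2 (Nat.lcm M 4) hpM'' (Nat.dvd_lcm_right M 4) P hP
  exact ⟨geoDataLite_of_aux hp hpM'' (Nat.dvd_lcm_left M 4) P
    (geoDataLiteOfFieldSystem hp hpM'' P S) rfl rfl
    (fun x hpx hx => levelPullback_lcm_four_eq_zero hp hp2 p hp.pos x hpx hx)⟩

end Fermat.Agent.ORD.Geo.Lvl91
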