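/-
ORD (S33), chapter G, brick G3 (variant of `System20.fieldSystem`) — helper40.

**The `Abstract40.FieldSystem` on `J₀(N)(ℚ̄)` indexed by a COFINAL family of fields.**

`System20.fieldSystem` asks for a `CartPkg` over EVERY finite normal `K ⊇ K₀`.  The model chapters
only deliver the package over a cofinal family (RAT-NODES, helper73, report 1956: rationality of the
nodes is proved over `K₀' ⊔ ℚ(ζ_m)` for a suitable `m`, not over every inertial field).  Here:

* `GoodFam K₀` : a predicate `Good` on `Fld K₀` which is cofinal (`∀ i, ∃ j ≥ i, Good j`);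
* `GoodFam.Idx` : the directed, nonempty preorder of good fields;
* `fieldSystemOn` : the field system from packages over the good fields only.
-/
import Mathlib
import Fermat.Agent.ORD.Geo.System20

set_option autoImplicit false
set_option linter.unusedSectionVars false
set_option linter.style.haveILetI false

open AlgebraicCurve ModularCurve IntermediateField

namespace Fermat.Agent.ORD.Geo.SystemOn40

open Fermat.Agent.RED.Interface4 Fermat.Agent.M1.Car.RatClass25 Fermat.Agent.M1.Car.RatMain25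
  Fermat.Agent.ORD.Geo.Abstract40 Fermat.Agent.ORD.Geo.System20

noncomputable section

local notation "GQ" => (Qbar ≃ₐ[ℚ] Qbar)

/-- A cofinal family of finite normal fields containing `K₀`. -/
structure GoodFam (K₀ : IntermediateField ℚ Qbar) where
  /-- the good fields -/
  Good : Fld K₀ → Prop
  cofinal : ∀ i : Fld K₀, ∃ j : Fld K₀, i ≤ j ∧ Good j

variable {K₀ : IntermediateField ℚ Qbar}

/-- The index type: the good fields. -/
def GoodFam.Idx (G : GoodFam K₀) : Type := {i : Fld K₀ // G.Good i}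

instance (G : GoodFam K₀) : Preorder G.Idx := Preorder.lift fun i => i.1

theorem GoodFam.le_def (G : GoodFam K₀) (i j : G.Idx) : i ≤ j ↔ i.1 ≤ j.1 := Iff.rfl

instance (G : GoodFam K₀) : IsDirected G.Idx (· ≤ ·) :=
  ⟨fun a b => by
    obtain ⟨j, hj, hg⟩ := G.cofinal (a.1.sup b.1)
    have ha : a.1 ≤ a.1.sup b.1 := (le_sup_left : a.1.K ≤ a.1.K ⊔ b.1.K)
    have hb : b.1 ≤ a.1.sup b.1 := (le_sup_right : b.1.K ≤ a.1.K ⊔ b.1.K)
    exact ⟨⟨j, hg⟩, (le_trans ha hj : a.1 ≤ j), (le_trans hb hj : b.1 ≤ j)⟩⟩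

instance (G : GoodFam K₀) [FiniteDimensional ℚ K₀] [Normal ℚ K₀] : Nonempty G.Idx := by
  obtain ⟨j, -, hg⟩ := G.cofinal (Fld.base K₀)
  exact ⟨⟨j, hg⟩⟩

instance (G : GoodFam K₀) (i : G.Idx) : FiniteDimensional ℚ i.1.K := i.1.fin

instance (G : GoodFam K₀) (i : G.Idx) : Normal ℚ i.1.K := i.1.normal

variable {p N : ℕ} [NeZero N] {I : Set GQ} {cyc : GQ → ℕ → Prop} {Kpush : AddSubgroup (JZero N)}

/-- Every class of `J₀(N)(ℚ̄)` is rational over a good field. -/
theorem exists_mem_range_good [FiniteDimensional ℚ K₀] (G : GoodFam K₀) (x : JZero N) :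
    ∃ i : G.Idx, x ∈ (bcPic0 N i.1.K).range := by
  obtain ⟨i, hi⟩ := exists_mem_range (K₀ := K₀) x
  obtain ⟨j, hij, hg⟩ := G.cofinal i
  exact ⟨⟨j, hg⟩, range_bcPic0_mono hij hi⟩

/-- **The field system on `J₀(N)(ℚ̄)` over a cofinal family of fields.** -/
def fieldSystemOn [FiniteDimensional ℚ K₀] [Normal ℚ K₀] (G : GoodFam K₀)
    (pkg : ∀ i : G.Idx, CartPkg p N I cyc Kpush i.1.K)
    (mono0 : ∀ i j : G.Idx, i ≤ j →
      ((pkg i).C 0).map (bcPic0 N i.1.K) ≤ ((pkg j).C 0).map (bcPic0 N j.1.K))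
    (mono1 : ∀ i j : G.Idx, i ≤ j →
      ((pkg i).C 1).map (bcPic0 N i.1.K) ≤ ((pkg j).C 1).map (bcPic0 N j.1.K)) :
    FieldSystem (J := JZero N) p I cyc Kpush G.Idx where
  Rat i := (bcPic0 N i.1.K).range
  J0 i := ((pkg i).C 0).map (bcPic0 N i.1.K)
  JL i n := ((pkg i).C n).map (bcPic0 N i.1.K)
  d i := (pkg i).d
  cover _ x _ := exists_mem_range_good G x
  Rat_mono i j hij := range_bcPic0_mono hij
  J0_le_Rat i := by
    rintro _ ⟨y, -, rfl⟩
    exact ⟨y, rfl⟩
  J0_mono := mono0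
  J1_mono := mono1
  Gc i σ hσ x hx := by
    obtain ⟨y, rfl⟩ := hx
    refine ⟨galK N i.1.K σ • y - y, (pkg i).Gc σ hσ y, ?_⟩
    rw [map_sub, ← smul_bcPic0_eq]
  Gd i σ hσ x hx := by
    obtain ⟨y, hy, rfl⟩ := hx
    refine ⟨galK N i.1.K σ • y - y, (pkg i).Gd σ hσ y hy, ?_⟩
    rw [map_sub, ← smul_bcPic0_eq]
  contract i := (pkg i).depthContract

end

end Fermat.Agent.ORD.Geo.SystemOn40
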