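/-
ORD (S33), chapter G, top wiring — helper40.

`GeoStmtLite` from per-field packages over a COFINAL family of fields at the auxiliary level
`M₂ p` (`4 ∣ M₂`, `p ∤ M₂`):  `SystemOn40.fieldSystemOn` (G3) + `Lvl91.geoStmtLite_of_fieldSystems`
(G4, helper91).

* `GeoPkgStmt`     : the statement chapter G3 has to deliver (for every `p`, `M₂`, `P`): a finite
  normal `K₀`, a cofinal family `G` of finite normal fields containing it, a `System20.CartPkg`
  over every good field (`I := I_P`, `Lvl91.cyc p`, `Lvl91.Kpush hp hpM`), and the monotonicity of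
  `J⁰`, `J_1` along good `i ≤ j`;
* `geoStmtLite_of_pkgs` : `GeoPkgStmt → GeoStmtLite`.
-/
import Mathlib
import Fermat.Agent.ORD.Geo.SystemOn40
import Fermat.Agent.ORD.Geo.Lvl91

set_option autoImplicit false
set_option synthInstance.maxHeartbeats 400000
set_option linter.unusedSectionVars false
set_option linter.style.haveILetI false

open ModularCurve AlgebraicCurve IntermediateField

noncomputable section

namespace Fermat.Agent.ORD.Geo.GeoTop40

open Fermat.Agent.ORD.Spec.GeoLite40 Fermat.Agent.ORD.Geo.Abstract40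
open Fermat.Agent.ORD.Geo.System20 Fermat.Agent.ORD.Geo.SystemOn40 Fermat.Agent.ORD.Geo.Lvl91
open Fermat.Agent.M1.Car.RatClass25 Fermat.Agent.M1.Car.RatMain25

local notation "Qb" => AlgebraicClosure ℚ
local notation "GQ" => (AlgebraicClosure ℚ ≃ₐ[ℚ] AlgebraicClosure ℚ)

/-- **What chapter G3 delivers**: for every odd `p`, every `M₂` with `4 ∣ M₂`, `p ∤ M₂`, every place
`P ∣ p`: a finite normal `K₀`, a cofinal family of finite normal fields containing it, the Cart-level
packages over the good fields and the monotonicity of `J⁰`, `J_1`. -/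
def GeoPkgStmt : Prop :=
  ∀ (p : ℕ) [NeZero p] (hp : p.Prime) (_hp2 : p ≠ 2) (M₂ : ℕ) [NeZero M₂] (hpM : ¬ p ∣ M₂)
    (_h4 : 4 ∣ M₂) (P : ValuationSubring Qb) (_hP : P.LiesOverPrime p),
    ∃ (K₀ : IntermediateField ℚ Qb) (_ : FiniteDimensional ℚ K₀) (_ : Normal ℚ K₀)
      (G : GoodFam K₀)
      (pkg : ∀ i : G.Idx, CartPkg p (M₂ * p) (↑(P.inertiaSubgroupIn ℚ) : Set GQ) (cyc p)
        (Kpush hp hpM) i.1.K),
      (∀ i j : G.Idx, i ≤ j → ((pkg i).C 0).map (bcPic0 (M₂ * p) i.1.K) ≤
        ((pkg j).C 0).map (bcPic0 (M₂ * p) j.1.K)) ∧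
      (∀ i j : G.Idx, i ≤ j → ((pkg i).C 1).map (bcPic0 (M₂ * p) i.1.K) ≤
        ((pkg j).C 1).map (bcPic0 (M₂ * p) j.1.K))

/-- **Chapter G, top**: `GeoStmtLite` from the per-field packages over cofinal families. -/
theorem geoStmtLite_of_pkgs (h : GeoPkgStmt) : GeoStmtLite :=
  geoStmtLite_of_fieldSystems fun p _ hp hp2 M₂ _ hpM h4 P hP => by
    obtain ⟨K₀, hfin, hnor, G, pkg, mono0, mono1⟩ := h p hp hp2 M₂ hpM h4 P hP
    haveI := hfin
    haveI := hnor
    exact ⟨G.Idx, inferInstance, inferInstance, inferInstance,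
      ⟨fieldSystemOn G pkg mono0 mono1⟩⟩

end Fermat.Agent.ORD.Geo.GeoTop40
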