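/-
ORD (S33), chapter G (GeoData), brick G3, final layer -- helper20.

**The per-field Cart-level packages and their base change monotonicity for the MODEL OF RECORD**
(`ES/N34/ModelDefs9`: `t = tN p ht`, charts `B0 A p ht`, `B1 A p ht`, Gauss rings `O1 M'' p hϖ hE`,
`O2 M'' p hϖ hE` over `A ∩ L`, `L ⊂ ℚ̄` finite normal), index-free: they feed
`System20.fieldSystem` (all fields `⊇ K₀`) as well as a field system indexed by a cofinal family.

* `PkgInputAt p M'' A Kpush L` : over `L` there are `ht`, `hE`, a uniformiser `ϖ` of `A ∩ L` and a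
  `NodalNumData` for the model of record satisfying `CartPkg20.ModelHyp`;
* `pkgOf` : the package `System20.CartPkg` over `L ∋ ζ_p` from `PkgInputAt` (`CartPkg20.cartPkg`,
  σ-side: `GalModel21.sigmaDataN`);
* `pkgOf_mono` : `(pkgOf h).C n` is increasing in `L` inside `J₀(M''p)(ℚ̄)`
  (`CartMono14.cart_map_bcPic0_mono`), for ANY two inputs over `L ≤ L'`;
* `fieldSystemOf` : the field system on `Fld K₀` (`K₀ ∋ ζ_p` finite normal) from `PkgInputAt` over
  every member of `Fld K₀`;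
* `exists_fieldSystem_on` : generic: a field system indexed by a COFINAL subfamily of `Fld K₀`
  (subtype of the good fields), from packages over the good fields and their monotonicity;
* `exists_fieldSystem_of_cofinal` : **the field system of the model of record from `PkgInputAt` over
  a cofinal family of finite normal fields**, in the literal shape of the hypothesis `hS` of
  `Lvl91.geoStmtLite_of_fieldSystems` (`∃ (ι : Type) (_ : Preorder ι) …, Nonempty (FieldSystem …)`);
  `exists_fieldSystem` : the same from `PkgInputAt` over every large finite normal `L`;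
* `pkgInputAt_of_modelHyp`, `pkgInputAt_of_thick_htor` : `PkgInputAt` from the suppliers
  (`hac_j` := `Mod/ACModel98`, `hnode` := `Fib/NodeExists61`; open: thick nodes, `HtorAt`);
* `exists_numData_of_modelInput` : the `NodalNumData` over every large `L` for some uniformiser,
  from `ModelInput13.ModelInput 4 8 p M'' A` (= `ModelEnd4.modelInput_four`).
-/
import Mathlib
import Fermat.Agent.ORD.Geo.CartPkg20
import Fermat.Agent.ORD.Geo.CartMono14
import Fermat.Agent.ES.N34.GalModel21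
import Fermat.Agent.ES.N34.ModelInput13
import Fermat.Agent.M1.Mod.ACModel98
import Fermat.Agent.M1.Fib.NodeExists61

set_option autoImplicit false
set_option linter.unusedSectionVars false
set_option linter.style.haveILetI false
set_option synthInstance.maxHeartbeats 400000
set_option maxHeartbeats 2000000

open AlgebraicCurve ModularCurve IntermediateField

namespace Fermat.Agent.ORD.Geo.SystemInst20

open Fermat.Agent.RED.Interface4 Fermat.Agent.RED.PUR.GaussGen8
  Fermat.Agent.RED.BASE.EtaQuot12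
  Fermat.Agent.RED.DESC.NumberFieldDVR27
  Fermat.Agent.ES.N34.NumData13 Fermat.Agent.ES.N34.ModelDefs9
  Fermat.Agent.M1.Car.Defs43 Fermat.Agent.M1.Car.RatClass25 Fermat.Agent.M1.Car.RatMain25
  Fermat.Agent.M1.Fib.Constants98 Fermat.Agent.M1.Fib.H0k98
  Fermat.Agent.ORD.Geo.Abstract40 Fermat.Agent.ORD.Geo.System20 Fermat.Agent.ORD.Geo.CartPkg20

noncomputable section

local notation "GQ" => (Qbar ≃ₐ[ℚ] Qbar)

/-! Shortcuts to the instances found (slowly: ~20 s each) by instance search. -/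

local instance (priority := 5000) algKFK20c (M : ℕ) (K : IntermediateField ℚ Qbar) :
    Algebra K (FK M K) := SubalgebraClass.toAlgebra (FK M K)

local instance (priority := 5000) modKFK20c (M : ℕ) (K : IntermediateField ℚ Qbar) :
    Module K (FK M K) := Algebra.toModule

local instance (priority := 5000) smulKFK20c (M : ℕ) (K : IntermediateField ℚ Qbar) :
    SMul K (FK M K) := Algebra.toSMul

local instance (priority := 5000) algAKFK20c (A : ValuationSubring Qbar)
    (K : IntermediateField ℚ Qbar) (M : ℕ) : Algebra (AK A K) (FK M K) :=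
  Algebra.ofSubsemiring (AK A K)

local instance (priority := 5000) modAKFK20c (A : ValuationSubring Qbar)
    (K : IntermediateField ℚ Qbar) (M : ℕ) : Module (AK A K) (FK M K) := Algebra.toModule

local instance (priority := 5000) smulAKFK20c (A : ValuationSubring Qbar)
    (K : IntermediateField ℚ Qbar) (M : ℕ) : SMul (AK A K) (FK M K) := Algebra.toSMul

/-- The scalar tower `A ∩ K → K → K·F_N`. -/
local instance towerAK20c (A : ValuationSubring Qbar) (K : IntermediateField ℚ Qbar) (N : ℕ) :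
    IsScalarTower (AK A K) K (FK N K) :=
  IsScalarTower.of_algebraMap_eq fun _ => rfl

variable (p M'' : ℕ) [NeZero M''] [NeZero p] (A : ValuationSubring Qbar)

/-- **The input of the per-field package over `L`**: the model of record over `A ∩ L` (for some
uniformiser) is a `NodalNumData` satisfying the model-side hypotheses `CartPkg20.ModelHyp`. -/
def PkgInputAt (Kpush : AddSubgroup (JZero (M'' * p))) (L : IntermediateField ℚ Qbar)
    [FiniteDimensional ℚ L] [Normal ℚ L] : Prop :=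
  ∃ (ht : tq (↥L) 4 8 ∈ FK M'' L) (hE : FK (M'' * p) L ≤ fracField (AK A L))
    (ϖ : ↥(AK A L)) (hϖ : IsUnif (AK A L) ϖ)
    (Nd : NodalNumData (↥(AK A L)) (↥L) (↥(FK (M'' * p) L)) ϖ (tN p ht) (B0 A p ht) (B1 A p ht)
      (O1 M'' p hϖ hE) (O2 M'' p hϖ hE)), ModelHyp Nd p Kpush

variable {p M'' A}

section OneField

variable {L : IntermediateField ℚ Qbar} [FiniteDimensional ℚ L] [Normal ℚ L]

/-- **The Cart-level package of the model of record over `L ∋ ζ_p`.** -/
def pkgOf (hp : p.Prime) (hA : A.LiesOverPrime p) {ζ : Qbar} (hζL : ζ ∈ L) (hζ : ζ ^ p = 1)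
    (hζ1 : ζ ≠ 1) (Kpush : AddSubgroup (JZero (M'' * p))) (h : PkgInputAt p M'' A Kpush L) :
    CartPkg p (M'' * p) (↑(A.inertiaSubgroupIn ℚ) : Set GQ)
      (fun σ c => ∀ η : Qbar, η ^ p = 1 → σ η = η ^ c) Kpush L :=
  cartPkg hp hA h.choose_spec.choose_spec.choose_spec.choose
    h.choose_spec.choose_spec.choose_spec.choose_spec.choose
    (fun _ hτ => Fermat.Agent.ES.N34.GalModel21.sigmaDataN M'' p hτ
      h.choose_spec.choose_spec.choose_spec.choose h.choose_spec.choose h.choose)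
    hζL hζ hζ1 Kpush h.choose_spec.choose_spec.choose_spec.choose_spec.choose_spec

theorem pkgOf_C (hp : p.Prime) (hA : A.LiesOverPrime p) {ζ : Qbar} (hζL : ζ ∈ L) (hζ : ζ ^ p = 1)
    (hζ1 : ζ ≠ 1) (Kpush : AddSubgroup (JZero (M'' * p))) (h : PkgInputAt p M'' A Kpush L)
    (n : ℕ) :
    (pkgOf hp hA hζL hζ hζ1 Kpush h).C n =
      Cart h.choose_spec.choose_spec.choose (B0 A p h.choose) (B1 A p h.choose)
        (O1 M'' p h.choose_spec.choose_spec.choose_spec.choose h.choose_spec.choose)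
        (O2 M'' p h.choose_spec.choose_spec.choose_spec.choose h.choose_spec.choose)
        (Fermat.Agent.ORD.Geo.SigmaCart20.const_mem1
          h.choose_spec.choose_spec.choose_spec.choose_spec.choose.model _)
        (Fermat.Agent.ORD.Geo.SigmaCart20.const_mem2
          h.choose_spec.choose_spec.choose_spec.choose_spec.choose.model _) n :=
  rfl

end OneField

/-- **(J-mono) for the packages of the model of record**: for ANY two inputs over `L ≤ L'` the
image of `C n` over `L` in `J₀(M''p)(ℚ̄)` lies in the image of `C n` over `L'`. -/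
theorem pkgOf_mono (hp : p.Prime) (hA : A.LiesOverPrime p)
    {L L' : IntermediateField ℚ Qbar} [FiniteDimensional ℚ L] [Normal ℚ L]
    [FiniteDimensional ℚ L'] [Normal ℚ L'] (hLL' : L ≤ L')
    {ζ : Qbar} (hζL : ζ ∈ L) (hζL' : ζ ∈ L') (hζ : ζ ^ p = 1) (hζ1 : ζ ≠ 1)
    (Kpush : AddSubgroup (JZero (M'' * p))) (h : PkgInputAt p M'' A Kpush L)
    (h' : PkgInputAt p M'' A Kpush L') (n : ℕ) :
    ((pkgOf hp hA hζL hζ hζ1 Kpush h).C n).map (bcPic0 (M'' * p) L) ≤
      ((pkgOf hp hA hζL' hζ hζ1 Kpush h').C n).map (bcPic0 (M'' * p) L') := by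
  have e1 := congrArg (AddSubgroup.map (bcPic0 (M'' * p) L)) (pkgOf_C hp hA hζL hζ hζ1 Kpush h n)
  have e2 := congrArg (AddSubgroup.map (bcPic0 (M'' * p) L'))
    (pkgOf_C hp hA hζL' hζ hζ1 Kpush h' n)
  have key := Fermat.Agent.ORD.Geo.CartMono14.cart_map_bcPic0_mono hLL' M'' p hp hA
    h.choose h'.choose h.choose_spec.choose_spec.choose_spec.choose
    h'.choose_spec.choose_spec.choose_spec.choose h.choose_spec.choose
    h'.choose_spec.choose
    (h1 := Fermat.Agent.ORD.Geo.SigmaCart20.const_mem1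
          h.choose_spec.choose_spec.choose_spec.choose_spec.choose.model _)
    (h2 := Fermat.Agent.ORD.Geo.SigmaCart20.const_mem2
          h.choose_spec.choose_spec.choose_spec.choose_spec.choose.model _)
    (h1' := Fermat.Agent.ORD.Geo.SigmaCart20.const_mem1
          h'.choose_spec.choose_spec.choose_spec.choose_spec.choose.model _)
    (h2' := Fermat.Agent.ORD.Geo.SigmaCart20.const_mem2
          h'.choose_spec.choose_spec.choose_spec.choose_spec.choose.model _) n
  exact e1.trans_le (key.trans_eq e2.symm)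

/-! ### Field systems -/

/-- **The field system of the model of record** over ALL the fields of `Fld K₀`, `ζ_p ∈ K₀`. -/
def fieldSystemOf (hp : p.Prime) (hA : A.LiesOverPrime p) (K₀ : IntermediateField ℚ Qbar)
    [FiniteDimensional ℚ K₀] [Normal ℚ K₀] {ζ : Qbar} (hζK : ζ ∈ K₀) (hζ : ζ ^ p = 1)
    (hζ1 : ζ ≠ 1) (Kpush : AddSubgroup (JZero (M'' * p)))
    (H : ∀ i : Fld K₀, PkgInputAt p M'' A Kpush i.K) :
    FieldSystem (J := JZero (M'' * p)) p (↑(A.inertiaSubgroupIn ℚ) : Set GQ)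
      (fun σ c => ∀ η : Qbar, η ^ p = 1 → σ η = η ^ c) Kpush (Fld K₀) :=
  System20.fieldSystem (fun i => pkgOf hp hA (i.le hζK) hζ hζ1 Kpush (H i))
    (fun i j hij => pkgOf_mono hp hA hij (i.le hζK) (j.le hζK) hζ hζ1 Kpush (H i) (H j) 0)
    (fun i j hij => pkgOf_mono hp hA hij (i.le hζK) (j.le hζK) hζ hζ1 Kpush (H i) (H j) 1)

section Cofinal

variable {K₀ : IntermediateField ℚ Qbar} [FiniteDimensional ℚ K₀] [Normal ℚ K₀]
  {N : ℕ} [NeZero N] {q : ℕ} {I : Set GQ} {cyc : GQ → ℕ → Prop} {Kpush : AddSubgroup (JZero N)}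

/-- **A field system on a cofinal subfamily of `Fld K₀`** (the index is the subtype of the good
fields), from per-field packages over the good fields and their monotonicity at `n = 0, 1`. -/
theorem exists_fieldSystem_on (Good : Fld K₀ → Prop) (cof : ∀ i : Fld K₀, ∃ j, i ≤ j ∧ Good j)
    (pkg : ∀ i : Fld K₀, Good i → CartPkg q N I cyc Kpush i.K)
    (mono : ∀ (i j : Fld K₀) (hi : Good i) (hj : Good j), i ≤ j → ∀ n : ℕ,
      ((pkg i hi).C n).map (bcPic0 N i.K) ≤ ((pkg j hj).C n).map (bcPic0 N j.K)) :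
    ∃ (ι : Type) (_ : Preorder ι) (_ : IsDirected ι (· ≤ ·)) (_ : Nonempty ι),
      Nonempty (FieldSystem (J := JZero N) (Γ := GQ) q I cyc Kpush ι) := by
  letI inst1 : Preorder {i : Fld K₀ // Good i} := Preorder.lift Subtype.val
  haveI inst2 : IsDirected {i : Fld K₀ // Good i} (· ≤ ·) := ⟨fun a b => by
    obtain ⟨k, hak, hbk⟩ := exists_ge_ge a.1 b.1
    obtain ⟨j, hkj, hj⟩ := cof k
    exact ⟨⟨j, hj⟩, (le_trans hak hkj : a.1 ≤ j), (le_trans hbk hkj : b.1 ≤ j)⟩⟩
  haveI inst3 : Nonempty {i : Fld K₀ // Good i} := by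
    obtain ⟨j, -, hj⟩ := cof (Fld.base K₀)
    exact ⟨⟨j, hj⟩⟩
  refine ⟨{i : Fld K₀ // Good i}, inst1, inst2, inst3, ⟨?_⟩⟩
  exact
    { Rat := fun i => (bcPic0 N i.1.K).range
      J0 := fun i => ((pkg i.1 i.2).C 0).map (bcPic0 N i.1.K)
      JL := fun i n => ((pkg i.1 i.2).C n).map (bcPic0 N i.1.K)
      d := fun i => (pkg i.1 i.2).d
      cover := fun _ x _ => by
        obtain ⟨i, hi⟩ := exists_mem_range (K₀ := K₀) x
        obtain ⟨j, hij, hj⟩ := cof i
        exact ⟨⟨j, hj⟩, range_bcPic0_mono hij hi⟩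
      Rat_mono := fun i j hij => range_bcPic0_mono hij
      J0_le_Rat := fun i => by
        rintro _ ⟨y, -, rfl⟩
        exact ⟨y, rfl⟩
      J0_mono := fun i j hij => mono i.1 j.1 i.2 j.2 hij 0
      J1_mono := fun i j hij => mono i.1 j.1 i.2 j.2 hij 1
      Gc := fun i σ hσ x hx => by
        obtain ⟨y, rfl⟩ := hx
        refine ⟨galK N i.1.K σ • y - y, (pkg i.1 i.2).Gc σ hσ y, ?_⟩
        rw [map_sub, ← smul_bcPic0_eq]
      Gd := fun i σ hσ x hx => by
        obtain ⟨y, hy, rfl⟩ := hx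
        refine ⟨galK N i.1.K σ • y - y, (pkg i.1 i.2).Gd σ hσ y hy, ?_⟩
        rw [map_sub, ← smul_bcPic0_eq]
      contract := fun i => (pkg i.1 i.2).depthContract }

end Cofinal


/-! ### The final existence statements -/

/-- A primitive `p`-th root of unity in `ℚ̄`. -/
theorem exists_zeta (hp : p.Prime) : ∃ ζ : Qbar, ζ ^ p = 1 ∧ ζ ≠ 1 := by
  haveI : NeZero ((p : ℕ) : Qbar) := ⟨Nat.cast_ne_zero.mpr hp.ne_zero⟩
  obtain ⟨ζ, hζ⟩ := HasEnoughRootsOfUnity.exists_primitiveRoot Qbar p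
  exact ⟨ζ, hζ.pow_eq_one, hζ.ne_one hp.one_lt⟩

/-- **The field system of the model of record from `PkgInputAt` over a COFINAL family of finite
normal fields** (the shape consumed by `Lvl91.geoStmtLite_of_fieldSystems`). -/
theorem exists_fieldSystem_of_cofinal (hp : p.Prime) (hA : A.LiesOverPrime p)
    (Kpush : AddSubgroup (JZero (M'' * p)))
    (Hcof : ∀ (L₀ : IntermediateField ℚ Qbar) [FiniteDimensional ℚ L₀],
      ∃ (L : IntermediateField ℚ Qbar) (_ : FiniteDimensional ℚ L) (_ : Normal ℚ L),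
        L₀ ≤ L ∧ PkgInputAt p M'' A Kpush L) :
    ∃ (ι : Type) (_ : Preorder ι) (_ : IsDirected ι (· ≤ ·)) (_ : Nonempty ι),
      Nonempty (FieldSystem (J := JZero (M'' * p)) (Γ := GQ) p
        (↑(A.inertiaSubgroupIn ℚ) : Set GQ)
        (fun σ c => ∀ η : Qbar, η ^ p = 1 → σ η = η ^ c) Kpush ι) := by
  obtain ⟨ζ, hζ, hζ1⟩ := exists_zeta hp
  haveI : FiniteDimensional ℚ ℚ⟮ζ⟯ :=
    adjoin.finiteDimensional ((AlgebraicClosure.isAlgebraic ℚ).isAlgebraic ζ).isIntegral
  obtain ⟨i₀, hi₀⟩ := Fld.exists_ge (K₀ := (⊥ : IntermediateField ℚ Qbar)) ℚ⟮ζ⟯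
  haveI := i₀.fin
  haveI := i₀.normal
  have hζK : ζ ∈ i₀.K := hi₀ (mem_adjoin_simple_self ℚ ζ)
  refine exists_fieldSystem_on (K₀ := i₀.K) (fun i => PkgInputAt p M'' A Kpush i.K) ?_
    (fun i hi => pkgOf hp hA (i.le hζK) hζ hζ1 Kpush hi)
    (fun i j hi hj hij n => pkgOf_mono hp hA hij (i.le hζK) (j.le hζK) hζ hζ1 Kpush hi hj n)
  intro i
  obtain ⟨L, hf, hn, hle, hL⟩ := Hcof i.K
  exact ⟨⟨L, hf, hn, i.le.trans hle⟩, hle, hL⟩

/-- **The field system of the model of record from `PkgInputAt` over every large finite normal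
field.** -/
theorem exists_fieldSystem (hp : p.Prime) (hA : A.LiesOverPrime p)
    (Kpush : AddSubgroup (JZero (M'' * p)))
    (H : ∃ K₁ : IntermediateField ℚ Qbar, FiniteDimensional ℚ K₁ ∧
      ∀ (L : IntermediateField ℚ Qbar) [FiniteDimensional ℚ L] [Normal ℚ L], K₁ ≤ L →
        PkgInputAt p M'' A Kpush L) :
    ∃ (ι : Type) (_ : Preorder ι) (_ : IsDirected ι (· ≤ ·)) (_ : Nonempty ι),
      Nonempty (FieldSystem (J := JZero (M'' * p)) (Γ := GQ) p
        (↑(A.inertiaSubgroupIn ℚ) : Set GQ)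
        (fun σ c => ∀ η : Qbar, η ^ p = 1 → σ η = η ^ c) Kpush ι) := by
  obtain ⟨K₁, hK₁, H⟩ := H
  haveI := hK₁
  refine exists_fieldSystem_of_cofinal hp hA Kpush fun L₀ _ => ?_
  obtain ⟨i, hi⟩ := Fld.exists_ge (K₀ := K₁) L₀
  exact ⟨i.K, i.fin, i.normal, hi, @H i.K i.fin i.normal i.le⟩

/-! ### `PkgInputAt` from the suppliers -/

section Suppliers

variable {L : IntermediateField ℚ Qbar} [FiniteDimensional ℚ L] [Normal ℚ L]
  {Kpush : AddSubgroup (JZero (M'' * p))}

theorem pkgInputAt_of_modelHyp (ht : tq (↥L) 4 8 ∈ FK M'' L)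
    (hE : FK (M'' * p) L ≤ fracField (AK A L)) {ϖ : ↥(AK A L)} (hϖ : IsUnif (AK A L) ϖ)
    (Nd : NodalNumData (↥(AK A L)) (↥L) (↥(FK (M'' * p) L)) ϖ (tN p ht) (B0 A p ht) (B1 A p ht)
      (O1 M'' p hϖ hE) (O2 M'' p hϖ hE)) (H : ModelHyp Nd p Kpush) :
    PkgInputAt p M'' A Kpush L :=
  ⟨ht, hE, ϖ, hϖ, Nd, H⟩

/-- `PkgInputAt` from thick nodes and `HtorAt` (`hac_j` := `Mod/ACModel98`, `hnode` :=
`Fib/NodeExists61`). -/
theorem pkgInputAt_of_thick_htor (ht : tq (↥L) 4 8 ∈ FK M'' L)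
    (hE : FK (M'' * p) L ≤ fracField (AK A L)) {ϖ : ↥(AK A L)} (hϖ : IsUnif (AK A L) ϖ)
    (Nd : NodalNumData (↥(AK A L)) (↥L) (↥(FK (M'' * p) L)) ϖ (tN p ht) (B0 A p ht) (B1 A p ht)
      (O1 M'' p hϖ hE) (O2 M'' p hϖ hE)) {e : ℕ}
    (hth : Fermat.Agent.M1.Car.NodeFrame58.ThickNodes ϖ (B0 A p ht) (B1 A p ht)
      (O1 M'' p hϖ hE) (O2 M'' p hϖ hE) e)
    (htor : HtorAt Nd (Fermat.Agent.M1.Mod.ACModel98.residueAlgClosed_O1 M'' p hϖ hE)
      (Fermat.Agent.M1.Mod.ACModel98.residueAlgClosed_O2 M'' p hϖ hE)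
      (Fermat.Agent.M1.Fib.NodeExists61.hasNode_of_numData Nd) p Kpush) :
    PkgInputAt p M'' A Kpush L :=
  ⟨ht, hE, ϖ, hϖ, Nd, ModelHyp.of_thickNodes Nd _ _ _ hth htor⟩

end Suppliers

/-- **The model of record over every large finite normal field, for SOME uniformiser**
(from `ModelInput13.ModelInput`, i.e. `ModelEnd4.modelInput_four`). -/
theorem exists_numData_of_modelInput (hp : p.Prime) (hA : A.LiesOverPrime p)
    (hMI : Fermat.Agent.ES.N34.ModelInput13.ModelInput 4 8 p M'' A) :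
    ∃ K₁ : IntermediateField ℚ Qbar, FiniteDimensional ℚ K₁ ∧
      ∀ (L : IntermediateField ℚ Qbar) [FiniteDimensional ℚ L] [Normal ℚ L], K₁ ≤ L →
        ∃ (ht : tq (↥L) 4 8 ∈ FK M'' L) (hE : FK (M'' * p) L ≤ fracField (AK A L))
          (ϖ : ↥(AK A L)) (hϖ : IsUnif (AK A L) ϖ),
          NodalNumData (↥(AK A L)) (↥L) (↥(FK (M'' * p) L)) ϖ (tN p ht) (B0 A p ht) (B1 A p ht)
            (O1 M'' p hϖ hE) (O2 M'' p hϖ hE) := by
  obtain ⟨K₁, hK₁, H⟩ := hMI
  refine ⟨K₁, hK₁, fun L hLf hLn hle => ?_⟩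
  obtain ⟨ht, hE, h⟩ := H L hLf hle
  haveI : IsDiscreteValuationRing ↥(AK A L) := isDiscreteValuationRing_AK A L hp.ne_zero hA
  obtain ⟨ϖ, hirr⟩ := IsDiscreteValuationRing.exists_irreducible ↥(AK A L)
  exact ⟨ht, hE, ϖ, isUnif_of_irreducible (AK A L) hirr, h ϖ (isUnif_of_irreducible (AK A L) hirr)⟩

end

end Fermat.Agent.ORD.Geo.SystemInst20
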