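/-
ORD (S33), chapter G (GeoData), G3-final wiring -- helper20.

**`GeoTop40.GeoPkgStmt` (the ONE statement of chapter G) from the per-field inputs
`SystemInst20.PkgInputAt` over a cofinal family of finite normal fields** (for every odd `p`, every
`M₂` with `4 ∣ M₂`, `p ∤ M₂`, every place `P` of `ℚ̄` over `p`), with
`Kpush := Lvl91.Kpush hp hpM = ker (alphaPush) ⊓ ker (betaPush)`:

* `K₀` := a finite normal field containing `ζ_p`;
* `Good L := PkgInputAt p M₂ P (Lvl91.Kpush hp hpM) L`;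
* `pkg` := `SystemInst20.pkgOf`, `mono0/mono1` := `SystemInst20.pkgOf_mono`.

So chapter G is reduced to ONE statement per field: the model of record over `P ∩ L` is a
`NodalNumData` (`ModelEnd4.modelInput_four`) satisfying `CartPkg20.ModelHyp`
(`hac_j` ✓ `Mod/ACModel98`, `hnode` ✓ `Fib/NodeExists61`, thick nodes, `HtorAt`), for a cofinal
family of `L`.
-/
import Mathlib
import Fermat.Agent.ORD.Geo.SystemInst20
import Fermat.Agent.ORD.Geo.GeoTop40

set_option autoImplicit false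
set_option linter.unusedSectionVars false
set_option linter.style.haveILetI false

open AlgebraicCurve ModularCurve IntermediateField

namespace Fermat.Agent.ORD.Geo.GeoWire20

open Fermat.Agent.RED.Interface4 Fermat.Agent.ORD.Geo.System20 Fermat.Agent.ORD.Geo.SystemOn40
  Fermat.Agent.ORD.Geo.SystemInst20

/-- **The hypothesis of `geoPkgStmt_of_pkgInput`**: `PkgInputAt` over a cofinal family of finite
normal fields, for every `(p, M₂, P)`. -/
def PkgInputStmt : Prop :=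
  ∀ (p : ℕ) [NeZero p] (hp : p.Prime) (_hp2 : p ≠ 2) (M₂ : ℕ) [NeZero M₂]
    (hpM : ¬ p ∣ M₂) (_h4 : 4 ∣ M₂) (P : ValuationSubring Qbar) (_hP : P.LiesOverPrime p)
    (L₀ : IntermediateField ℚ Qbar) [FiniteDimensional ℚ L₀],
    ∃ (L : IntermediateField ℚ Qbar) (_ : FiniteDimensional ℚ L) (_ : Normal ℚ L),
      L₀ ≤ L ∧ PkgInputAt p M₂ P (Fermat.Agent.ORD.Geo.Lvl91.Kpush hp hpM) L

/-- **Chapter G3-final**: `GeoTop40.GeoPkgStmt` from the per-field inputs. -/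
theorem geoPkgStmt_of_pkgInput (hS : PkgInputStmt) :
    Fermat.Agent.ORD.Geo.GeoTop40.GeoPkgStmt := by
  intro p _ hp hp2 M₂ _ hpM h4 P hP
  obtain ⟨ζ, hζ, hζ1⟩ := exists_zeta hp
  haveI : FiniteDimensional ℚ ℚ⟮ζ⟯ :=
    adjoin.finiteDimensional ((AlgebraicClosure.isAlgebraic ℚ).isAlgebraic ζ).isIntegral
  obtain ⟨i₀, hi₀⟩ := Fld.exists_ge (K₀ := (⊥ : IntermediateField ℚ Qbar)) ℚ⟮ζ⟯
  have hζK : ζ ∈ i₀.K := hi₀ (mem_adjoin_simple_self ℚ ζ)
  refine ⟨i₀.K, i₀.fin, i₀.normal,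
    ⟨fun i => PkgInputAt p M₂ P (Fermat.Agent.ORD.Geo.Lvl91.Kpush hp hpM) i.K, fun i => ?_⟩,
    fun i => pkgOf hp hP (i.1.le hζK) hζ hζ1 _ i.2,
    fun i j hij => pkgOf_mono hp hP hij (i.1.le hζK) (j.1.le hζK) hζ hζ1 _ i.2 j.2 0,
    fun i j hij => pkgOf_mono hp hP hij (i.1.le hζK) (j.1.le hζK) hζ hζ1 _ i.2 j.2 1⟩
  obtain ⟨L, hf, hn, hle, hL⟩ := hS p hp hp2 M₂ hpM h4 P hP i.K
  exact ⟨⟨L, hf, hn, i.le.trans hle⟩, hle, hL⟩

/-- **Chapter G**: `GeoStmtLite` from the per-field inputs. -/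
theorem geoStmtLite_of_pkgInput (hS : PkgInputStmt) :
    Fermat.Agent.ORD.Spec.GeoLite40.GeoStmtLite :=
  Fermat.Agent.ORD.Geo.GeoTop40.geoStmtLite_of_pkgs (geoPkgStmt_of_pkgInput hS)

end Fermat.Agent.ORD.Geo.GeoWire20
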