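/-
ORD (S33), chapter G, brick (B2) HTOR-INST of report #1888, concrete part — helper15.

**`CartPkg20.HtorAt` and `CartPkg20.ModelHyp` from HK4.**  For the per-field package
`CartPkg20.cartPkg` over `A ∩ K` (helper20) the only model-side input which is not a citation is

  `HtorAt Nd hac1 hac2 hnode p Kpush`.

Here it is derived (`htorAt_of_pushData`) from helper88's two branches of HK4
(`ToricLead88.Branch`, α and β) and the push data of the divisors whose class lands in `Kpush`
(`PushReg88.PushData`, brick PUSH-INST), via `M1/Car/HtorWire15`.  `modelHyp_of_pushData` then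
assembles the whole `ModelHyp` from MOD-AC, thick nodes, the branches and the push data (the node
is `NodeExists61.hasNode_of_numData`).
-/
import Mathlib
import Fermat.Agent.ORD.Geo.CartPkg20
import Fermat.Agent.M1.Car.HtorWire15
import Fermat.Agent.M1.Fib.NodeExists61

set_option autoImplicit false
set_option linter.unusedSectionVars false
set_option synthInstance.maxHeartbeats 400000
set_option maxHeartbeats 2000000

open AlgebraicCurve ModularCurve IntermediateField

namespace Fermat.Agent.ORD.Geo.HtorAt15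

open Fermat.Agent.RED.Interface4
  Fermat.Agent.ES.N34.NodalCore13 Fermat.Agent.ES.N34.NumData13
  Fermat.Agent.M1.Car.Defs43 Fermat.Agent.M1.Car.TorsClass43 Fermat.Agent.M1.Car.TorsInst15
  Fermat.Agent.M1.Car.RatClass25 Fermat.Agent.M1.Car.RatMain25
  Fermat.Agent.M1.Fib.Branch98 Fermat.Agent.M1.Fib.Constants98 Fermat.Agent.M1.Fib.H0k98
  Fermat.Agent.M1.Pic2.Defs60 Fermat.Agent.M1.NRM.ToricLead88 Fermat.Agent.M1.NRM.PushReg88
  Fermat.Agent.ORD.Geo.CartPkg20

noncomputable section

/-! Shortcuts to the instances found (slowly) by instance search: the same terms as in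
`CartPkg20`. -/

local instance (priority := 5000) algKFK15 (M : ℕ) (K : IntermediateField ℚ Qbar) :
    Algebra K (FK M K) := SubalgebraClass.toAlgebra (FK M K)

local instance (priority := 5000) modKFK15 (M : ℕ) (K : IntermediateField ℚ Qbar) :
    Module K (FK M K) := Algebra.toModule

local instance (priority := 5000) smulKFK15 (M : ℕ) (K : IntermediateField ℚ Qbar) :
    SMul K (FK M K) := Algebra.toSMul

local instance (priority := 5000) algAKFK15 (A : ValuationSubring Qbar)
    (K : IntermediateField ℚ Qbar) (M : ℕ) : Algebra (AK A K) (FK M K) :=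
  Algebra.ofSubsemiring (AK A K)

local instance (priority := 5000) modAKFK15 (A : ValuationSubring Qbar)
    (K : IntermediateField ℚ Qbar) (M : ℕ) : Module (AK A K) (FK M K) := Algebra.toModule

local instance (priority := 5000) smulAKFK15 (A : ValuationSubring Qbar)
    (K : IntermediateField ℚ Qbar) (M : ℕ) : SMul (AK A K) (FK M K) := Algebra.toSMul

variable {A : ValuationSubring Qbar} {K : IntermediateField ℚ Qbar} {N : ℕ}

/-- The scalar tower `A ∩ K → K → K·F_N`. -/
local instance towerAK15 : IsScalarTower (AK A K) K (FK N K) :=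
  IsScalarTower.of_algebraMap_eq fun _ => rfl

variable [FiniteDimensional ℚ K] [Normal ℚ K] [NeZero N]
variable {ϖ : AK A K} {t : FK N K} {B0 B1 : Subalgebra (AK A K) (FK N K)}
  {O1 O2 : ValuationSubring (FK N K)}
variable {E₁ E₂ : Type*} [Field E₁] [Field E₂]
  [Algebra K E₁] [Algebra K E₂] [Algebra (AK A K) E₁] [Algebra (AK A K) E₂]
  [Algebra E₁ (FK N K)] [IsScalarTower K E₁ (FK N K)] [IsScalarTower (AK A K) E₁ (FK N K)]
  [FiniteDimensional E₁ (FK N K)] [Algebra.IsSeparable E₁ (FK N K)]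
  [Algebra E₂ (FK N K)] [IsScalarTower K E₂ (FK N K)] [IsScalarTower (AK A K) E₂ (FK N K)]
  [FiniteDimensional E₂ (FK N K)] [Algebra.IsSeparable E₂ (FK N K)]
variable {q : ℕ}
  {C0 C1 C01 : Subalgebra (AK A K) E₁} {O' : ValuationSubring E₁}
  {D0 D1 D01 : Subalgebra (AK A K) E₂} {O'' : ValuationSubring E₂}

/-- **`CartPkg20.HtorAt` from HK4** (helper88's branches + push data). -/
theorem htorAt_of_pushData [Fact q.Prime]
    (Nd : NodalNumData (AK A K) K (FK N K) ϖ t B0 B1 O1 O2)
    (hac1 : ResidueAlgClosed ϖ O1) (hac2 : ResidueAlgClosed ϖ O2)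
    (hnode : HasNode ϖ B0 B1 O1 O2)
    (hα : Branch ϖ q C0 C1 C01 O' O1 O2 B0 B1 (overlap t B0 Nd.model.t_mem))
    (hβ : Branch ϖ q D0 D1 D01 O'' O2 O1 B0 B1 (overlap t B0 Nd.model.t_mem))
    (p : ℕ) (Kpush : AddSubgroup (JZero N))
    (hpush : ∀ D : Divisor.degZero (K := K) (F := FK N K),
      bcPic0 N K (Pic0.mk D) ∈ Kpush →
      ∃ (f₁ : E₁) (f₂ : E₂), PushData C0 C1 O' B0 B1 (D : Divisor K (FK N K)) f₁ ∧
        PushData D0 D1 O'' B0 B1 (D : Divisor K (FK N K)) f₂) :
    HtorAt Nd hac1 hac2 hnode p Kpush := by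
  intro n hn D hD _ hK
  obtain ⟨f₁, f₂, hDα, hDβ⟩ := hpush D hK
  exact Fermat.Agent.M1.Car.HtorWire15.TorsFrame.exists_lead_isToric_of_pushData
    (torsFrame_of_numData Nd hac1 hac2 hnode) hα hβ hn hD hDα hDβ

/-- **`CartPkg20.ModelHyp` from MOD-AC, thick nodes and HK4.** -/
theorem modelHyp_of_pushData [Fact q.Prime]
    (Nd : NodalNumData (AK A K) K (FK N K) ϖ t B0 B1 O1 O2)
    (hac1 : ResidueAlgClosed ϖ O1) (hac2 : ResidueAlgClosed ϖ O2) {e : ℕ}
    (hth : Fermat.Agent.M1.Car.NodeFrame58.ThickNodes ϖ B0 B1 O1 O2 e)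
    (hα : Branch ϖ q C0 C1 C01 O' O1 O2 B0 B1 (overlap t B0 Nd.model.t_mem))
    (hβ : Branch ϖ q D0 D1 D01 O'' O2 O1 B0 B1 (overlap t B0 Nd.model.t_mem))
    (p : ℕ) (Kpush : AddSubgroup (JZero N))
    (hpush : ∀ D : Divisor.degZero (K := K) (F := FK N K),
      bcPic0 N K (Pic0.mk D) ∈ Kpush →
      ∃ (f₁ : E₁) (f₂ : E₂), PushData C0 C1 O' B0 B1 (D : Divisor K (FK N K)) f₁ ∧
        PushData D0 D1 O'' B0 B1 (D : Divisor K (FK N K)) f₂) :
    ModelHyp Nd p Kpush :=
  ModelHyp.of_thickNodes Nd hac1 hac2 (Fermat.Agent.M1.Fib.NodeExists61.hasNode_of_numData Nd) hth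
    (htorAt_of_pushData Nd hac1 hac2 (Fermat.Agent.M1.Fib.NodeExists61.hasNode_of_numData Nd)
      hα hβ p Kpush hpush)

end

end Fermat.Agent.ORD.Geo.HtorAt15
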