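/-
ORD (S33), chapter G, brick (W4)/HTOR-MODEL — helper15.

**`CartPkg20.HtorAt` for the model of record** (`ES/N34/ModelDefs9`: `t = tN p ht`, charts
`B0 A p ht`, `B1 A p ht`, Gauss rings `O1 M'' p hϖ hE`, `O2 M'' p hϖ hE`) over every finite normal
number field `L ⊂ ℚ̄` containing `ζ_{M''}` (`p` odd, `p ∤ M''`, `4 ∣ M''`), for the common kernel
`Lvl91.Kpush` of the two degeneracy push-forwards.  This is the `htor` binder of
`SystemInst20.pkgInputAt_of_thick_htor`.

The two degeneracy maps `α, β : K·F_{M''} → K·F_{M''p}` make the SAME field `E = K·F_{M''}` a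
subfield of `F = K·F_{M''p}` in two ways, i.e. there are two `Algebra E F` structures on the same
pair of types.  `exists_lead_isToric_two` is `HtorWire15.TorsFrame.exists_lead_isToric_of_pushData`
with `E₁ = E₂ = E` and the two structures passed explicitly; the model part feeds it with

* helper88's branches `BranchModel88.branch_alpha_four`, `branch_beta_four` ((AC) := `ACModel98`),
* helper70's push data `PushFinal70.hpush_model`.

* `exists_lead_isToric_two` : abstract, two `Algebra E F` structures on one pair `E`, `F`;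
* `htorAt_model` : `HtorAt` for the model of record;
* `modelHyp_model`, `pkgInputAt_model` : `CartPkg20.ModelHyp`, `SystemInst20.PkgInputAt` for the
  model of record from thick nodes alone.
-/
import Mathlib
import Fermat.Agent.ORD.Geo.HtorAt15
import Fermat.Agent.ORD.Geo.SystemInst20
import Fermat.Agent.ORD.Geo.Lvl91
import Fermat.Agent.M1.NRM.BranchModel88
import Fermat.Agent.M1.NRM.PushFinal70
import Fermat.Agent.M1.Mod.ACModel98

set_option autoImplicit false
set_option linter.unusedSectionVars false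
set_option linter.style.haveILetI false
set_option synthInstance.maxHeartbeats 400000
set_option maxHeartbeats 4000000

open AlgebraicCurve ModularCurve IntermediateField

namespace Fermat.Agent.ORD.Geo.HtorModel15

open Fermat.Agent.RED.Interface4 Fermat.Agent.RED.PUR.GaussGen8
  Fermat.Agent.RED.PUR.GaussBridge10
  Fermat.Agent.RED.BASE.EtaQuot12 Fermat.Agent.X0
  Fermat.Agent.ES.N34.NodalCore13 Fermat.Agent.ES.N34.NumData13 Fermat.Agent.ES.N34.ModelDefs9
  Fermat.Agent.M1.Car.Defs43 Fermat.Agent.M1.Car.TorsClass43 Fermat.Agent.M1.Car.TorsInst15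
  Fermat.Agent.M1.Car.RatClass25 Fermat.Agent.M1.Car.RatMain25
  Fermat.Agent.M1.Fib.Branch98 Fermat.Agent.M1.Fib.Constants98 Fermat.Agent.M1.Fib.H0k98
  Fermat.Agent.M1.Pic2.Defs60 Fermat.Agent.M1.NRM.ToricLead88 Fermat.Agent.M1.NRM.PushReg88
  Fermat.Agent.ORD.Geo.CartPkg20

noncomputable section

/-! ### Two `Algebra E F` structures on one pair of fields -/

section Two

variable {R K E F : Type*} [CommRing R] [Field K] [Field E] [Field F] [Algebra K F] [Algebra R F]
  [Algebra K E] [Algebra R E]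
variable {π : R} {B0 B1 B01 : Subalgebra R F} {O1 O2 : ValuationSubring F}
variable {q : ℕ} {t : F}
  {C0 C1 C01 : Subalgebra R E} {O' : ValuationSubring E}
  {D0 D1 D01 : Subalgebra R E} {O'' : ValuationSubring E}

/-- **HK4 for a `TorsFrame`, divisor level, both degeneracy maps defined on the same field `E`**:
`HtorWire15.TorsFrame.exists_lead_isToric_of_pushData` with `E₁ = E₂ = E`, the two `Algebra E F`
structures `i₁`, `i₂` (and the instances depending on them) being explicit arguments. -/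
theorem exists_lead_isToric_two [HasPrincipalDivisors K F] [Fact q.Prime]
    (W : TorsFrame (K := K) π t B0 B1 B01 O1 O2)
    (i₁ : Algebra E F) (s₁ : letI := i₁; IsScalarTower K E F)
    (r₁ : letI := i₁; IsScalarTower R E F) (d₁ : letI := i₁; FiniteDimensional E F)
    (p₁ : letI := i₁; Algebra.IsSeparable E F)
    (i₂ : Algebra E F) (s₂ : letI := i₂; IsScalarTower K E F)
    (r₂ : letI := i₂; IsScalarTower R E F) (d₂ : letI := i₂; FiniteDimensional E F)
    (p₂ : letI := i₂; Algebra.IsSeparable E F)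
    (hα : letI := i₁; Branch π q C0 C1 C01 O' O1 O2 B0 B1 B01)
    (hβ : letI := i₂; Branch π q D0 D1 D01 O'' O2 O1 B0 B1 B01)
    {n : ℕ} (hn : 1 ≤ n) {D : Divisor K F} (hD : HasLevel π B0 B1 O1 O2 n D)
    {f₁ f₂ : E}
    (hDα : letI := i₁; PushData C0 C1 O' B0 B1 D f₁)
    (hDβ : letI := i₂; PushData D0 D1 O'' B0 B1 D f₂) :
    ∃ c, HasLead (algebraMap R F π) n (W.pair D) c ∧
      Fermat.Agent.M1.Pic2.ToricPic15.IsToric π B0 B1 O1 O2 c :=
  @Fermat.Agent.M1.Car.HtorWire15.TorsFrame.exists_lead_isToric_of_pushData R K F _ _ _ _ _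
    π B0 B1 B01 O1 O2 E E _ _ _ _ _ _ i₁ s₁ r₁ d₁ p₁ i₂ s₂ r₂ d₂ p₂ q t
    C0 C1 C01 O' D0 D1 D01 O'' _ _ W hα hβ n hn D hD f₁ f₂ hDα hDβ

end Two

/-! ### The model of record -/

section Model

/-! Shortcuts to the instances found (slowly) by instance search: the same terms as in
`CartPkg20` / `HtorAt15` / `SystemInst20`. -/

local instance (priority := 5000) algKFK15m (M : ℕ) (K : IntermediateField ℚ Qbar) :
    Algebra K (FK M K) := SubalgebraClass.toAlgebra (FK M K)

local instance (priority := 5000) modKFK15m (M : ℕ) (K : IntermediateField ℚ Qbar) :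
    Module K (FK M K) := Algebra.toModule

local instance (priority := 5000) smulKFK15m (M : ℕ) (K : IntermediateField ℚ Qbar) :
    SMul K (FK M K) := Algebra.toSMul

local instance (priority := 5000) algAKFK15m (A : ValuationSubring Qbar)
    (K : IntermediateField ℚ Qbar) (M : ℕ) : Algebra (AK A K) (FK M K) :=
  Algebra.ofSubsemiring (AK A K)

local instance (priority := 5000) modAKFK15m (A : ValuationSubring Qbar)
    (K : IntermediateField ℚ Qbar) (M : ℕ) : Module (AK A K) (FK M K) := Algebra.toModule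

local instance (priority := 5000) smulAKFK15m (A : ValuationSubring Qbar)
    (K : IntermediateField ℚ Qbar) (M : ℕ) : SMul (AK A K) (FK M K) := Algebra.toSMul

/-- The scalar tower `A ∩ K → K → K·F_N`. -/
local instance towerAK15m (A : ValuationSubring Qbar) (K : IntermediateField ℚ Qbar) (N : ℕ) :
    IsScalarTower (AK A K) K (FK N K) :=
  IsScalarTower.of_algebraMap_eq fun _ => rfl

variable {p M'' : ℕ} [NeZero M''] [NeZero p] {A : ValuationSubring Qbar}
  {L : IntermediateField ℚ Qbar} [FiniteDimensional ℚ L] [Normal ℚ L]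

local instance charZeroFK15m (M : ℕ) : CharZero ↥(FK M L) :=
  Fermat.Agent.ORD.Geo.NormKInst6.charZero_laurentBaseChange (↥L) (modularFunctionFieldFull M)

/-- **`CartPkg20.HtorAt` for the model of record** over a finite normal number field
`L ∋ ζ_{M''}`, `p` odd, `p ∤ M''`, `4 ∣ M''`, for `Kpush = ker α_* ⊓ ker β_*`: the `htor` binder of
`SystemInst20.pkgInputAt_of_thick_htor`. -/
theorem htorAt_model (hp : p.Prime) (hp2 : p ≠ 2) (hpM : ¬ p ∣ M'') (hM : 4 ∣ M'')
    (hA : A.LiesOverPrime p) (hζ : zetaK M'' ∈ L)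
    (ht : tq (↥L) 4 8 ∈ FK M'' L) (hE : FK (M'' * p) L ≤ fracField (AK A L))
    {ϖ : ↥(AK A L)} (hϖ : IsUnif (AK A L) ϖ)
    (Nd : NodalNumData (↥(AK A L)) (↥L) (↥(FK (M'' * p) L)) ϖ (tN p ht) (B0 A p ht) (B1 A p ht)
      (O1 M'' p hϖ hE) (O2 M'' p hϖ hE)) :
    HtorAt Nd (Fermat.Agent.M1.Mod.ACModel98.residueAlgClosed_O1 M'' p hϖ hE)
      (Fermat.Agent.M1.Mod.ACModel98.residueAlgClosed_O2 M'' p hϖ hE)
      (Fermat.Agent.M1.Fib.NodeExists61.hasNode_of_numData Nd) p
      (Fermat.Agent.ORD.Geo.Lvl91.Kpush hp hpM) := by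
  haveI : Fact p.Prime := ⟨hp⟩
  haveI hdvr : IsDiscreteValuationRing ↥(AK A L) :=
    Fermat.Agent.RED.DESC.NumberFieldDVR27.isDiscreteValuationRing_AK A L hp.ne_zero hA
  have hirr : Irreducible ϖ :=
    (IsDiscreteValuationRing.irreducible_iff_uniformizer ϖ).mpr hϖ.max_eq
  obtain ⟨-, -, hS2, -, -⟩ := Fermat.Agent.ES.P36.ModelQAt4.items_four_at (A := A) (K := L)
    hp hp2 hpM hM hA hζ (Fermat.Agent.ES.P36.ModelQAt4.frobInvAt_of_normal hp hA)
  obtain ⟨hy0, hy1⟩ := hS2 ht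
  have hα := Fermat.Agent.M1.NRM.BranchModel88.branch_alpha_four hp hpM hM hA hζ ht hE ϖ hϖ
    (Fermat.Agent.M1.Mod.ACModel98.residueAlgClosed_O1 M'' p hϖ hE)
    (B01 := overlap (tN p ht) (B0 A p ht) Nd.model.t_mem) (fun x hx => hx)
  have hβ := Fermat.Agent.M1.NRM.BranchModel88.branch_beta_four hp hp2 hpM hM hA hζ ht hE ϖ hϖ
    (Fermat.Agent.M1.Mod.ACModel98.residueAlgClosed_O2 M'' p hϖ hE)
    (B01 := overlap (tN p ht) (B0 A p ht) Nd.model.t_mem) (fun x hx => hx)
  have harch := Fermat.Agent.M1.NRM.PushFinal70.harch_of_gauss (M' := M'') hirr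
    (O' := OvK A L M'' hϖ) (fun x => mem_OvK_iff A L M'' hϖ x)
  intro n hn D hD _ hK
  obtain ⟨f₁, f₂, h₁, h₂⟩ := Fermat.Agent.M1.NRM.PushFinal70.hpush_model hp hpM ht hy0 hy1
    (Fermat.Agent.M1.NRM.BranchModel88.lowerModel_four hp hpM hM hA hζ ht ϖ hϖ) harch D hK
  exact exists_lead_isToric_two
    (torsFrame_of_numData Nd (Fermat.Agent.M1.Mod.ACModel98.residueAlgClosed_O1 M'' p hϖ hE)
      (Fermat.Agent.M1.Mod.ACModel98.residueAlgClosed_O2 M'' p hϖ hE)
      (Fermat.Agent.M1.Fib.NodeExists61.hasNode_of_numData Nd))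
    (algebraAlong (alpha L M'' p)) (isScalarTower_along (alpha L M'' p))
    (Fermat.Agent.M1.NRM.BranchVal88.towerAlpha M'' p)
    (Fermat.Agent.M1.NRM.BranchVal88.finite_alpha M'' p hp hpM)
    (Fermat.Agent.M1.NRM.PushInst70.isSeparable_along (alpha L M'' p)
      (Fermat.Agent.ES.HECKE.AlongDegree25.finiteAlong_alpha (↥L) M'' p hp hpM))
    (algebraAlong (beta L M'' p)) (isScalarTower_along (beta L M'' p))
    (Fermat.Agent.M1.NRM.BranchVal88.towerBeta M'' p)
    (Fermat.Agent.M1.NRM.BranchVal88.finite_beta M'' p hp hpM)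
    (Fermat.Agent.M1.NRM.PushInst70.isSeparable_along (beta L M'' p)
      (Fermat.Agent.ES.HECKE.AlongDegree25.finiteAlong_beta (↥L) M'' p hp hpM))
    hα hβ hn hD h₁ h₂

/-- **`CartPkg20.ModelHyp` for the model of record** from thick nodes alone. -/
theorem modelHyp_model (hp : p.Prime) (hp2 : p ≠ 2) (hpM : ¬ p ∣ M'') (hM : 4 ∣ M'')
    (hA : A.LiesOverPrime p) (hζ : zetaK M'' ∈ L)
    (ht : tq (↥L) 4 8 ∈ FK M'' L) (hE : FK (M'' * p) L ≤ fracField (AK A L))
    {ϖ : ↥(AK A L)} (hϖ : IsUnif (AK A L) ϖ)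
    (Nd : NodalNumData (↥(AK A L)) (↥L) (↥(FK (M'' * p) L)) ϖ (tN p ht) (B0 A p ht) (B1 A p ht)
      (O1 M'' p hϖ hE) (O2 M'' p hϖ hE)) {e : ℕ}
    (hth : Fermat.Agent.M1.Car.NodeFrame58.ThickNodes ϖ (B0 A p ht) (B1 A p ht)
      (O1 M'' p hϖ hE) (O2 M'' p hϖ hE) e) :
    ModelHyp Nd p (Fermat.Agent.ORD.Geo.Lvl91.Kpush hp hpM) :=
  ModelHyp.of_thickNodes Nd _ _ _ hth (htorAt_model hp hp2 hpM hM hA hζ ht hE hϖ Nd)

/-- **`SystemInst20.PkgInputAt` for the model of record** over a finite normal `L ∋ ζ_{M''}` from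
the nodal data and thick nodes alone. -/
theorem pkgInputAt_model (hp : p.Prime) (hp2 : p ≠ 2) (hpM : ¬ p ∣ M'') (hM : 4 ∣ M'')
    (hA : A.LiesOverPrime p) (hζ : zetaK M'' ∈ L)
    (ht : tq (↥L) 4 8 ∈ FK M'' L) (hE : FK (M'' * p) L ≤ fracField (AK A L))
    {ϖ : ↥(AK A L)} (hϖ : IsUnif (AK A L) ϖ)
    (Nd : NodalNumData (↥(AK A L)) (↥L) (↥(FK (M'' * p) L)) ϖ (tN p ht) (B0 A p ht) (B1 A p ht)
      (O1 M'' p hϖ hE) (O2 M'' p hϖ hE)) {e : ℕ}
    (hth : Fermat.Agent.M1.Car.NodeFrame58.ThickNodes ϖ (B0 A p ht) (B1 A p ht)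
      (O1 M'' p hϖ hE) (O2 M'' p hϖ hE) e) :
    Fermat.Agent.ORD.Geo.SystemInst20.PkgInputAt p M'' A
      (Fermat.Agent.ORD.Geo.Lvl91.Kpush hp hpM) L :=
  Fermat.Agent.ORD.Geo.SystemInst20.pkgInputAt_of_thick_htor ht hE hϖ Nd hth
    (htorAt_model hp hp2 hpM hM hA hζ ht hE hϖ Nd)

end Model

end

end Fermat.Agent.ORD.Geo.HtorModel15
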