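/-
ORD (S33), chapter G (GeoData), G3-final -- helper20.

**`GeoWire20.PkgInputStmt`, hence `GeoTop40.GeoPkgStmt` and `GeoLite40.GeoStmtLite`: CHAPTER G.**

For every odd prime `p`, every `M₂` with `4 ∣ M₂`, `p ∤ M₂`, every place `P` of `ℚ̄` over `p` and
every number field `L₀ ⊂ ℚ̄` there is a finite normal `L ⊇ L₀` over which the model of record
satisfies `SystemInst20.PkgInputAt p M₂ P (Lvl91.Kpush hp hpM) L`:

* `L₁` := a finite normal field containing `L₀` and `ζ_{M₂}` (`System20.Fld.exists_ge`);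
* `L := L₁(ζ_m)`, `p ∤ m`, with all nodes of the model over `inertiaPart P L` rational
  (helper56's `ThickEnlarge56.exists_ratNodes_enlarge_four` / `exists_field_of`, from helper73's
  RAT-NODES `RatNodesFinal73.exists_cyclo_rat_nodes`);
* `ht`, `hE`, the `NodalNumData` for every uniformiser: `ModelQAt4.nodalNumData_four_at` +
  `frobInvAt_of_normal`; a uniformiser `ϖ` of `P ∩ L` (DVR);
* thick nodes over `L`: helper97's `ThickAll97.thickNodes_four`;
* `HtorAt` and the assembly of `PkgInputAt`: helper15's `HtorModel15.pkgInputAt_model`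
  (helper88's branches of HK4, helper70's push data).
-/
import Mathlib
import Fermat.Agent.ORD.Geo.GeoWire20
import Fermat.Agent.ORD.Geo.HtorModel15
import Fermat.Agent.ORD.Geo.ThickAll97
import Fermat.Agent.M1.Mod.ThickEnlarge56
import Fermat.Agent.ES.P36.ModelQAt4

set_option autoImplicit false
set_option linter.unusedSectionVars false
set_option linter.style.haveILetI false
set_option synthInstance.maxHeartbeats 400000
set_option maxHeartbeats 2000000

open AlgebraicCurve ModularCurve IntermediateField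

namespace Fermat.Agent.ORD.Geo.GeoPkg20

open Fermat.Agent.RED.Interface4 Fermat.Agent.RED.PUR.GaussGen8
  Fermat.Agent.RED.DESC.NumberFieldDVR27 Fermat.Agent.X0
  Fermat.Agent.ORD.Geo.System20 Fermat.Agent.ORD.Geo.SystemInst20 Fermat.Agent.ORD.Geo.GeoWire20

/-- **The per-field input over a cofinal family of fields**, for one `(p, M₂, P)`. -/
theorem exists_pkgInputAt {p M₂ : ℕ} [NeZero p] [NeZero M₂] (hp : p.Prime) (hp2 : p ≠ 2)
    (hpM : ¬ p ∣ M₂) (h4 : 4 ∣ M₂) {P : ValuationSubring Qbar} (hP : P.LiesOverPrime p)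
    (L₀ : IntermediateField ℚ Qbar) [FiniteDimensional ℚ L₀] :
    ∃ (L : IntermediateField ℚ Qbar) (_ : FiniteDimensional ℚ L) (_ : Normal ℚ L),
      L₀ ≤ L ∧ PkgInputAt p M₂ P (Fermat.Agent.ORD.Geo.Lvl91.Kpush hp hpM) L := by
  -- a finite normal field containing `L₀` and `ζ_{M₂}`
  haveI : FiniteDimensional ℚ ℚ⟮zetaK M₂⟯ :=
    adjoin.finiteDimensional ((AlgebraicClosure.isAlgebraic ℚ).isAlgebraic (zetaK M₂)).isIntegral
  haveI : FiniteDimensional ℚ ↥(L₀ ⊔ ℚ⟮zetaK M₂⟯) :=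
    IntermediateField.finiteDimensional_sup L₀ ℚ⟮zetaK M₂⟯
  obtain ⟨i₁, hi₁⟩ := Fld.exists_ge (K₀ := (⊥ : IntermediateField ℚ Qbar)) (L₀ ⊔ ℚ⟮zetaK M₂⟯)
  haveI := i₁.fin
  haveI := i₁.normal
  have hζ₁ : zetaK M₂ ∈ i₁.K :=
    hi₁ ((le_sup_right : ℚ⟮zetaK M₂⟯ ≤ L₀ ⊔ ℚ⟮zetaK M₂⟯) (mem_adjoin_simple_self ℚ (zetaK M₂)))
  have hL₀ : L₀ ≤ i₁.K := (le_sup_left : L₀ ≤ L₀ ⊔ ℚ⟮zetaK M₂⟯).trans hi₁
  -- the cyclotomic enlargement with rational nodes over the inertial part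
  obtain ⟨m, hm, hpm, H⟩ :=
    Fermat.Agent.M1.Mod.ThickEnlarge56.exists_ratNodes_enlarge_four hp hp2 hpM h4 hP i₁.K hζ₁
  obtain ⟨L, hLf, hLn, hle, hζ, -, hrat⟩ :=
    Fermat.Agent.M1.Mod.ThickEnlarge56.exists_field_of hm hpm hp hP i₁.K hζ₁ H
  haveI := hLf
  haveI := hLn
  -- the model of record over `L`
  obtain ⟨ht, hE, hNd⟩ := Fermat.Agent.ES.P36.ModelQAt4.nodalNumData_four_at hp hp2 hpM h4 hP hζ
    (Fermat.Agent.ES.P36.ModelQAt4.frobInvAt_of_normal hp hP)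
  haveI : IsDiscreteValuationRing ↥(AK P L) := isDiscreteValuationRing_AK P L hp.ne_zero hP
  obtain ⟨ϖ, hirr⟩ := IsDiscreteValuationRing.exists_irreducible ↥(AK P L)
  have hϖ : IsUnif (AK P L) ϖ := isUnif_of_irreducible (AK P L) hirr
  -- thick nodes
  obtain ⟨e, -, -, hth⟩ :=
    Fermat.Agent.ORD.Geo.ThickAll97.thickNodes_four hp hp2 hpM h4 hP L hζ hrat ht hE ϖ hϖ
  exact ⟨L, hLf, hLn, hL₀.trans hle,
    Fermat.Agent.ORD.Geo.HtorModel15.pkgInputAt_model hp hp2 hpM h4 hP hζ ht hE hϖ (hNd ϖ hϖ) hth⟩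

/-- **Chapter G, the per-field statement.** -/
theorem pkgInputStmt : PkgInputStmt :=
  fun _ _ hp hp2 _ _ hpM h4 _ hP L₀ _ => exists_pkgInputAt hp hp2 hpM h4 hP L₀

/-- **Chapter G3-final: `GeoTop40.GeoPkgStmt`.** -/
theorem geoPkgStmt : Fermat.Agent.ORD.Geo.GeoTop40.GeoPkgStmt :=
  geoPkgStmt_of_pkgInput pkgInputStmt

/-- **Chapter G: `GeoLite40.GeoStmtLite`.** -/
theorem geoStmtLite : Fermat.Agent.ORD.Spec.GeoLite40.GeoStmtLite :=
  geoStmtLite_of_pkgInput pkgInputStmt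

end Fermat.Agent.ORD.Geo.GeoPkg20
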