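/-
ORD (S33), chapter G, brick (B2) HTOR-INST of report #1888 — helper15.

**(T5') and (T7') of the per-field package `System20.CartPkg`, and the depth contract over one
field, with every model input discharged.**  For a nodal two-chart model
`N : NodalNumData R K F π t B0 B1 O1 O2` with

* algebraically closed residue fields of the two components (`hac1`, `hac2`: MOD-AC),
* thick nodes (`hth : NodeFrame58.ThickNodes π B0 B1 O1 O2 e'`; only used through
  `SemiLocal98.nodeSumAt_of_thickNodes`, any thickness),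
* finite residue field `R / π` (number-field base),
* the two branches of HK4 (`hα hβ : ToricLead88.Branch ..`, helper88's `BranchInst88`),
* `hpush` : every degree-zero divisor whose class lands in `Kpush` has principal degeneracy
  push-forwards (`PushReg88.PushData` along `α` and `β`: brick PUSH-INST),

we get, for `C n := Cart π B0 B1 O1 O2 _ _ n`, `bc : Pic0 K F →+ J` and `e = d (p - 1)`:

* `cart_T5_of_pushData` : `∀ n, 1 ≤ n → n < d → ∀ x ∈ C n, p • x = 0 → bc x ∈ Kpush → x ∈ C (n+1)`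
  (LITERALLY the field `T5` of `System20.CartPkg` for `bc := bcPic0 N K`);
* `cart_T7_of_numData` : `∀ x ∈ C (d + 1), p • x = 0 → x = 0` (LITERALLY the field `T7`);
* `htor_of_pushData` : the literal binder `htor` of `ClimbFin15.depthContract_of_numData_fin`;
* `depthContract_of_pushData` : `Abstract40.DepthContract p d I cyc Kpush (fun n => (C n).map bc)`
  given (T1'') (chapter G1, `SigmaCart20`).

The existence of a node is `NodeExists61.hasNode_of_numData`; `hperf` is `ClimbFin15`.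
The concrete instance over `A ∩ K` (`CartPkg20.HtorAt`, `CartPkg20.ModelHyp`) is in
`ORD/Geo/HtorAt15`.
-/
import Mathlib
import Fermat.Agent.ORD.Geo.ClimbFin15
import Fermat.Agent.M1.Car.HtorWire15
import Fermat.Agent.M1.Fib.SemiLocal98
import Fermat.Agent.M1.Fib.NodeExists61

set_option autoImplicit false

namespace Fermat.Agent.ORD.Geo.HtorInst15

open AlgebraicCurve Fermat.Agent.ES.N34.NodalCore13 Fermat.Agent.ES.N34.NumData13
  Fermat.Agent.M1.Car.Defs43 Fermat.Agent.M1.Car.TorsClass43 Fermat.Agent.M1.Car.TorsInst15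
  Fermat.Agent.M1.Fib.Branch98 Fermat.Agent.M1.Fib.Constants98 Fermat.Agent.M1.Fib.H0k98
  Fermat.Agent.M1.Fib.Seminormal98 Fermat.Agent.M1.Pic2.Defs60
  Fermat.Agent.M1.Car.NodeFrame58 Fermat.Agent.M1.NRM.ToricLead88 Fermat.Agent.M1.NRM.PushReg88
  Fermat.Agent.ORD.Geo.Abstract40 Fermat.Agent.ORD.Geo.Climb15 Fermat.Agent.ORD.Geo.ClimbFin15

section General

variable {R K F : Type*} [CommRing R] [Field K] [Field F] [Algebra R K] [Algebra K F]
  [Algebra R F] [IsScalarTower R K F]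
variable {π : R} {t : F} {B0 B1 : Subalgebra R F} {O1 O2 : ValuationSubring F}
variable {E₁ E₂ : Type*} [Field E₁] [Field E₂]
  [Algebra K E₁] [Algebra K E₂] [Algebra R E₁] [Algebra R E₂]
  [Algebra E₁ F] [IsScalarTower K E₁ F] [IsScalarTower R E₁ F] [FiniteDimensional E₁ F]
  [Algebra.IsSeparable E₁ F]
  [Algebra E₂ F] [IsScalarTower K E₂ F] [IsScalarTower R E₂ F] [FiniteDimensional E₂ F]
  [Algebra.IsSeparable E₂ F]
variable {q : ℕ}
  {C0 C1 C01 : Subalgebra R E₁} {O' : ValuationSubring E₁}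
  {D0 D1 D01 : Subalgebra R E₂} {O'' : ValuationSubring E₂}
variable {J : Type*} [AddCommGroup J]

/-- **The binder `htor` of `ClimbFin15.depthContract_of_numData_fin`** (node discharged). -/
theorem htor_of_pushData [HasPrincipalDivisors K F] [Fact q.Prime]
    (N : NodalNumData R K F π t B0 B1 O1 O2)
    (hac1 : ResidueAlgClosed π O1) (hac2 : ResidueAlgClosed π O2)
    (hα : Branch π q C0 C1 C01 O' O1 O2 B0 B1 (overlap t B0 N.model.t_mem))
    (hβ : Branch π q D0 D1 D01 O'' O2 O1 B0 B1 (overlap t B0 N.model.t_mem))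
    (bc : Pic0 K F →+ J) (Kpush : AddSubgroup J)
    (hpush : ∀ D : Divisor.degZero (K := K) (F := F), bc (Pic0.mk D) ∈ Kpush →
      ∃ (f₁ : E₁) (f₂ : E₂), PushData C0 C1 O' B0 B1 (D : Divisor K F) f₁ ∧
        PushData D0 D1 O'' B0 B1 (D : Divisor K F) f₂)
    {p d : ℕ} :
    ∀ n : ℕ, 1 ≤ n → n < d → ∀ D : Divisor.degZero (K := K) (F := F),
      HasLevel π B0 B1 O1 O2 n (D : Divisor K F) → p • Pic0.mk D = 0 →
      bc (Pic0.mk D) ∈ Kpush →
      ∃ c, HasLead (algebraMap R F π) n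
          ((torsFrame_of_numData N hac1 hac2
            (Fermat.Agent.M1.Fib.NodeExists61.hasNode_of_numData N)).pair (D : Divisor K F)) c ∧
        Fermat.Agent.M1.Pic2.ToricPic15.IsToric π B0 B1 O1 O2 c :=
  Fermat.Agent.M1.Car.HtorWire15.htor_climb_of_pushData N hac1 hac2
    (Fermat.Agent.M1.Fib.NodeExists61.hasNode_of_numData N) hα hβ bc Kpush hpush

/-- **(T5') of `System20.CartPkg`** on the Cartier filtration itself (no `map bc`): below the
threshold `d = e / (p - 1)` a `p`-torsion class of level `n ≥ 1` killed by both degeneracy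
push-forwards has level `n + 1`. -/
theorem cart_T5_of_pushData [HasPrincipalDivisors K F] [Fact q.Prime]
    (N : NodalNumData R K F π t B0 B1 O1 O2) [Finite (R ⧸ (Ideal.span {π} : Ideal R))]
    (hac1 : ResidueAlgClosed π O1) (hac2 : ResidueAlgClosed π O2) {e' : ℕ}
    (hth : ThickNodes π B0 B1 O1 O2 e')
    (hα : Branch π q C0 C1 C01 O' O1 O2 B0 B1 (overlap t B0 N.model.t_mem))
    (hβ : Branch π q D0 D1 D01 O'' O2 O1 B0 B1 (overlap t B0 N.model.t_mem))
    {hπ1 : algebraMap R F π ∈ O1} {hπ2 : algebraMap R F π ∈ O2}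
    (bc : Pic0 K F →+ J) (Kpush : AddSubgroup J)
    (hpush : ∀ D : Divisor.degZero (K := K) (F := F), bc (Pic0.mk D) ∈ Kpush →
      ∃ (f₁ : E₁) (f₂ : E₂), PushData C0 C1 O' B0 B1 (D : Divisor K F) f₁ ∧
        PushData D0 D1 O'' B0 B1 (D : Divisor K F) f₂)
    {p e d : ℕ} (hp : p.Prime) (u : Rˣ) (hpe : (p : R) = π ^ e * u) (he : e = d * (p - 1)) :
    ∀ n : ℕ, 1 ≤ n → n < d → ∀ x ∈ Cart π B0 B1 O1 O2 hπ1 hπ2 n, p • x = 0 →
      bc x ∈ Kpush → x ∈ Cart π B0 B1 O1 O2 hπ1 hπ2 (n + 1) := by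
  intro n hn hnd x hx hpx hK
  obtain ⟨D, rfl, hD⟩ := hx
  have hns := Fermat.Agent.M1.Fib.SemiLocal98.nodeSumAt_of_thickNodes hth
  have h2 := hp.two_le
  have he1 : 1 ≤ e := by
    rw [he]
    exact Nat.one_le_iff_ne_zero.mpr (Nat.mul_ne_zero (by omega) (by omega))
  exact cart_succ_of_toric_of_numData N hac1 hac2
    (Fermat.Agent.M1.Fib.NodeExists61.hasNode_of_numData N) hns.1 hns.2 hp u hpe
    (hperf_of_numData N hp u hpe he1) hn (mul_lt_add hp.two_le he hnd) D hD hpx
    (htor_of_pushData N hac1 hac2 hα hβ bc Kpush hpush n hn hnd D hD hpx hK)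

/-- **(T7') of `System20.CartPkg`** on the Cartier filtration itself: no `p`-torsion above the
threshold. -/
theorem cart_T7_of_numData [HasPrincipalDivisors K F]
    (N : NodalNumData R K F π t B0 B1 O1 O2)
    (hac1 : ResidueAlgClosed π O1) (hac2 : ResidueAlgClosed π O2)
    {hπ1 : algebraMap R F π ∈ O1} {hπ2 : algebraMap R F π ∈ O2}
    {p e d : ℕ} (hp : p.Prime) (u : Rˣ) (hpe : (p : R) = π ^ e * u) (he : e = d * (p - 1)) :
    ∀ x ∈ Cart (K := K) π B0 B1 O1 O2 hπ1 hπ2 (d + 1), p • x = 0 → x = 0 := by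
  intro x hx hpx
  exact cart_torsion_free_of_numData N hac1 hac2
    (Fermat.Agent.M1.Fib.NodeExists61.hasNode_of_numData N) hp u hpe
    (Nat.succ_le_succ (Nat.zero_le d)) (succ_add_lt hp.two_le he) hx hpx

/-- **The depth contract over one field with every model input discharged**: remaining inputs are
MOD-AC (`hac1`, `hac2`), thick nodes (`hth`), HK4's branches and push data (`hα`, `hβ`, `hpush`),
the arithmetic `p = π ^ e u`, `e = d (p - 1)`, `d ≥ 1`, and (T1'') (`SigmaCart20`). -/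
theorem depthContract_of_pushData [HasPrincipalDivisors K F] [Fact q.Prime]
    {Γ : Type*} [Group Γ] [DistribMulAction Γ J]
    (N : NodalNumData R K F π t B0 B1 O1 O2) [Finite (R ⧸ (Ideal.span {π} : Ideal R))]
    (hac1 : ResidueAlgClosed π O1) (hac2 : ResidueAlgClosed π O2) {e' : ℕ}
    (hth : ThickNodes π B0 B1 O1 O2 e')
    (hα : Branch π q C0 C1 C01 O' O1 O2 B0 B1 (overlap t B0 N.model.t_mem))
    (hβ : Branch π q D0 D1 D01 O'' O2 O1 B0 B1 (overlap t B0 N.model.t_mem))
    {hπ1 : algebraMap R F π ∈ O1} {hπ2 : algebraMap R F π ∈ O2}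
    (bc : Pic0 K F →+ J) (hbc : Function.Injective bc) (Kpush : AddSubgroup J)
    (hpush : ∀ D : Divisor.degZero (K := K) (F := F), bc (Pic0.mk D) ∈ Kpush →
      ∃ (f₁ : E₁) (f₂ : E₂), PushData C0 C1 O' B0 B1 (D : Divisor K F) f₁ ∧
        PushData D0 D1 O'' B0 B1 (D : Divisor K F) f₂)
    (I : Set Γ) (cyc : Γ → ℕ → Prop)
    {p e d : ℕ} (hp : p.Prime) (u : Rˣ) (hpe : (p : R) = π ^ e * u) (he : e = d * (p - 1))
    (hd : 1 ≤ d)
    (T1 : ∀ τ ∈ I, ∀ c : ℕ, cyc τ c → ∀ x ∈ (Cart π B0 B1 O1 O2 hπ1 hπ2 d).map bc,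
      τ • x - c • x ∈ (Cart π B0 B1 O1 O2 hπ1 hπ2 (d + 1)).map bc) :
    DepthContract p d I cyc Kpush (fun n => (Cart π B0 B1 O1 O2 hπ1 hπ2 n).map bc) := by
  have hns := Fermat.Agent.M1.Fib.SemiLocal98.nodeSumAt_of_thickNodes hth
  exact depthContract_of_numData_fin N hac1 hac2
    (Fermat.Agent.M1.Fib.NodeExists61.hasNode_of_numData N) hns.1 hns.2 bc hbc Kpush I cyc hp u hpe
    he hd (htor_of_pushData N hac1 hac2 hα hβ bc Kpush hpush) T1

end General

end Fermat.Agent.ORD.Geo.HtorInst15
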