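/-
ORD (S33), chapter G, brick G4 (helper95), abstract part: **transfer of `Spec40.GeoData` from an
auxiliary level to the level of interest.**

`G₂ : GeoData p N₂ M₂ P` at the auxiliary level (think `N₂ = lcm(N, 4)`, `M₂ = lcm(M, 4)`),
`πN : J₀(N) → J₀(N₂)`, `πM : J₀(M) → J₀(M₂)` the level pull-backs (`πN` Galois-equivariant and
injective on `p`-torsion), `pα pβ : J₀(N) → J₀(M)` Galois- and Hecke-equivariant pushes fitting in
the base-change squares `G₂.pα ∘ πN = πM ∘ pα`, `G₂.pβ ∘ πN = πM ∘ pβ`.  Then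
`J0 := πN⁻¹(G₂.J0)`, `J1 := πN⁻¹(G₂.J1)` make a `GeoData p N M P`.
-/
import Mathlib
import Fermat.Agent.ORD.Spec.Spec40

set_option autoImplicit false

noncomputable section

namespace Fermat.Agent.ORD.Geo.LvlAbstract95

open Fermat.Agent.ORD.Spec.Spec40 ModularCurve

local notation "Qb" => AlgebraicClosure ℚ
local notation "GQ" => (AlgebraicClosure ℚ ≃ₐ[ℚ] AlgebraicClosure ℚ)

variable {p N M N₂ M₂ : ℕ} [NeZero N] [NeZero M] [NeZero N₂] [NeZero M₂]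
  {P : ValuationSubring Qb}

/-- **Transfer of GeoData along level pull-backs.** -/
def geoDataOfAux (G₂ : GeoData p N₂ M₂ P)
    (πN : JZero N →+ JZero N₂) (πM : JZero M →+ JZero M₂)
    (hπN_gal : ∀ (σ : GQ) (x : JZero N), πN (σ • x) = σ • πN x)
    (hπN_inj : ∀ x : JZero N, p • x = 0 → πN x = 0 → x = 0)
    (pα pβ : JZero N →+ JZero M)
    (pα_galois : ∀ (σ : GQ) (x : JZero N), pα (σ • x) = σ • pα x)
    (pβ_galois : ∀ (σ : GQ) (x : JZero N), pβ (σ • x) = σ • pβ x)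
    (pα_hecke : ∀ ℓ : Nat.Primes, ¬ (ℓ : ℕ) ∣ N → ∀ x : JZero N,
      pα (heckeOperatorBar N ℓ x) = heckeOperatorBar M ℓ (pα x))
    (pβ_hecke : ∀ ℓ : Nat.Primes, ¬ (ℓ : ℕ) ∣ N → ∀ x : JZero N,
      pβ (heckeOperatorBar N ℓ x) = heckeOperatorBar M ℓ (pβ x))
    (hα : ∀ x : JZero N, G₂.pα (πN x) = πM (pα x))
    (hβ : ∀ x : JZero N, G₂.pβ (πN x) = πM (pβ x)) :
    GeoData p N M P where
  pα := pα
  pβ := pβ
  pα_galois := pα_galois
  pβ_galois := pβ_galois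
  pα_hecke := pα_hecke
  pβ_hecke := pβ_hecke
  J0 := G₂.J0.comap πN
  J1 := G₂.J1.comap πN
  G2 := by
    intro σ hσ k x hx
    rw [AddSubgroup.mem_comap, map_sub, hπN_gal]
    refine G₂.G2 σ hσ k (πN x) ?_
    rw [← map_nsmul, hx, map_zero]
  G3 := by
    intro σ hσ k x hx hx0
    rw [AddSubgroup.mem_comap, map_sub, hπN_gal]
    refine G₂.G3 σ hσ k (πN x) ?_ (AddSubgroup.mem_comap.mp hx0)
    rw [← map_nsmul, hx, map_zero]
  G4 := by
    intro x hx1 hpx hαx hβx σ hσ c hc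
    have h1 : σ • πN x = c • πN x := by
      refine G₂.G4 (πN x) (AddSubgroup.mem_comap.mp hx1) ?_ ?_ ?_ σ hσ c hc
      · rw [← map_nsmul, hpx, map_zero]
      · rw [hα, hαx, map_zero]
      · rw [hβ, hβx, map_zero]
    rw [← sub_eq_zero]
    refine hπN_inj _ ?_ ?_
    · have e1 : p • (σ • x) = σ • (p • x) := smul_comm p σ x
      have e2 : p • (c • x) = c • (p • x) := smul_comm p c x
      have e0 : σ • (0 : JZero N) = 0 := smul_zero (A := JZero N) σ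
      rw [nsmul_sub, e1, e2, hpx, e0, nsmul_zero, sub_zero]
    · rw [map_sub, hπN_gal, map_nsmul, h1, sub_self]

@[simp]
theorem geoDataOfAux_pα (G₂ : GeoData p N₂ M₂ P) (πN : JZero N →+ JZero N₂)
    (πM : JZero M →+ JZero M₂) (h1 h2) (pα pβ : JZero N →+ JZero M) (h3 h4 h5 h6 h7 h8) :
    (geoDataOfAux G₂ πN πM h1 h2 pα pβ h3 h4 h5 h6 h7 h8).pα = pα := rfl

@[simp]
theorem geoDataOfAux_pβ (G₂ : GeoData p N₂ M₂ P) (πN : JZero N →+ JZero N₂)
    (πM : JZero M →+ JZero M₂) (h1 h2) (pα pβ : JZero N →+ JZero M) (h3 h4 h5 h6 h7 h8) :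
    (geoDataOfAux G₂ πN πM h1 h2 pα pβ h3 h4 h5 h6 h7 h8).pβ = pβ := rfl

end Fermat.Agent.ORD.Geo.LvlAbstract95
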